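import Fermat.Agent.ClassField.Idele.Class

/-!
# Levels: classes of a number field, relative norms, unramified levels
-/

set_option autoImplicit false

noncomputable section

open IntermediateField

namespace Fermat.Agent.ClassField.Idele

local notation "Qb" => AlgebraicClosure ℚ
local notation "Γ" => (AlgebraicClosure ℚ ≃ₐ[ℚ] AlgebraicClosure ℚ)

variable {M : Type*} [CommGroup M] [MulDistribMulAction Γ M]

/-- Product of the translates over the cosets `H / (U ⊓ H)`: the relative norm. -/
def cosetProd (H U : Subgroup Γ) (m : M) : M :=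
  ∏ᶠ q : H ⧸ U.subgroupOf H, ((q.out : H) : Γ) • m

/-- The relative norm between two levels. -/
abbrev relNorm (k L : IntermediateField ℚ Qb) (m : M) : M :=
  cosetProd k.fixingSubgroup L.fixingSubgroup m

/-- The classes of the ideles of a number field. -/
def classesOf (S : Set Nat.Primes) (K : IntermediateField ℚ Qb) : Subgroup (IdeleClass S) :=
  (idelesOf K).map (classMap S)

/-- The group of relative norms of classes. -/
def normClasses (S : Set Nat.Primes) (k L : IntermediateField ℚ Qb) : Subgroup (IdeleClass S) :=
  Subgroup.closure (relNorm k L '' (classesOf S L : Set (IdeleClass S)))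

/-- Classes of norm one. -/
def normOneClasses (S : Set Nat.Primes) (k L : IntermediateField ℚ Qb) : Set (IdeleClass S) :=
  {c | c ∈ classesOf S L ∧ relNorm k L c = 1}

/-- The local inertia group at `ℓ` of `PadicAlgCl ℓ`. -/
def localInertia (ℓ : Nat.Primes) : Set (LocalGal ℓ) :=
  {τ | ∀ x : PadicAlgCl (ℓ : ℕ), ‖x‖ ≤ 1 → ‖τ x - x‖ < 1}

/-- Every place of `k` over `ℓ` is unramified in `L`. -/
def IsUnramifiedAt (k L : IntermediateField ℚ Qb) (ℓ : Nat.Primes) : Prop :=
  ∀ ι : Emb ℓ, ∀ τ ∈ localInertia ℓ, (∀ x ∈ k, τ (ι x) = ι x) → ∀ x ∈ L, τ (ι x) = ι x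

/-- A cyclic extension of prime degree of number fields inside the algebraic numbers. -/
structure IsPrimeCyclic (p : ℕ) (k L : IntermediateField ℚ Qb) : Prop where
  finite : FiniteDimensional ℚ L
  le : k ≤ L
  index_eq : (L.fixingSubgroup.subgroupOf k.fixingSubgroup).index = p
  normal : (L.fixingSubgroup.subgroupOf k.fixingSubgroup).Normal

end Fermat.Agent.ClassField.Idele
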