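import Fermat.Agent.ClassField.Idele.Local
import Fermat.Agent.ClassField.Idele.Level

/-!
# Galois descent for classes modulo units away from `S`

For `F / K` unramified outside `S` the invariant classes of `F` are the classes of `K`: away from
`S` an idele is a power of `ℓ` up to units.
-/

set_option autoImplicit false

noncomputable section

open IntermediateField

namespace Fermat.Agent.ClassField.Idele

local notation "Qb" => AlgebraicClosure ℚ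
local notation "Γ" => (AlgebraicClosure ℚ ≃ₐ[ℚ] AlgebraicClosure ℚ)

variable {ℓ : Nat.Primes}

/-- The local field of the rationals is `ℚ_ℓ`. -/
lemma localField_bot (ι : Emb ℓ) : localField ι (⊥ : IntermediateField ℚ Qb) = ⊥ := by
  refine le_antisymm (IntermediateField.adjoin_le_iff.mpr ?_) bot_le
  rintro _ ⟨x, hx, rfl⟩
  obtain ⟨r, rfl⟩ := IntermediateField.mem_bot.1 hx
  rw [AlgHom.commutes, IsScalarTower.algebraMap_apply ℚ ℚ_[(ℓ : ℕ)] (PadicAlgCl (ℓ : ℕ))]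
  exact IntermediateField.algebraMap_mem _ _

/-- At an unramified prime absolute values are powers of `ℓ`. -/
lemma exists_norm_eq_natCast_zpow {F : IntermediateField ℚ Qb} [FiniteDimensional ℚ F]
    (hF : IsUnramifiedAt ⊥ F ℓ) (ι : Emb ℓ) {x : PadicAlgCl (ℓ : ℕ)} (hx : x ∈ localField ι F)
    (h0 : x ≠ 0) : ∃ i : ℤ, ‖x‖ = ‖((ℓ : ℕ) : PadicAlgCl (ℓ : ℕ))‖ ^ i := by
  have he := ramIdx_localField_eq bot_le hF ι
  have h1 : Module.finrank ℚ_[(ℓ : ℕ)] (localField ι (⊥ : IntermediateField ℚ Qb)) = 1 := by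
    rw [localField_bot]
    exact IntermediateField.finrank_bot
  have he1 : PadicFields.ramIdx (localField ι (⊥ : IntermediateField ℚ Qb)) = 1 :=
    Nat.eq_one_of_mul_eq_one_right ((PadicFields.ramIdx_mul_resDeg _).trans h1)
  rw [he1] at he
  obtain ⟨i, hi⟩ := PadicFields.exists_norm_eq_zpow (localField ι F) (x := ⟨x, hx⟩)
    fun h => h0 (congrArg Subtype.val h)
  refine ⟨i, ?_⟩
  have hq := PadicFields.norm_q_eq (localField ι F)
  rw [he, pow_one] at hq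
  rw [← hq] at hi
  simpa using hi

variable {S : Set Nat.Primes}

/-- The class in `IdeleClass S` determines the components in `S` up to a principal idele. -/
lemma exists_principal_apply {f g : IdeleGroup} (h : classMap S f = classMap S g) :
    ∃ x : Qbˣ, ∃ u ∈ unitsAway S, f * g⁻¹ = principal x * u := by
  have h1 : f * g⁻¹ ∈ trivialClasses S :=
    (QuotientGroup.eq_one_iff _).1
      (show classMap S (f * g⁻¹) = 1 by rw [map_mul, map_inv, h, mul_inv_cancel])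
  rw [trivialClasses, Subgroup.mem_sup] at h1
  obtain ⟨_, ⟨x, rfl⟩, u, hu, he⟩ := h1
  exact ⟨x, u, hu, he.symm⟩

/-- **Descent**: invariant classes of a level unramified outside `S` come from the base. -/
theorem classesOf_descent (hS : S.Nonempty) {K F : IntermediateField ℚ Qb}
    [FiniteDimensional ℚ F] [Normal ℚ F] (hKF : K ≤ F) (hF : ∀ ℓ ∉ S, IsUnramifiedAt ⊥ F ℓ)
    {c : IdeleClass S} (hc : c ∈ classesOf S F) (hfix : ∀ σ ∈ K.fixingSubgroup, σ • c = c) :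
    c ∈ classesOf S K := by
  classical
  obtain ⟨f, hf, rfl⟩ := hc
  obtain ⟨ℓ₀, hℓ₀⟩ := hS
  obtain ⟨ι₀⟩ := nonempty_emb ℓ₀
  have hinj : ∀ x y : Qbˣ, ((principal x : IdeleGroup) : Raw) ℓ₀ ι₀ =
      ((principal y : IdeleGroup) : Raw) ℓ₀ ι₀ → x = y := fun x y h =>
    Units.ext (ι₀.toRingHom.injective (congrArg Units.val h))
  have hdiff : ∀ σ : Γ, ∃ x : Qbˣ, σ ∈ K.fixingSubgroup →
      ∃ u ∈ unitsAway S, σ • f * f⁻¹ = principal x * u := by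
    intro σ
    by_cases hσ : σ ∈ K.fixingSubgroup
    · obtain ⟨x, hx⟩ := exists_principal_apply
        (show classMap S (σ • f) = classMap S f from hfix σ hσ)
      exact ⟨x, fun _ => hx⟩
    · exact ⟨1, fun h => absurd h hσ⟩
  choose a ha using hdiff
  -- the components over `S` determine `a`
  have hval : ∀ σ ∈ K.fixingSubgroup, ∀ {ℓ : Nat.Primes}, ℓ ∈ S → ∀ ι : Emb ℓ,
      ((principal (a σ) : IdeleGroup) : Raw) ℓ ι =
        ((σ • f * f⁻¹ : IdeleGroup) : Raw) ℓ ι := fun σ hσ ℓ hℓ ι => by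
    obtain ⟨u, hu, he⟩ := ha σ hσ
    rw [he]
    show _ = ((principal (a σ) : IdeleGroup) : Raw) ℓ ι * (u : Raw) ℓ ι
    rw [hu.1 ℓ hℓ ι, mul_one]
  have hinF : ∀ σ : Γ, σ • f * f⁻¹ ∈ idelesOf F := fun σ =>
    mul_mem (smul_mem_invariants_of_normal F σ hf) (inv_mem hf)
  obtain ⟨y, hyF, hy⟩ := exists_smul_eq_mul (L := F) K.fixingSubgroup a
    (fun σ hσ τ hτ => hinj _ _ (by
      rw [map_mul, ← smul_principal]
      show _ = ((principal (a τ) : IdeleGroup) : Raw) ℓ₀ (globalComp ι₀ σ) *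
        ((principal (a σ) : IdeleGroup) : Raw) ℓ₀ ι₀
      rw [hval _ (mul_mem hσ hτ) hℓ₀, hval τ hτ hℓ₀, hval σ hσ hℓ₀]
      show (f : Raw) ℓ₀ (globalComp ι₀ (σ * τ)) * ((f : Raw) ℓ₀ ι₀)⁻¹ =
        (f : Raw) ℓ₀ (globalComp (globalComp ι₀ σ) τ) * ((f : Raw) ℓ₀ (globalComp ι₀ σ))⁻¹ *
          ((f : Raw) ℓ₀ (globalComp ι₀ σ) * ((f : Raw) ℓ₀ ι₀)⁻¹)
      rw [globalComp_mul, mul_assoc, inv_mul_cancel_left]))
    (fun σ hσ => mem_of_forall_fixingSubgroup F fun τ hτ => by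
      refine congrArg Units.val (show τ • a σ = a σ from hinj _ _ ?_)
      rw [← smul_principal]
      show ((principal (a σ) : IdeleGroup) : Raw) ℓ₀ (globalComp ι₀ τ) = _
      rw [hval σ hσ hℓ₀, hval σ hσ hℓ₀]
      exact congrArg (fun g : IdeleGroup => (g : Raw) ℓ₀ ι₀) (hinF σ τ hτ))
    (fun σ hσ τ hτ hστ => hinj _ _ (by
      rw [hval σ hσ hℓ₀, hval τ hτ hℓ₀]
      have h : σ • f = τ • f := by
        have : τ⁻¹ * σ ∈ F.fixingSubgroup := (IntermediateField.mem_fixingSubgroup_iff _ _).mpr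
          fun x hx => by
            show τ.symm (σ x) = x
            rw [hστ x hx, AlgEquiv.symm_apply_apply]
        conv_lhs => rw [← mul_inv_cancel_left τ σ, mul_smul, hf _ this]
      rw [h]))
  have hyF' : principal y ∈ idelesOf F := fun σ hσ => by
    rw [smul_principal]
    exact congrArg principal (Units.ext ((IntermediateField.mem_fixingSubgroup_iff _ _).mp hσ _ hyF))
  set f' := f * principal y with hf'
  have hf'F : f' ∈ idelesOf F := mul_mem hf hyF'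
  have hmove : ∀ σ ∈ K.fixingSubgroup, σ • f' * f'⁻¹ ∈ unitsAway S := fun σ hσ => by
    obtain ⟨u, hu, he⟩ := ha σ hσ
    rw [mul_inv_eq_iff_eq_mul] at he
    rw [hf', smul_mul', smul_principal, hy σ hσ, he, map_mul, map_inv]
    convert hu using 1
    calc principal (a σ) * u * f * ((principal (a σ))⁻¹ * principal y) * (f * principal y)⁻¹
        = u * (principal (a σ) * (principal (a σ))⁻¹) * ((f * principal y) * (f * principal y)⁻¹) :=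
          by ac_rfl
      _ = u := by rw [mul_inv_cancel, mul_inv_cancel, mul_one, mul_one]
  have hinS : ∀ σ ∈ K.fixingSubgroup, ∀ ℓ ∈ S, ∀ ι : Emb ℓ,
      (f' : Raw) ℓ (globalComp ι σ) = (f' : Raw) ℓ ι := fun σ hσ ℓ hℓ ι => by
    have h := (hmove σ hσ).1 ℓ hℓ ι
    exact mul_inv_eq_one.mp h
  have hnorm : ∀ σ ∈ K.fixingSubgroup, ∀ (ℓ : Nat.Primes) (ι : Emb ℓ),
      ‖((f' : Raw) ℓ (globalComp ι σ) : PadicAlgCl (ℓ : ℕ))‖ =
        ‖((f' : Raw) ℓ ι : PadicAlgCl (ℓ : ℕ))‖ := fun σ hσ ℓ ι => by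
    by_cases hℓ : ℓ ∈ S
    · rw [hinS σ hσ ℓ hℓ ι]
    · have h := (hmove σ hσ).2 ℓ hℓ ι
      change ‖(((f' : Raw) ℓ (globalComp ι σ) * ((f' : Raw) ℓ ι)⁻¹ : (PadicAlgCl (ℓ : ℕ))ˣ) :
        PadicAlgCl (ℓ : ℕ))‖ = 1 at h
      rw [Units.val_mul, norm_mul, Units.val_inv_eq_inv_val, norm_inv] at h
      exact (mul_inv_eq_one₀ (norm_ne_zero_iff.mpr (Units.ne_zero _))).mp h
  -- the idele of `K`: the same at `S`, a power of `ℓ` away from `S`
  let ell : ∀ ℓ : Nat.Primes, (PadicAlgCl (ℓ : ℕ))ˣ := fun ℓ =>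
    Units.mk0 ((ℓ : ℕ) : PadicAlgCl (ℓ : ℕ)) (Nat.cast_ne_zero.mpr ℓ.2.ne_zero)
  let P : ∀ ℓ : Nat.Primes, Emb ℓ → (PadicAlgCl (ℓ : ℕ))ˣ → Prop := fun ℓ ι z =>
    (∃ i : ℤ, z = ell ℓ ^ i) ∧ ‖(z : PadicAlgCl (ℓ : ℕ))‖ = ‖((f' : Raw) ℓ ι : PadicAlgCl (ℓ : ℕ))‖
  have huniq : ∀ (ℓ : Nat.Primes) (ι : Emb ℓ) z z', P ℓ ι z → P ℓ ι z' → z = z' := by
    rintro ℓ ι z z' ⟨⟨i, rfl⟩, hi⟩ ⟨⟨j, rfl⟩, hj⟩
    have h := hi.trans hj.symm
    rw [Units.val_zpow_eq_zpow_val, Units.val_zpow_eq_zpow_val, norm_zpow, norm_zpow] at h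
    have hlt : ‖((ℓ : ℕ) : PadicAlgCl (ℓ : ℕ))‖ < 1 := by
      rw [← map_natCast (algebraMap ℚ_[(ℓ : ℕ)] (PadicAlgCl (ℓ : ℕ))), norm_algebraMap',
        Padic.norm_p]
      exact inv_lt_one_of_one_lt₀ (by exact_mod_cast ℓ.2.one_lt)
    have hpos : 0 < ‖((ℓ : ℕ) : PadicAlgCl (ℓ : ℕ))‖ := norm_pos_iff.mpr (ell ℓ).ne_zero
    rw [(zpow_right_inj₀ hpos hlt.ne).mp h]
  have hex : ∀ (ℓ : Nat.Primes) (ι : Emb ℓ), ∃ z : (PadicAlgCl (ℓ : ℕ))ˣ, ℓ ∉ S → P ℓ ι z := by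
    intro ℓ ι
    by_cases hℓ : ℓ ∈ S
    · exact ⟨1, fun h => absurd hℓ h⟩
    · obtain ⟨i, hi⟩ := exists_norm_eq_natCast_zpow (hF ℓ hℓ) ι
        (idele_apply_mem_localField hf'F ι) (Units.ne_zero _)
      refine ⟨ell ℓ ^ i, fun _ => ⟨⟨i, rfl⟩, ?_⟩⟩
      rw [hi, Units.val_zpow_eq_zpow_val, norm_zpow]
      rfl
  choose g hg using hex
  let G : Raw := fun ℓ ι => if ℓ ∈ S then (f' : Raw) ℓ ι else g ℓ ι
  have hGK : ∀ σ ∈ K.fixingSubgroup, σ • G = G := fun σ hσ => Raw.ext fun ℓ ι => by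
    show G ℓ (globalComp ι σ) = G ℓ ι
    by_cases hℓ : ℓ ∈ S
    · simp only [G, if_pos hℓ]
      exact hinS σ hσ ℓ hℓ ι
    · simp only [G, if_neg hℓ]
      exact huniq ℓ ι _ _ ⟨(hg ℓ _ hℓ).1, (hg ℓ _ hℓ).2.trans (hnorm σ hσ ℓ ι)⟩ (hg ℓ ι hℓ)
  have hGnorm : ∀ (ℓ : Nat.Primes) (ι : Emb ℓ), ‖(G ℓ ι : PadicAlgCl (ℓ : ℕ))‖ =
      ‖((f' : Raw) ℓ ι : PadicAlgCl (ℓ : ℕ))‖ := fun ℓ ι => by
    by_cases hℓ : ℓ ∈ S
    · simp only [G, if_pos hℓ]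
    · simp only [G, if_neg hℓ]
      exact (hg ℓ ι hℓ).2
  have hG : G ∈ ideles := by
    refine ⟨fun ℓ τ ι => ?_, ?_, ?_⟩
    · by_cases hℓ : ℓ ∈ S
      · simp only [G, if_pos hℓ]
        exact f'.2.1 ℓ τ ι
      · simp only [G, if_neg hℓ]
        have h : g ℓ (localComp τ ι) = g ℓ ι := huniq ℓ ι _ _
          ⟨(hg ℓ _ hℓ).1, (hg ℓ _ hℓ).2.trans (by
            rw [f'.2.1 ℓ τ ι]; exact (spectralNorm_eq_of_equiv τ _).symm)⟩ (hg ℓ ι hℓ)
        rw [h]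
        obtain ⟨i, hi⟩ := (hg ℓ ι hℓ).1
        rw [hi, Units.val_zpow_eq_zpow_val, map_zpow₀]
        exact congrArg (· ^ i) (map_natCast τ _).symm
    · exact ⟨F, inferInstance, fun σ hσ => hGK σ (fixingSubgroup_antitone hKF hσ)⟩
    · obtain ⟨T, hT⟩ := f'.2.2.2
      exact ⟨T, fun ℓ hℓ ι => (hGnorm ℓ ι).trans (hT ℓ hℓ ι)⟩
  refine ⟨⟨G, hG⟩, fun σ hσ => Subtype.ext (hGK σ hσ), ?_⟩
  have hu : (⟨G, hG⟩ : IdeleGroup) * f'⁻¹ ∈ unitsAway S := by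
    refine ⟨fun ℓ hℓ ι => ?_, fun ℓ _ ι => ?_⟩
    · show G ℓ ι * ((f' : Raw) ℓ ι)⁻¹ = 1
      simp only [G, if_pos hℓ, mul_inv_cancel]
    · show ‖((G ℓ ι * ((f' : Raw) ℓ ι)⁻¹ : (PadicAlgCl (ℓ : ℕ))ˣ) : PadicAlgCl (ℓ : ℕ))‖ = 1
      rw [Units.val_mul, norm_mul, hGnorm, Units.val_inv_eq_inv_val, norm_inv,
        mul_inv_cancel₀ (norm_ne_zero_iff.mpr (Units.ne_zero _))]
  have h1 : classMap S ((⟨G, hG⟩ : IdeleGroup) * f'⁻¹) = 1 :=
    (QuotientGroup.eq_one_iff _).2 (Subgroup.mem_sup_right hu)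
  rw [map_mul, map_inv, mul_inv_eq_one] at h1
  rw [h1, hf', map_mul, classMap_principal, mul_one]

end Fermat.Agent.ClassField.Idele
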