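import Fermat.Agent.ClassField.Idele.Local
import Mathlib.RepresentationTheory.Homological.GroupCohomology.Hilbert90

/-!
# Herbrand data of the ideles supported at one rational prime
-/

set_option autoImplicit false

noncomputable section

open IntermediateField IsDedekindDomain
open scoped NumberField

namespace Fermat.Agent.ClassField.Idele

local notation "Qb" => AlgebraicClosure ℚ
local notation "Γ" => (AlgebraicClosure ℚ ≃ₐ[ℚ] AlgebraicClosure ℚ)

/-- The ideles supported at the rational prime `ℓ`. -/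
def supportedAt (ℓ : Nat.Primes) : Subgroup IdeleGroup where
  carrier := {f | ∀ ℓ' : Nat.Primes, ℓ' ≠ ℓ → ∀ ι, (f : Raw) ℓ' ι = 1}
  one_mem' _ _ _ := rfl
  mul_mem' := fun {f g} hf hg ℓ' h ι => by simp [hf ℓ' h ι, hg ℓ' h ι]
  inv_mem' := fun {f} hf ℓ' h ι => by simp [hf ℓ' h ι]

lemma mem_supportedAt {ℓ : Nat.Primes} {f : IdeleGroup} :
    f ∈ supportedAt ℓ ↔ ∀ ℓ' : Nat.Primes, ℓ' ≠ ℓ → ∀ ι, (f : Raw) ℓ' ι = 1 := Iff.rfl

/-- The local component at `ℓ` of the ideles of `K`. -/
abbrev idelesAt (K : IntermediateField ℚ Qb) (ℓ : Nat.Primes) : Subgroup IdeleGroup :=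
  idelesOf K ⊓ supportedAt ℓ

variable {p : ℕ} [Fact p.Prime] {k L : IntermediateField ℚ Qb} {ℓ : Nat.Primes}

lemma norm_localGal (τ : LocalGal ℓ) (z : PadicAlgCl (ℓ : ℕ)) : ‖τ z‖ = ‖z‖ :=
  (spectralNorm_eq_of_equiv τ z).symm

/-- Locally conjugate embeddings cut out the same place. -/
lemma placeAt_eq_of_localComp {K : IntermediateField ℚ Qb} {ι ι' : Emb ℓ}
    {τ : LocalGal ℓ} (h : ∀ x ∈ K, τ (ι x) = ι' x) : placeAt ι' K = placeAt ι K := by
  refine HeightOneSpectrum.ext (Ideal.ext fun x => ?_)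
  show ‖embInt ι' K x‖ < 1 ↔ ‖embInt ι K x‖ < 1
  rw [embInt_apply, embInt_apply, ← h _ (x : K).2, norm_localGal]

/-- The value of an idele at a conjugate embedding. -/
lemma apply_of_localComp {K : IntermediateField ℚ Qb} {f : IdeleGroup} (hf : f ∈ idelesOf K)
    {ι ι' : Emb ℓ} {τ : LocalGal ℓ} (h : ∀ x ∈ K, τ (ι x) = ι' x) :
    ((f : Raw) ℓ ι' : PadicAlgCl (ℓ : ℕ)) = τ ((f : Raw) ℓ ι : PadicAlgCl (ℓ : ℕ)) := by
  rw [← f.2.1 ℓ τ ι, apply_eq_of_eqOn hf (ι := localComp τ ι) (ι' := ι') h]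

/-- Ideles supported at `ℓ` agreeing at one embedding of each place are equal. -/
lemma eq_of_agree {K : IntermediateField ℚ Qb} {f g : IdeleGroup} (hf : f ∈ idelesAt K ℓ)
    (hg : g ∈ idelesAt K ℓ)
    (h : ∀ ι : Emb ℓ, ∃ (ι₀ : Emb ℓ) (τ : LocalGal ℓ),
      (∀ x ∈ K, τ (ι₀ x) = ι x) ∧ (f : Raw) ℓ ι₀ = (g : Raw) ℓ ι₀) : f = g := by
  refine Subtype.ext (Raw.ext fun ℓ' ι => ?_)
  rcases eq_or_ne ℓ' ℓ with rfl | hne
  · obtain ⟨ι₀, τ, hτ, h0⟩ := h ι
    exact Units.ext (by rw [apply_of_localComp hf.1 hτ, apply_of_localComp hg.1 hτ, h0])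
  · rw [hf.2 ℓ' hne ι, hg.2 ℓ' hne ι]

lemma index_ker_pi {G : Type*} [Group G] {κ : Type*} {H : κ → Type*} [∀ i, Group (H i)]
    (f : ∀ i, G →* H i) (h : Function.Surjective (Pi.monoidHom f)) :
    (Pi.monoidHom f).ker.index = Nat.card (∀ i, H i) :=
  Nat.card_congr (QuotientGroup.quotientKerEquivOfSurjective _ h).toEquiv

/-- Evaluation of a product of ideles. -/
lemma prod_apply {κ : Type*} (ι : Emb ℓ) (s : Finset κ) (F : κ → IdeleGroup) :
    ((∏ i ∈ s, F i : IdeleGroup) : Raw) ℓ ι = ∏ i ∈ s, (F i : Raw) ℓ ι :=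
  map_prod ({ toFun := fun f => (f : Raw) ℓ ι, map_one' := rfl, map_mul' := fun _ _ => rfl } :
    IdeleGroup →* (PadicAlgCl (ℓ : ℕ))ˣ) F s

lemma single_mem_idelesAt [FiniteDimensional ℚ L] (ι : Emb ℓ) (y : (PadicAlgCl (ℓ : ℕ))ˣ)
    (hy : (y : PadicAlgCl (ℓ : ℕ)) ∈ localField ι L) : single ι L y hy ∈ idelesAt L ℓ :=
  ⟨single_mem_idelesOf ι L y hy, fun _ h ι' => single_apply_of_ne ι L ι' y hy (Ne.symm h)⟩

lemma norm_single_apply [FiniteDimensional ℚ L] (ι ι' : Emb ℓ) (y : (PadicAlgCl (ℓ : ℕ))ˣ)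
    (hy : (y : PadicAlgCl (ℓ : ℕ)) ∈ localField ι L) (h1 : ‖(y : PadicAlgCl (ℓ : ℕ))‖ = 1) :
    ‖((single ι L y hy : IdeleGroup) : Raw) ℓ ι' |>.val‖ = 1 := by
  show ‖(singleFun ι L y ℓ ι' : PadicAlgCl (ℓ : ℕ))‖ = 1
  by_cases h : ∃ τ : LocalGal ℓ, ∀ x ∈ L, τ (ι x) = ι' x
  · obtain ⟨τ, hτ⟩ := h
    rw [singleFun_of_eqOn ι hy ι' τ hτ, norm_localGal, h1]
  · push Not at h
    rw [singleFun_of_forall_ne _ ι' h, Units.val_one, norm_one]

lemma smul_mem_idelesAt (hkL : IsPrimeCyclic p k L) {σ : Γ} (hσ : σ ∈ k.fixingSubgroup)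
    {f : IdeleGroup} (hf : f ∈ idelesAt L ℓ) : σ • f ∈ idelesAt L ℓ := by
  refine ⟨fun u hu => ?_, fun ℓ' h ι => hf.2 ℓ' h _⟩
  have hmem : σ⁻¹ * u * σ ∈ L.fixingSubgroup := by
    rw [IntermediateField.mem_fixingSubgroup_iff] at hu ⊢
    intro x hx
    show σ.symm (u (σ x)) = x
    rw [hu _ (apply_mem_of_isPrimeCyclic hkL hσ hx), AlgEquiv.symm_apply_apply]
  calc u • σ • f = (σ * (σ⁻¹ * u * σ)) • f := by rw [← mul_smul]; congr 1; group
    _ = σ • f := by rw [mul_smul, hf.1 _ hmem]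

lemma finiteDimensional_base (hkL : IsPrimeCyclic p k L) : FiniteDimensional ℚ k := by
  have := hkL.finite
  exact Module.Finite.of_injective (IntermediateField.inclusion hkL.le).toLinearMap
    (IntermediateField.inclusion_injective hkL.le)

/-- The cosets in the image of the local Galois group are those of locally conjugate embeddings. -/
lemma exists_decomp (ι : Emb ℓ) (hkL : IsPrimeCyclic p k L) :
    haveI := hkL.normal
    ∃ Ψ : Gal(localExt ι hkL.le/localField ι k) →*
        (k.fixingSubgroup ⧸ L.fixingSubgroup.subgroupOf k.fixingSubgroup),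
      Function.Injective Ψ ∧
      (∀ (g : Gal(localExt ι hkL.le/localField ι k)) (σ : k.fixingSubgroup),
        (QuotientGroup.mk σ : k.fixingSubgroup ⧸ L.fixingSubgroup.subgroupOf k.fixingSubgroup) = Ψ g →
          ∃ τ : LocalGal ℓ, (∀ x ∈ L, τ (ι x) = ι ((σ : Γ) x)) ∧
            ∀ y : localExt ι hkL.le, τ (y : PadicAlgCl (ℓ : ℕ)) = (g y : PadicAlgCl (ℓ : ℕ))) ∧
      ∀ σ : k.fixingSubgroup, (∃ τ : LocalGal ℓ, ∀ x ∈ L, τ (ι x) = ι ((σ : Γ) x)) →
        (QuotientGroup.mk σ : k.fixingSubgroup ⧸ L.fixingSubgroup.subgroupOf k.fixingSubgroup) ∈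
          Ψ.range := by
  have := hkL.normal
  obtain ⟨Ψ, hΨ, h1, h2⟩ := exists_decompositionHom ι hkL
  have hrep : ∀ (σ σ' : k.fixingSubgroup),
      (QuotientGroup.mk σ : k.fixingSubgroup ⧸ L.fixingSubgroup.subgroupOf k.fixingSubgroup) =
        QuotientGroup.mk σ' → ∀ x ∈ L, (σ : Γ) x = (σ' : Γ) x := fun σ σ' h x hx => by
    rw [QuotientGroup.eq, Subgroup.mem_subgroupOf, IntermediateField.mem_fixingSubgroup_iff] at h
    have h' : (σ : Γ).symm ((σ' : Γ) x) = x := h x hx
    rw [AlgEquiv.symm_apply_eq] at h'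
    exact h'.symm
  refine ⟨Ψ, hΨ, fun g σ hσ => ?_, fun σ ⟨τ, hτ⟩ => ?_⟩
  · obtain ⟨τ, hτ, hτy⟩ := h1 g
    refine ⟨τ, fun x hx => ?_, hτy⟩
    rw [hτ x hx, hrep _ _ ((QuotientGroup.out_eq' (Ψ g)).trans hσ.symm) x hx]
  · refine h2 _ ⟨τ, fun x hx => ?_⟩
    rw [hτ x hx, hrep _ _ (QuotientGroup.out_eq' _) x hx]

/-- The degree of the local extension: it is the order of the image in the cosets. -/
lemma finrank_localExt (ι : Emb ℓ) (hkL : IsPrimeCyclic p k L) :
    haveI := hkL.normal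
    ∀ Ψ : Gal(localExt ι hkL.le/localField ι k) →*
        (k.fixingSubgroup ⧸ L.fixingSubgroup.subgroupOf k.fixingSubgroup),
      Function.Injective Ψ →
        Nat.card Ψ.range = Module.finrank (localField ι k) (localExt ι hkL.le) := by
  have := hkL.normal
  have := finiteDimensional_base hkL
  have := isGalois_localExt ι hkL
  have := finite_gal_localExt ι hkL
  intro Ψ hΨ
  rw [← IsGalois.card_aut_eq_finrank, Nat.card_congr (MonoidHom.ofInjective hΨ).toEquiv]

lemma finrank_localExt_eq (ι : Emb ℓ) (hkL : IsPrimeCyclic p k L) :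
    Module.finrank (localField ι k) (localExt ι hkL.le) = 1 ∨
      Module.finrank (localField ι k) (localExt ι hkL.le) = p := by
  have := hkL.normal
  obtain ⟨Ψ, hΨ, -, -⟩ := exists_decomp ι hkL
  rw [← finrank_localExt ι hkL Ψ hΨ]
  have h : Nat.card Ψ.range ∣ p := hkL.index_eq ▸ Subgroup.card_subgroup_dvd_card Ψ.range
  exact (Nat.dvd_prime (Fact.out : p.Prime)).1 h

/-- The norm group at an embedding. -/
def normRange (ι : Emb ℓ) (h : k ≤ L) : Subgroup (localField ι k)ˣ :=
  (Units.map (Algebra.norm (localField ι k) : localExt ι h →* localField ι k)).range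

/-- The component at `ι` of an idele of `K`. -/
def evalAt (ι : Emb ℓ) (K : IntermediateField ℚ Qb) : idelesAt K ℓ →* (localField ι K)ˣ where
  toFun f := Units.mk0 ⟨_, idele_apply_mem_localField f.2.1 ι⟩
    fun h => (((f : IdeleGroup) : Raw) ℓ ι).ne_zero (congrArg Subtype.val h)
  map_one' := Units.ext (Subtype.ext rfl)
  map_mul' _ _ := Units.ext (Subtype.ext rfl)

lemma coe_evalAt (ι : Emb ℓ) (K : IntermediateField ℚ Qb) (f : idelesAt K ℓ) :
    ((evalAt ι K f : localField ι K) : PadicAlgCl (ℓ : ℕ)) =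
      (((f : IdeleGroup) : Raw) ℓ ι : PadicAlgCl (ℓ : ℕ)) := rfl

/-- The norm of an idele is, at each embedding, a local norm. -/
lemma evalAt_relNorm_mem (hkL : IsPrimeCyclic p k L) [FiniteDimensional ℚ L] (ι : Emb ℓ)
    (f : IdeleGroup) (hf : f ∈ idelesOf L) (x : (localField ι k)ˣ)
    (hx : ((x : localField ι k) : PadicAlgCl (ℓ : ℕ)) =
      (((relNorm k L f : IdeleGroup) : Raw) ℓ ι : PadicAlgCl (ℓ : ℕ))) :
    x ∈ normRange ι hkL.le := by
  classical
  have := hkL.normal
  have := finiteDimensional_base hkL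
  have := isGalois_localExt ι hkL
  have := finite_gal_localExt ι hkL
  rcases finrank_localExt_eq ι hkL with h1 | hp
  · refine ⟨Units.map (algebraMap (localField ι k) (localExt ι hkL.le)).toMonoidHom x, Units.ext ?_⟩
    show Algebra.norm _ (algebraMap _ _ (x : localField ι k)) = (x : localField ι k)
    rw [Algebra.norm_algebraMap, h1, pow_one]
  · obtain ⟨Ψ, hΨ, hΨτ, -⟩ := exists_decomp ι hkL
    have hcard : Nat.card Ψ.range =
        Nat.card (k.fixingSubgroup ⧸ L.fixingSubgroup.subgroupOf k.fixingSubgroup) := by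
      rw [finrank_localExt ι hkL Ψ hΨ, hp]; exact hkL.index_eq.symm
    have hsurj : Function.Bijective Ψ := by
      refine ⟨hΨ, ?_⟩
      rw [← MonoidHom.range_eq_top]
      exact Subgroup.eq_top_of_card_eq _ hcard
    let _ : Fintype (k.fixingSubgroup ⧸ L.fixingSubgroup.subgroupOf k.fixingSubgroup) :=
      Fintype.ofFinite _
    let ev : IdeleGroup →* PadicAlgCl (ℓ : ℕ) :=
      { toFun := fun f => ((f : Raw) ℓ ι : PadicAlgCl (ℓ : ℕ)), map_one' := rfl,
        map_mul' := fun _ _ => rfl }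
    have hy : ((f : Raw) ℓ ι : PadicAlgCl (ℓ : ℕ)) ∈ localField ι L := idele_apply_mem_localField hf ι
    refine ⟨Units.mk0 (⟨_, hy⟩ : localExt ι hkL.le)
      (fun h => ((f : Raw) ℓ ι).ne_zero (congrArg Subtype.val h)), Units.ext (Subtype.ext ?_)⟩
    rw [hx]
    show ((Algebra.norm (localField ι k) (⟨_, hy⟩ : localExt ι hkL.le) : localField ι k) :
      PadicAlgCl (ℓ : ℕ)) = ev (relNorm k L f)
    rw [relNorm, cosetProd, finprod_eq_prod_of_fintype, map_prod]
    have h2 := congrArg (fun z : localExt ι hkL.le => (z : PadicAlgCl (ℓ : ℕ)))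
      (Algebra.norm_eq_prod_automorphisms (localField ι k) (⟨_, hy⟩ : localExt ι hkL.le))
    refine h2.trans ?_
    rw [IntermediateField.coe_prod]
    refine Fintype.prod_bijective Ψ hsurj _ _ fun a => ?_
    obtain ⟨τ, hτ, hτy⟩ := hΨτ a (Ψ a).out (QuotientGroup.out_eq' _)
    show (a ⟨_, hy⟩ : PadicAlgCl (ℓ : ℕ)) = ((f : Raw) ℓ (globalComp ι ((Ψ a).out : Γ)) : PadicAlgCl (ℓ : ℕ))
    rw [apply_of_localComp hf (ι' := globalComp ι ((Ψ a).out : Γ)) (fun x hx => hτ x hx)]
    exact (hτy ⟨_, hy⟩).symm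

/-- A single idele of `L` has trivial norm away from its place. -/
lemma relNorm_single_apply_of_ne (hkL : IsPrimeCyclic p k L) [FiniteDimensional ℚ L] (ι ι' : Emb ℓ)
    (y : (PadicAlgCl (ℓ : ℕ))ˣ) (hy : (y : PadicAlgCl (ℓ : ℕ)) ∈ localField ι L)
    (hne : placeAt ι' k ≠ placeAt ι k) :
    ((relNorm k L (single ι L y hy) : IdeleGroup) : Raw) ℓ ι' = 1 := by
  classical
  let ev : IdeleGroup →* (PadicAlgCl (ℓ : ℕ))ˣ :=
    { toFun := fun f => (f : Raw) ℓ ι', map_one' := rfl, map_mul' := fun _ _ => rfl }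
  let _ : Fintype (k.fixingSubgroup ⧸ L.fixingSubgroup.subgroupOf k.fixingSubgroup) :=
    Fintype.ofFinite _
  show ev (relNorm k L _) = 1
  rw [relNorm, cosetProd, finprod_eq_prod_of_fintype, map_prod]
  refine Finset.prod_eq_one fun q _ => singleFun_of_forall_ne _ _ fun τ => ?_
  by_contra! hτ
  refine hne (placeAt_eq_of_localComp (τ := τ) fun x hx => ?_)
  rw [hτ x (hkL.le hx), globalComp_apply,
    (IntermediateField.mem_fixingSubgroup_iff _ _).mp q.out.2 x hx]

/-- The places over `ℓ`. -/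
abbrev placesOver (K : IntermediateField ℚ Qb) (ℓ : Nat.Primes) : Type :=
  {v : HeightOneSpectrum (𝓞 K) // ((ℓ : ℕ) : 𝓞 K) ∈ v.asIdeal}

lemma finite_placesOver (K : IntermediateField ℚ Qb) [FiniteDimensional ℚ K] (ℓ : Nat.Primes) :
    Finite (placesOver K ℓ) :=
  (finite_places_over K ℓ).to_subtype

/-- Choice of an embedding at each place. -/
def repEmb {K : IntermediateField ℚ Qb} [FiniteDimensional ℚ K] (v : placesOver K ℓ) : Emb ℓ :=
  (exists_placeAt_eq K v.1 v.2).choose

lemma placeAt_repEmb {K : IntermediateField ℚ Qb} [FiniteDimensional ℚ K] (v : placesOver K ℓ) :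
    placeAt (repEmb v) K = v.1 :=
  (exists_placeAt_eq K v.1 v.2).choose_spec

/-- The place of an embedding, among those over `ℓ`. -/
def placeOver (ι : Emb ℓ) (K : IntermediateField ℚ Qb) : placesOver K ℓ :=
  ⟨placeAt ι K, natCast_mem_primeIdeal ι K⟩

/-- The local norm index at `ℓ` is `p` to the number of places which do not split. -/
theorem exists_relIndex_local [FiniteDimensional ℚ L] (hkL : IsPrimeCyclic p k L) (ℓ : Nat.Primes) :
    ∃ t : ℕ,
      ((idelesAt L ℓ).map (cosetProdHom k.fixingSubgroup L.fixingSubgroup)).relIndex (idelesAt k ℓ) =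
          p ^ t ∧
      Nat.card {w : HeightOneSpectrum (𝓞 L) // ((ℓ : ℕ) : 𝓞 L) ∈ w.asIdeal} + (p - 1) * t =
        p * Nat.card {v : HeightOneSpectrum (𝓞 k) // ((ℓ : ℕ) : 𝓞 k) ∈ v.asIdeal} := by
  classical
  have := hkL.normal
  have := finiteDimensional_base hkL
  have := finite_placesOver k ℓ
  have := finite_placesOver L ℓ
  let _ : Fintype (placesOver k ℓ) := Fintype.ofFinite _
  have hQ : Nat.card (k.fixingSubgroup ⧸ L.fixingSubgroup.subgroupOf k.fixingSubgroup) = p :=
    hkL.index_eq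
  set d : placesOver k ℓ → ℕ := fun v =>
    Module.finrank (localField (repEmb v) k) (localExt (repEmb v) hkL.le)
  set N := Finset.univ.filter fun v : placesOver k ℓ => d v = p
  have hd : ∀ v, d v = if v ∈ N then p else 1 := fun v => by
    by_cases hv : v ∈ N
    · rw [if_pos hv]; exact (Finset.mem_filter.1 hv).2
    · rw [if_neg hv]
      exact (finrank_localExt_eq (repEmb v) hkL).resolve_right
        fun h => hv (Finset.mem_filter.2 ⟨Finset.mem_univ v, h⟩)
  refine ⟨N.card, ?_, ?_⟩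
  · -- the index
    let Φ : idelesAt k ℓ →* ∀ v : placesOver k ℓ,
        ((localField (repEmb v) k)ˣ ⧸ normRange (repEmb v) hkL.le) :=
      Pi.monoidHom fun v => (QuotientGroup.mk' _).comp (evalAt (repEmb v) k)
    have hsurj : Function.Surjective Φ := fun z => by
      choose x hx using fun v => QuotientGroup.mk'_surjective _ (z v)
      let y : ∀ v : placesOver k ℓ, (PadicAlgCl (ℓ : ℕ))ˣ := fun v =>
        Units.map (localField (repEmb v) k).val.toMonoidHom (x v)
      let g : idelesAt k ℓ := ⟨∏ v, single (repEmb v) k (y v) ((x v : localField (repEmb v) k)).2,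
        Subgroup.prod_mem _ fun v _ => single_mem_idelesAt _ _ _⟩
      refine ⟨g, funext fun v => ?_⟩
      refine Eq.trans ?_ (hx v)
      show QuotientGroup.mk' _ (evalAt (repEmb v) k g) = _
      congr 1
      refine Units.ext (Subtype.ext ?_)
      rw [coe_evalAt]
      show ((((∏ w, single (repEmb w) k (y w) _) : IdeleGroup) : Raw) ℓ (repEmb v) :
        PadicAlgCl (ℓ : ℕ)) = _
      rw [prod_apply]
      show _ = ((y v : (PadicAlgCl (ℓ : ℕ))ˣ) : PadicAlgCl (ℓ : ℕ))
      refine congrArg Units.val ?_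
      refine (Finset.prod_eq_single v (fun w _ hw => ?_)
        fun h => absurd (Finset.mem_univ v) h).trans (single_apply_self (repEmb v) k (y v) _)
      exact single_apply_of_placeAt_ne _ k _ _ _
        fun h => hw (Subtype.ext ((placeAt_repEmb w).symm.trans (h.symm.trans (placeAt_repEmb v))))
    have hker : ((idelesAt L ℓ).map (cosetProdHom k.fixingSubgroup L.fixingSubgroup)).subgroupOf
        (idelesAt k ℓ) = Φ.ker := by
      ext f
      rw [Subgroup.mem_subgroupOf, MonoidHom.mem_ker]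
      constructor
      · rintro ⟨g, hg, hgf⟩
        refine funext fun v => (QuotientGroup.eq_one_iff _).2 ?_
        refine evalAt_relNorm_mem hkL (repEmb v) g hg.1 _ ?_
        rw [coe_evalAt, ← hgf]
        rfl
      · intro hf
        have hv : ∀ v, evalAt (repEmb v) k f ∈ normRange (repEmb v) hkL.le := fun v =>
          (QuotientGroup.eq_one_iff _).1 (congrFun hf v)
        choose z hz using hv
        let y : ∀ v : placesOver k ℓ, (PadicAlgCl (ℓ : ℕ))ˣ := fun v =>
          Units.map (localExt (repEmb v) hkL.le).val.toMonoidHom (z v)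
        have hy : ∀ v, (y v : PadicAlgCl (ℓ : ℕ)) ∈ localField (repEmb v) L := fun v =>
          (z v : localExt (repEmb v) hkL.le).2
        refine ⟨∏ v, single (repEmb v) L (y v) (hy v),
          Subgroup.prod_mem _ fun v _ => single_mem_idelesAt _ _ _, ?_⟩
        refine eq_of_agree (K := k) (ℓ := ℓ) ?_ f.2 fun ι => ?_
        · rw [map_prod]
          refine Subgroup.prod_mem _ fun v _ => ⟨relNorm_mem_idelesOf (single_mem_idelesOf _ L _ (hy v)),
            fun ℓ' h ι => ?_⟩
          let ev : IdeleGroup →* (PadicAlgCl (ℓ' : ℕ))ˣ :=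
            { toFun := fun f => (f : Raw) ℓ' ι, map_one' := rfl, map_mul' := fun _ _ => rfl }
          show ev (cosetProdHom _ _ _) = 1
          rw [cosetProdHom_apply, cosetProd, MonoidHom.map_finprod _ (Set.toFinite _)]
          exact finprod_eq_one_of_forall_eq_one fun q =>
            single_apply_of_ne _ L _ _ (hy v) (Ne.symm h)
        · set v := placeOver ι k
          obtain ⟨τ, hτ⟩ := exists_localComp_eqOn_of_placeAt_eq (repEmb v) (placeAt_repEmb v)
          refine ⟨repEmb v, τ, hτ, ?_⟩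
          rw [map_prod, prod_apply]
          simp only [cosetProdHom_apply]
          rw [Finset.prod_eq_single v
            (fun w _ hw => relNorm_single_apply_of_ne hkL _ _ _ _ fun h => hw (Subtype.ext
              ((placeAt_repEmb w).symm.trans (h.symm.trans (placeAt_repEmb v)))))
            fun h => absurd (Finset.mem_univ v) h]
          refine Units.ext ((relNorm_single_apply hkL (repEmb v) (y v) (hy v)).trans ?_)
          have := congrArg (fun u : (localField (repEmb v) k)ˣ =>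
            ((u : localField (repEmb v) k) : PadicAlgCl (ℓ : ℕ))) (hz v)
          exact this
    rw [Subgroup.relIndex, hker,
      show Φ.ker.index = _ from index_ker_pi (fun v => (QuotientGroup.mk' _).comp (evalAt (repEmb v) k))
        hsurj, Nat.card_pi,
      Finset.prod_congr rfl fun v _ => show Nat.card _ = d v from ?_,
      Finset.prod_congr rfl fun v _ => hd v, Finset.prod_ite_mem, Finset.univ_inter,
      Finset.prod_const]
    have := isGalois_localExt (repEmb v) hkL
    have := isCyclic_localExt (repEmb v) hkL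
    exact PadicFields.index_norm_range_ext (localField_mono (repEmb v) hkL.le)
  · -- the count of places
    let π : placesOver L ℓ → placesOver k ℓ := fun w => placeOver (repEmb w) k
    have hfib : ∀ v, Nat.card {w // π w = v} * d v = p := fun v => by
      obtain ⟨Ψ, hΨ, hΨτ, hΨs⟩ := exists_decomp (repEmb v) hkL
      let G : (k.fixingSubgroup ⧸ L.fixingSubgroup.subgroupOf k.fixingSubgroup) → placesOver L ℓ :=
        fun q => placeOver (globalComp (repEmb v) (q.out : Γ)) L
      have hπ : ∀ (ι : Emb ℓ), π (placeOver ι L) = placeOver ι k := fun ι => by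
        obtain ⟨τ, hτ⟩ := exists_localComp_eqOn_of_placeAt_eq (repEmb (placeOver ι L))
          (placeAt_repEmb (placeOver ι L))
        exact Subtype.ext (placeAt_eq_of_localComp fun x hx => hτ x (hkL.le hx)).symm
      have hGv : ∀ q, π (G q) = v := fun q => by
        rw [hπ]
        refine Subtype.ext ((placeAt_eq_of_localComp (τ := 1) fun x hx => ?_).trans (placeAt_repEmb v))
        rw [globalComp_apply, (IntermediateField.mem_fixingSubgroup_iff _ _).mp q.out.2 x hx]
        rfl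
      have hGeq : ∀ q q', G q = G q' ↔ q⁻¹ * q' ∈ Ψ.range := fun q q' => by
        constructor
        · intro h
          obtain ⟨τ, hτ⟩ := exists_localComp_eqOn_of_placeAt_eq _ (congrArg Subtype.val h)
          have hm : (QuotientGroup.mk (q'.out * q.out⁻¹) :
              k.fixingSubgroup ⧸ L.fixingSubgroup.subgroupOf k.fixingSubgroup) ∈ Ψ.range := by
            refine hΨs _ ⟨τ, fun x hx => ?_⟩
            have h' := hτ _ (apply_mem_of_isPrimeCyclic hkL (inv_mem q.out.2) hx)
            rw [globalComp_apply, globalComp_apply] at h'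
            rw [show ((q.out : k.fixingSubgroup) : Γ) (((q.out : k.fixingSubgroup) : Γ)⁻¹ x) = x from
              AlgEquiv.apply_symm_apply _ x] at h'
            exact h'
          rw [QuotientGroup.mk_mul, QuotientGroup.mk_inv, QuotientGroup.out_eq',
            QuotientGroup.out_eq'] at hm
          have : IsCyclic (k.fixingSubgroup ⧸ L.fixingSubgroup.subgroupOf k.fixingSubgroup) :=
            isCyclic_of_prime_card (p := p) hQ
          let _ := IsCyclic.commGroup (α := k.fixingSubgroup ⧸ L.fixingSubgroup.subgroupOf k.fixingSubgroup)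
          rwa [mul_comm]
        · intro h
          have : IsCyclic (k.fixingSubgroup ⧸ L.fixingSubgroup.subgroupOf k.fixingSubgroup) :=
            isCyclic_of_prime_card (p := p) hQ
          let _ := IsCyclic.commGroup (α := k.fixingSubgroup ⧸ L.fixingSubgroup.subgroupOf k.fixingSubgroup)
          obtain ⟨a, ha⟩ := h
          obtain ⟨τ, hτ, -⟩ := hΨτ a (q'.out * q.out⁻¹) (by
            rw [ha, QuotientGroup.mk_mul, QuotientGroup.mk_inv, QuotientGroup.out_eq',
              QuotientGroup.out_eq', mul_comm])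
          refine Subtype.ext (placeAt_eq_of_localComp (τ := τ) fun x hx => ?_).symm
          rw [globalComp_apply, globalComp_apply, hτ _ (apply_mem_of_isPrimeCyclic hkL q.out.2 hx)]
          show repEmb v (((q'.out : k.fixingSubgroup) : Γ)
            (((q.out : k.fixingSubgroup) : Γ).symm (((q.out : k.fixingSubgroup) : Γ) x))) = _
          rw [AlgEquiv.symm_apply_apply]
      let G' : (k.fixingSubgroup ⧸ L.fixingSubgroup.subgroupOf k.fixingSubgroup) ⧸ Ψ.range →
          {w // π w = v} :=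
        Quotient.lift (fun q => (⟨G q, hGv q⟩ : {w // π w = v})) fun q q' h =>
          Subtype.ext ((hGeq q q').2 (QuotientGroup.leftRel_apply.1 h))
      have hG' : Function.Bijective G' := by
        refine ⟨fun a b => Quotient.inductionOn₂ a b fun q q' h => Quotient.sound
          (QuotientGroup.leftRel_apply.2 ((hGeq q q').1 (congrArg Subtype.val h))), fun w => ?_⟩
        obtain ⟨w, hw⟩ := w
        obtain ⟨τ, hτ⟩ := exists_localComp_eqOn_of_placeAt_eq (repEmb v)
          ((placeAt_repEmb v).trans (congrArg Subtype.val hw).symm)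
        obtain ⟨σ, hσ, hσι⟩ := exists_globalComp_eq_of_eqOn (K := k)
          (ι := localComp τ (repEmb v)) (ι' := repEmb w) hτ
        refine ⟨Quotient.mk'' (QuotientGroup.mk ⟨σ, hσ⟩), Subtype.ext (Subtype.ext ?_)⟩
        show placeAt (globalComp (repEmb v) _) L = w.1
        rw [← placeAt_repEmb w]
        refine (placeAt_eq_of_localComp (τ := τ) fun x hx => ?_).symm
        have hout : ((QuotientGroup.mk ⟨σ, hσ⟩ :
            k.fixingSubgroup ⧸ L.fixingSubgroup.subgroupOf k.fixingSubgroup).out : Γ) x = σ x := by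
          have h := QuotientGroup.out_eq' (QuotientGroup.mk ⟨σ, hσ⟩ :
            k.fixingSubgroup ⧸ L.fixingSubgroup.subgroupOf k.fixingSubgroup)
          rw [QuotientGroup.eq, Subgroup.mem_subgroupOf, IntermediateField.mem_fixingSubgroup_iff] at h
          exact ((AlgEquiv.symm_apply_eq _).1 (h x hx)).symm
        rw [globalComp_apply, hout]
        exact DFunLike.congr_fun hσι x
      rw [← Nat.card_eq_of_bijective G' hG',
        show d v = Nat.card Ψ.range from (finrank_localExt _ hkL Ψ hΨ).symm,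
        ← Subgroup.card_eq_card_quotient_mul_card_subgroup]
      exact hQ
    have hsum : Nat.card (placesOver L ℓ) = ∑ v, Nat.card {w // π w = v} := by
      rw [← Nat.card_sigma, Nat.card_congr (Equiv.sigmaFiberEquiv π)]
    show Nat.card (placesOver L ℓ) + (p - 1) * N.card = p * Nat.card (placesOver k ℓ)
    rw [hsum, Nat.card_eq_fintype_card (α := placesOver k ℓ), ← Finset.card_univ, mul_comm p,
      ← smul_eq_mul (Finset.univ.card), ← Finset.sum_const, mul_comm (p - 1), ← smul_eq_mul N.card,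
      ← Finset.sum_const]
    have hN' : ∑ _v ∈ N, (p - 1) = ∑ v, if v ∈ N then p - 1 else 0 := by
      rw [Finset.sum_ite_mem, Finset.univ_inter]
    rw [hN', ← Finset.sum_add_distrib]
    refine Finset.sum_congr rfl fun v _ => ?_
    have h := hfib v
    have hp := (Fact.out : p.Prime).two_le
    rw [hd v] at h
    by_cases hv : v ∈ N
    · rw [if_pos hv] at h ⊢
      have h1 : Nat.card {w // π w = v} = 1 :=
        Nat.eq_of_mul_eq_mul_right (by omega) (h.trans (one_mul p).symm)
      rw [h1]; omega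
    · rw [if_neg hv] at h ⊢
      omega

/-- Hilbert 90 at one place, with units preserved at unramified primes. -/
lemma exists_smul_eq_mul_place [FiniteDimensional ℚ L] [FiniteDimensional ℚ k]
    (hkL : IsPrimeCyclic p k L) (σ : Γ) (hσk : σ ∈ k.fixingSubgroup)
    (hσL : σ ∉ L.fixingSubgroup) {f : IdeleGroup} (hf : f ∈ idelesAt L ℓ)
    (hN : relNorm k L f = 1) (v : placesOver k ℓ) :
    ∃ g ∈ idelesAt L ℓ, (∀ ι, placeAt ι k ≠ v.1 → (g : Raw) ℓ ι = 1) ∧
      (∀ ι, placeAt ι k = v.1 → ((σ • g : IdeleGroup) : Raw) ℓ ι = ((f * g : IdeleGroup) : Raw) ℓ ι) ∧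
      (IsUnramifiedAt k L ℓ → (∀ ι, ‖((f : Raw) ℓ ι : PadicAlgCl (ℓ : ℕ))‖ = 1) →
        ∀ ι, ‖((g : Raw) ℓ ι : PadicAlgCl (ℓ : ℕ))‖ = 1) := by
  classical
  have := hkL.normal
  set ι₀ := repEmb v with hι₀
  have hQ : Nat.card (k.fixingSubgroup ⧸ L.fixingSubgroup.subgroupOf k.fixingSubgroup) = p :=
    hkL.index_eq
  set s : k.fixingSubgroup := ⟨σ, hσk⟩
  set Q := k.fixingSubgroup ⧸ L.fixingSubgroup.subgroupOf k.fixingSubgroup
  have hs1 : (QuotientGroup.mk s : Q) ≠ 1 := fun h =>
    hσL (by simpa [Subgroup.mem_subgroupOf] using (QuotientGroup.eq_one_iff s).1 h)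
  have hord : orderOf (QuotientGroup.mk s : Q) = p := by
    refine orderOf_eq_prime ?_ hs1
    rw [← hQ, pow_card_eq_one']
  have hσpow : ∀ q : Q, ∃ i < p, QuotientGroup.mk (s ^ i) = q := fun q => by
    have h : q ∈ Subgroup.zpowers (QuotientGroup.mk s : Q) := by
      rw [zpowers_eq_top_of_prime_card hQ hs1]; trivial
    obtain ⟨n, hn⟩ := mem_powers_iff_mem_zpowers.2 h
    refine ⟨n % p, Nat.mod_lt _ (Fact.out : p.Prime).pos, ?_⟩
    rw [QuotientGroup.mk_pow, ← hord, pow_mod_orderOf]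
    exact hn
  have hrep : ∀ (σ σ' : k.fixingSubgroup), (QuotientGroup.mk σ : Q) = QuotientGroup.mk σ' →
      ∀ x ∈ L, (σ : Γ) x = (σ' : Γ) x := fun σ σ' h x hx => by
    rw [QuotientGroup.eq, Subgroup.mem_subgroupOf, IntermediateField.mem_fixingSubgroup_iff] at h
    exact ((AlgEquiv.symm_apply_eq _).1 (h x hx)).symm
  let emb : ℕ → Emb ℓ := fun i => globalComp ι₀ ((s ^ i : k.fixingSubgroup) : Γ)
  have hembk : ∀ i, ∀ x ∈ k, ι₀ x = emb i x := fun i x hx => by
    rw [globalComp_apply, (IntermediateField.mem_fixingSubgroup_iff _ _).mp (s ^ i).2 x hx]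
  have hcover : ∀ ι : Emb ℓ, placeAt ι k = v.1 →
      ∃ i < p, ∃ τ : LocalGal ℓ, ∀ x ∈ L, τ (emb i x) = ι x := fun ι hι => by
    obtain ⟨τ, hτ⟩ := exists_localComp_eqOn_of_placeAt_eq ι₀ ((placeAt_repEmb v).trans hι.symm)
    obtain ⟨σ', hσ', hσι⟩ := exists_globalComp_eq_of_eqOn (K := k)
      (ι := localComp τ ι₀) (ι' := ι) hτ
    obtain ⟨i, hi, hi'⟩ := hσpow (QuotientGroup.mk ⟨σ', hσ'⟩)
    refine ⟨i, hi, τ, fun x hx => ?_⟩
    rw [globalComp_apply, hrep _ _ hi' x hx]
    exact DFunLike.congr_fun hσι x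
  have hsmul : ∀ (g : IdeleGroup) (i : ℕ),
      g ∈ idelesOf L → ((σ • g : IdeleGroup) : Raw) ℓ (emb i) = (g : Raw) ℓ (emb (i + 1)) := fun g i _ => by
    rw [coe_smul, Raw.smul_apply]
    congr 1
  have hfg : ∀ g ∈ idelesAt L ℓ, (∀ i < p, (g : Raw) ℓ (emb (i + 1)) =
      (f : Raw) ℓ (emb i) * (g : Raw) ℓ (emb i)) →
      ∀ ι, placeAt ι k = v.1 → ((σ • g : IdeleGroup) : Raw) ℓ ι = ((f * g : IdeleGroup) : Raw) ℓ ι := by
    intro g hg h ι hι
    obtain ⟨i, hi, τ, hτ⟩ := hcover ι hι
    apply Units.ext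
    rw [apply_of_localComp (smul_mem_idelesAt hkL hσk hg).1 hτ,
      apply_of_localComp (mul_mem hf.1 hg.1) hτ, hsmul g i hg.1, h i hi]
    rfl
  obtain ⟨Ψ, hΨ, hΨτ, hΨs⟩ := exists_decomp ι₀ hkL
  have := isGalois_localExt ι₀ hkL
  have := finite_gal_localExt ι₀ hkL
  have := isCyclic_localExt ι₀ hkL
  have hfL : ∀ i, ((f : Raw) ℓ (emb i) : PadicAlgCl (ℓ : ℕ)) ∈ localField (emb i) L := fun i =>
    idele_apply_mem_localField hf.1 (emb i)
  have hNι : ((relNorm k L f : IdeleGroup) : Raw) ℓ ι₀ = 1 := by rw [hN]; rfl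
  rcases finrank_localExt_eq ι₀ hkL with h1 | hp
  · -- split place
    have hrange : Ψ.range = ⊥ := Subgroup.card_eq_one.1 ((finrank_localExt ι₀ hkL Ψ hΨ).trans h1)
    have hne : ∀ i < p, ∀ j < p, i ≠ j → ∀ τ : LocalGal ℓ, ∃ x ∈ L, τ (emb i x) ≠ emb j x := by
      intro i hi j hj hij τ
      by_contra! hτ
      have hm : (QuotientGroup.mk (s ^ j * (s ^ i)⁻¹) : Q) ∈ Ψ.range := by
        refine hΨs _ ⟨τ, fun x hx => ?_⟩
        have h' := hτ _ (apply_mem_of_isPrimeCyclic hkL (inv_mem (s ^ i).2) hx)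
        simp only [emb, globalComp_apply] at h'
        rw [show ((s ^ i : k.fixingSubgroup) : Γ) (((s ^ i : k.fixingSubgroup) : Γ)⁻¹ x) = x from
          AlgEquiv.apply_symm_apply _ x] at h'
        exact h'
      rw [hrange, Subgroup.mem_bot, QuotientGroup.mk_mul, QuotientGroup.mk_inv, mul_inv_eq_one,
        QuotientGroup.mk_pow, QuotientGroup.mk_pow, pow_inj_mod, hord, Nat.mod_eq_of_lt hi,
        Nat.mod_eq_of_lt hj] at hm
      exact hij hm.symm
    let y : ℕ → (PadicAlgCl (ℓ : ℕ))ˣ := fun i => ∏ j ∈ Finset.range i, (f : Raw) ℓ (emb j)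
    have hlf : ∀ i j, localField (emb i) L = localField (emb j) L := fun i j => by
      have key : ∀ m, localField (emb m) L = localField ι₀ L := fun m => by
        rw [localField, localField]
        congr 1
        ext z
        constructor
        · rintro ⟨x, hx, rfl⟩
          exact ⟨_, apply_mem_of_isPrimeCyclic hkL (s ^ m).2 hx, rfl⟩
        · rintro ⟨x, hx, rfl⟩
          refine ⟨((s ^ m : k.fixingSubgroup) : Γ)⁻¹ x,
            apply_mem_of_isPrimeCyclic hkL (inv_mem (s ^ m).2) hx, ?_⟩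
          show ι₀ (((s ^ m : k.fixingSubgroup) : Γ) (((s ^ m : k.fixingSubgroup) : Γ).symm x)) = _
          rw [AlgEquiv.apply_symm_apply]
      rw [key i, key j]
    have hy : ∀ i, (y i : PadicAlgCl (ℓ : ℕ)) ∈ localField (emb i) L := fun i => by
      rw [Units.coe_prod]
      exact prod_mem fun j _ => hlf j i ▸ hfL j
    have hfull : y p = 1 := by
      let _ : Fintype Q := Fintype.ofFinite _
      let ev : IdeleGroup →* (PadicAlgCl (ℓ : ℕ))ˣ :=
        { toFun := fun f => (f : Raw) ℓ ι₀, map_one' := rfl, map_mul' := fun _ _ => rfl }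
      rw [← hNι]
      show _ = ev (relNorm k L f)
      have hb : Function.Bijective fun i : Fin p => (QuotientGroup.mk (s ^ (i : ℕ)) : Q) :=
        (Nat.bijective_iff_surjective_and_card _).2 ⟨fun q => by
          obtain ⟨i, hi, he⟩ := hσpow q; exact ⟨⟨i, hi⟩, he⟩, by rw [Nat.card_fin]; exact hQ.symm⟩
      rw [relNorm, cosetProd_eq_finprod hf.1 (Equiv.ofBijective _ hb) (fun i => s ^ (i : ℕ))
        (fun _ => rfl), finprod_eq_prod_of_fintype, map_prod]
      exact Finset.prod_range (fun j => (f : Raw) ℓ (emb j))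
    let g := ∏ i : Fin p, single (emb i) L (y i) (hy i)
    have heval : ∀ j, j < p → (g : Raw) ℓ (emb j) = y j := fun j hj => by
      rw [prod_apply]
      refine (Finset.prod_eq_single (⟨j, hj⟩ : Fin p) (fun i _ hi => ?_)
        fun h => absurd (Finset.mem_univ _) h).trans (single_apply_self (emb j) L _ _)
      exact singleFun_of_forall_ne _ _ (hne i i.2 j hj fun e => hi (Fin.ext e))
    have hgmem : g ∈ idelesAt L ℓ := Subgroup.prod_mem _ fun i _ => single_mem_idelesAt _ _ _
    refine ⟨g, hgmem, fun ι hι => ?_, hfg g hgmem fun i hi => ?_, fun _ hu ι => ?_⟩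
    · let ev : IdeleGroup →* (PadicAlgCl (ℓ : ℕ))ˣ :=
        { toFun := fun f => (f : Raw) ℓ ι, map_one' := rfl, map_mul' := fun _ _ => rfl }
      show ev g = 1
      rw [map_prod]
      refine Finset.prod_eq_one fun i _ => singleFun_of_forall_ne _ _ fun τ => ?_
      by_contra! hτ
      refine hι ((placeAt_eq_of_localComp (τ := τ) fun x hx => ?_).trans (placeAt_repEmb v))
      rw [hembk i x hx]
      exact hτ x (hkL.le hx)
    · rcases Nat.lt_or_ge (i + 1) p with h | h
      · rw [heval _ h, heval _ hi]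
        simp only [y, Finset.prod_range_succ, mul_comm]
      · have hip : i + 1 = p := by omega
        have he : (g : Raw) ℓ (emb (i + 1)) = (g : Raw) ℓ (emb 0) := by
          refine apply_eq_of_eqOn hgmem.1 fun x hx => ?_
          simp only [emb, globalComp_apply]
          refine congrArg ι₀ (hrep _ _ ?_ x hx)
          rw [QuotientGroup.mk_pow, QuotientGroup.mk_pow, hip, pow_zero, ← hord, pow_orderOf_eq_one]
        rw [he, heval 0 (Fact.out : p.Prime).pos, heval _ hi, mul_comm]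
        simp only [y, Finset.range_zero, Finset.prod_empty]
        rw [← Finset.prod_range_succ (fun j => (f : Raw) ℓ (emb j)), hip]
        exact hfull.symm
    · let ev : IdeleGroup →* ℝ :=
        { toFun := fun f => ‖((f : Raw) ℓ ι : PadicAlgCl (ℓ : ℕ))‖, map_one' := norm_one,
          map_mul' := fun _ _ => norm_mul _ _ }
      show ev g = 1
      rw [map_prod]
      refine Finset.prod_eq_one fun i _ => norm_single_apply _ ι _ _ ?_
      rw [Units.coe_prod, norm_prod]
      exact Finset.prod_eq_one fun j _ => hu _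
  · -- a place which does not split
    have hcard : Nat.card Ψ.range = Nat.card Q := by rw [finrank_localExt ι₀ hkL Ψ hΨ, hp, hQ]
    obtain ⟨a, ha⟩ : (QuotientGroup.mk s : Q) ∈ Ψ.range := by
      rw [Subgroup.eq_top_of_card_eq _ hcard]; trivial
    obtain ⟨τ, hτ, hτy⟩ := hΨτ a s ha.symm
    have hgen : ∀ b, b ∈ Subgroup.zpowers a := fun b => by
      have h : Ψ b ∈ Subgroup.zpowers (Ψ a) := by
        rw [ha, zpowers_eq_top_of_prime_card hQ hs1]; trivial
      obtain ⟨n, hn⟩ := h
      exact ⟨n, hΨ (by rw [map_zpow]; exact hn)⟩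
    have hx0 : ((f : Raw) ℓ ι₀ : PadicAlgCl (ℓ : ℕ)) ∈ localField ι₀ L :=
      idele_apply_mem_localField hf.1 ι₀
    have hnorm : Algebra.norm (localField ι₀ k) (⟨_, hx0⟩ : localExt ι₀ hkL.le) = 1 := by
      refine Subtype.ext ?_
      rw [← relNorm_single_apply hkL ι₀ ((f : Raw) ℓ ι₀) hx0]
      have hfs : f * (single ι₀ L ((f : Raw) ℓ ι₀) hx0)⁻¹ ∈ idelesAt L ℓ :=
        mul_mem hf (inv_mem (single_mem_idelesAt _ _ _))
      set f' := f * (single ι₀ L ((f : Raw) ℓ ι₀) hx0)⁻¹
      have hzero : ∀ ι, placeAt ι k = v.1 → (f' : Raw) ℓ ι = 1 := fun ι hι => by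
        obtain ⟨i, -, τ', hτ'⟩ := hcover ι hι
        obtain ⟨b, hb⟩ : (QuotientGroup.mk (s ^ i) : Q) ∈ Ψ.range := by
          rw [Subgroup.eq_top_of_card_eq _ hcard]; trivial
        obtain ⟨τ'', hτ'', -⟩ := hΨτ b (s ^ i) hb.symm
        apply Units.ext
        rw [apply_of_localComp hfs.1 hτ', apply_of_localComp hfs.1 (ι := ι₀) (ι' := emb i) hτ'']
        have : (f' : Raw) ℓ ι₀ = 1 := by
          show (f : Raw) ℓ ι₀ * (((single ι₀ L _ hx0 : IdeleGroup) : Raw) ℓ ι₀)⁻¹ = 1
          rw [single_apply_self, mul_inv_cancel]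
        rw [this, Units.val_one, map_one, map_one]
      let _ : Fintype Q := Fintype.ofFinite _
      let ev : IdeleGroup →* (PadicAlgCl (ℓ : ℕ))ˣ :=
        { toFun := fun f => (f : Raw) ℓ ι₀, map_one' := rfl, map_mul' := fun _ _ => rfl }
      have hf'1 : ev (relNorm k L f') = 1 := by
        rw [relNorm, cosetProd, finprod_eq_prod_of_fintype, map_prod]
        refine Finset.prod_eq_one fun q _ => hzero _ ?_
        refine (placeAt_eq_of_localComp (τ := 1) fun x hx => ?_).trans (placeAt_repEmb v)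
        rw [globalComp_apply, (IntermediateField.mem_fixingSubgroup_iff _ _).mp q.out.2 x hx]
        rfl
      have hsplit : relNorm k L f' * relNorm k L (single ι₀ L _ hx0) = 1 := by
        rw [← hN]
        show cosetProdHom _ _ f' * cosetProdHom _ _ _ = cosetProdHom _ _ f
        rw [← map_mul, inv_mul_cancel_right]
      have h3 := congrArg ev hsplit
      rw [map_mul, hf'1, one_mul, map_one] at h3
      exact congrArg Units.val h3
    obtain ⟨u, hu⟩ := groupCohomology.exists_div_of_norm_eq_one hgen hnorm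
    -- normalise the size
    obtain ⟨c, hc0, hc⟩ : ∃ c : localField ι₀ k, c ≠ 0 ∧ (IsUnramifiedAt k L ℓ →
        ‖((c : localField ι₀ k) : PadicAlgCl (ℓ : ℕ))‖ = ‖((u : localExt ι₀ hkL.le) : PadicAlgCl (ℓ : ℕ))‖) := by
      by_cases hl : IsUnramifiedAt k L ℓ
      · have he := ramIdx_localField_eq hkL.le hl ι₀
        obtain ⟨j, hj⟩ := PadicFields.exists_norm_eq_zpow (localField ι₀ L)
          (x := ⟨(u : localExt ι₀ hkL.le).1, (u : localExt ι₀ hkL.le).2⟩)
          fun h0 => u.ne_zero (Subtype.ext (congrArg (fun z : localField ι₀ L => (z : PadicAlgCl (ℓ : ℕ))) h0))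
        have hpi := LocalFundamental.norm_uniformizer_eq (localField_mono ι₀ hkL.le) he
        refine ⟨PadicFields.uniformizer (localField ι₀ k) ^ j,
          zpow_ne_zero _ (PadicFields.uniformizer_ne_zero _), fun _ => ?_⟩
        rw [show ‖((u : localExt ι₀ hkL.le) : PadicAlgCl (ℓ : ℕ))‖ = _ from hj, hpi, ← PadicFields.norm_def,
          norm_zpow]
      · exact ⟨1, one_ne_zero, fun h => absurd h hl⟩
    set w : localExt ι₀ hkL.le := algebraMap _ _ c * (u : localExt ι₀ hkL.le)⁻¹ with hw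
    have hw0 : (w : PadicAlgCl (ℓ : ℕ)) ≠ 0 := fun h => by
      have h' : w = 0 := Subtype.ext h
      rcases mul_eq_zero.1 h' with h'' | h''
      · exact hc0 ((map_eq_zero _).1 h'')
      · exact u.ne_zero (inv_eq_zero.1 h'')
    let g := single ι₀ L (Units.mk0 _ hw0) w.2
    have hgmem : g ∈ idelesAt L ℓ := single_mem_idelesAt _ _ _
    refine ⟨g, hgmem, fun ι hι => singleFun_of_forall_ne _ _ fun τ' => ?_, fun ι hι => ?_,
      fun hl _ ι => ?_⟩
    · by_contra! hτ'
      exact hι ((placeAt_eq_of_localComp fun x hx => hτ' x (hkL.le hx)).trans (placeAt_repEmb v))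
    · obtain ⟨i, -, τ', hτ'⟩ := hcover ι hι
      obtain ⟨b, hb⟩ : (QuotientGroup.mk (s ^ i) : Q) ∈ Ψ.range := by
        rw [Subgroup.eq_top_of_card_eq _ hcard]; trivial
      obtain ⟨τ'', hτ'', -⟩ := hΨτ b (s ^ i) hb.symm
      have hσg := smul_mem_idelesAt hkL hσk hgmem
      apply Units.ext
      rw [apply_of_localComp hσg.1 hτ', apply_of_localComp (mul_mem hf.1 hgmem.1) hτ',
        apply_of_localComp hσg.1 (ι := ι₀) (ι' := emb i) hτ'',
        apply_of_localComp (mul_mem hf.1 hgmem.1) (ι := ι₀) (ι' := emb i) hτ'']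
      congr 2
      rw [coe_smul, Raw.smul_apply, apply_of_localComp hgmem.1 (ι := ι₀) (ι' := globalComp ι₀ σ) hτ]
      have hg0 : (g : Raw) ℓ ι₀ = Units.mk0 _ hw0 := single_apply_self _ _ _ _
      rw [show ((f * g : IdeleGroup) : Raw) ℓ ι₀ = (f : Raw) ℓ ι₀ * (g : Raw) ℓ ι₀ from rfl,
        Units.val_mul, hg0, Units.val_mk0, hτy w]
      have key : a w = (⟨_, hx0⟩ : localExt ι₀ hkL.le) * w := by
        rw [← hu, hw, map_mul, map_inv₀, AlgEquiv.commutes]
        have := u.ne_zero
        have : a (u : localExt ι₀ hkL.le) ≠ 0 := (map_ne_zero _).2 u.ne_zero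
        field_simp
      exact congrArg Subtype.val key
    · refine norm_single_apply _ ι _ _ ?_
      show ‖(c : PadicAlgCl (ℓ : ℕ)) * ((u : localExt ι₀ hkL.le) : PadicAlgCl (ℓ : ℕ))⁻¹‖ = 1
      rw [norm_mul, norm_inv, hc hl, mul_inv_cancel₀]
      exact norm_ne_zero_iff.2 fun h => u.ne_zero (Subtype.ext h)

/-- Hilbert 90 for the local components, with units preserved at unramified primes. -/
lemma exists_smul_eq_mul_local_aux (hkL : IsPrimeCyclic p k L) (σ : Γ) (hσk : σ ∈ k.fixingSubgroup)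
    (hσL : σ ∉ L.fixingSubgroup) {f : IdeleGroup} (hf : f ∈ idelesAt L ℓ)
    (hN : relNorm k L f = 1) :
    ∃ g ∈ idelesAt L ℓ, σ • g = f * g ∧
      (IsUnramifiedAt k L ℓ → (∀ ι, ‖((f : Raw) ℓ ι : PadicAlgCl (ℓ : ℕ))‖ = 1) →
        ∀ ι, ‖((g : Raw) ℓ ι : PadicAlgCl (ℓ : ℕ))‖ = 1) := by
  classical
  have := hkL.finite
  have := finiteDimensional_base hkL
  have := finite_placesOver k ℓ
  let _ : Fintype (placesOver k ℓ) := Fintype.ofFinite _
  choose g hg hg1 hgσ hgu using fun v => exists_smul_eq_mul_place hkL σ hσk hσL hf hN (v := v)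
  have hgG : (∏ v, g v) ∈ idelesAt L ℓ := Subgroup.prod_mem _ fun v _ => hg v
  refine ⟨∏ v, g v, hgG, ?_, fun hl hu ι => ?_⟩
  · refine eq_of_agree (K := L) (smul_mem_idelesAt hkL hσk hgG) (mul_mem hf hgG)
      fun ι => ⟨ι, 1, fun _ _ => rfl, ?_⟩
    have hne : ∀ w : placesOver k ℓ, w ≠ placeOver ι k → placeAt ι k ≠ w.1 :=
      fun w hw h => hw (Subtype.ext h.symm)
    rw [show ((f * ∏ v, g v : IdeleGroup) : Raw) ℓ ι =
        (f : Raw) ℓ ι * ((∏ v, g v : IdeleGroup) : Raw) ℓ ι from rfl,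
      Finset.smul_prod', prod_apply, prod_apply,
      Finset.prod_eq_single (placeOver ι k) (fun w _ hw => ?_) fun h => absurd (Finset.mem_univ _) h,
      Finset.prod_eq_single (placeOver ι k) (fun w _ hw => hg1 w ι (hne w hw))
        fun h => absurd (Finset.mem_univ _) h]
    · exact hgσ (placeOver ι k) ι rfl
    · refine hg1 w _ ?_
      rw [placeAt_eq_of_localComp (ι := ι) (τ := 1) fun x hx => ?_]
      · exact hne w hw
      · rw [globalComp_apply, (IntermediateField.mem_fixingSubgroup_iff _ _).mp hσk x hx]; rfl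
  · let ev : IdeleGroup →* ℝ :=
      { toFun := fun f => ‖((f : Raw) ℓ ι : PadicAlgCl (ℓ : ℕ))‖, map_one' := norm_one,
        map_mul' := fun _ _ => norm_mul _ _ }
    show ev _ = 1
    rw [map_prod]
    exact Finset.prod_eq_one fun v _ => hgu v hl hu ι

/-- Hilbert 90 for the local components. -/
theorem exists_smul_eq_mul_local (hkL : IsPrimeCyclic p k L) (σ : Γ) (hσk : σ ∈ k.fixingSubgroup)
    (hσL : σ ∉ L.fixingSubgroup) {f : IdeleGroup} (hf : f ∈ idelesAt L ℓ)
    (hN : relNorm k L f = 1) : ∃ g ∈ idelesAt L ℓ, σ • g = f * g := by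
  obtain ⟨g, hg, h, -⟩ := exists_smul_eq_mul_local_aux hkL σ hσk hσL hf hN
  exact ⟨g, hg, h⟩

/-- Hilbert 90 for unit components at an unramified prime. -/
theorem exists_smul_eq_mul_local_unit (hkL : IsPrimeCyclic p k L) (hl : IsUnramifiedAt k L ℓ)
    (σ : Γ) (hσk : σ ∈ k.fixingSubgroup) (hσL : σ ∉ L.fixingSubgroup) {f : IdeleGroup}
    (hf : f ∈ idelesAt L ℓ) (hunit : ∀ ι : Emb ℓ, ‖((f : Raw) ℓ ι : PadicAlgCl (ℓ : ℕ))‖ = 1)
    (hN : relNorm k L f = 1) :
    ∃ g ∈ idelesAt L ℓ, (∀ ι : Emb ℓ, ‖((g : Raw) ℓ ι : PadicAlgCl (ℓ : ℕ))‖ = 1) ∧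
      σ • g = f * g := by
  obtain ⟨g, hg, h, hu⟩ := exists_smul_eq_mul_local_aux hkL σ hσk hσL hf hN
  exact ⟨g, hg, hu hl hunit, h⟩

end Fermat.Agent.ClassField.Idele
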