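import Fermat.Agent.ClassField.Idele.Class
import Fermat.Agent.ClassField.PadicFields

/-!
# Embeddings and the local fields they generate

The local field of an embedding at a number field `K` is the closure of the image of `K`, a finite
extension of `ℚ_ℓ` inside `PadicAlgCl ℓ`; the components of an idele of `K` lie in it.
-/

set_option autoImplicit false

noncomputable section

open IntermediateField

namespace Fermat.Agent.ClassField.Idele

local notation "Qb" => AlgebraicClosure ℚ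
local notation "Γ" => (AlgebraicClosure ℚ ≃ₐ[ℚ] AlgebraicClosure ℚ)

variable {ℓ : Nat.Primes}

/-- The global Galois group acts transitively on embeddings. -/
lemma exists_globalComp_eq (ι ι' : Emb ℓ) : ∃ σ : Γ, globalComp ι σ = ι' := by
  have hinj : Function.Injective ι := ι.toRingHom.injective
  have key : ∀ x : Qb, ∃ y : Qb, ι y = ι' x := by
    intro x
    have hx : IsIntegral ℚ x := Algebra.IsIntegral.isIntegral x
    have hroot : ι' x ∈ ((minpoly ℚ x).map (algebraMap ℚ (PadicAlgCl (ℓ : ℕ)))).roots := by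
      rw [Polynomial.mem_roots_map (minpoly.ne_zero hx), ← Polynomial.aeval_def,
        Polynomial.aeval_algHom_apply, minpoly.aeval, map_zero]
    rw [← ι.comp_algebraMap, ← Polynomial.map_map,
      (IsAlgClosed.splits (k := Qb) ((minpoly ℚ x).map (algebraMap ℚ Qb))).roots_map] at hroot
    obtain ⟨y, -, hy⟩ := Multiset.mem_map.mp hroot
    exact ⟨y, hy⟩
  let φ : Qb →ₐ[ℚ] Qb :=
    { toFun := fun x => (key x).choose
      map_one' := hinj (by rw [(key 1).choose_spec, map_one, map_one])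
      map_mul' := fun a b => hinj (by
        rw [(key (a * b)).choose_spec, map_mul, map_mul, (key a).choose_spec, (key b).choose_spec])
      map_zero' := hinj (by rw [(key 0).choose_spec, map_zero, map_zero])
      map_add' := fun a b => hinj (by
        rw [(key (a + b)).choose_spec, map_add, map_add, (key a).choose_spec, (key b).choose_spec])
      commutes' := fun r => hinj (by
        rw [(key _).choose_spec, AlgHom.commutes, AlgHom.commutes]) }
  exact ⟨AlgEquiv.ofBijective φ (Algebra.IsAlgebraic.algHom_bijective φ), AlgHom.ext fun x => (key x).choose_spec⟩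

/-- Two embeddings agreeing on `K` differ by an element fixing `K`. -/
lemma exists_globalComp_eq_of_eqOn {K : IntermediateField ℚ Qb} {ι ι' : Emb ℓ}
    (h : ∀ x ∈ K, ι x = ι' x) : ∃ σ ∈ K.fixingSubgroup, globalComp ι σ = ι' := by
  obtain ⟨σ, hσ⟩ := exists_globalComp_eq ι ι'
  refine ⟨σ, (IntermediateField.mem_fixingSubgroup_iff _ _).mpr fun x hx => ι.toRingHom.injective ?_, hσ⟩
  show ι (σ x) = ι x
  rw [← globalComp_apply, hσ, h x hx]

/-- Ideles of `K` depend only on the restriction of embeddings to `K`. -/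
lemma apply_eq_of_eqOn {K : IntermediateField ℚ Qb} {f : IdeleGroup} (hf : f ∈ idelesOf K)
    {ι ι' : Emb ℓ} (h : ∀ x ∈ K, ι x = ι' x) : (f : Raw) ℓ ι' = (f : Raw) ℓ ι := by
  obtain ⟨σ, hσ, rfl⟩ := exists_globalComp_eq_of_eqOn h
  exact congrArg (fun g : IdeleGroup => (g : Raw) ℓ ι) (hf σ hσ)

/-- The local field generated by `K` through an embedding. -/
def localField (ι : Emb ℓ) (K : IntermediateField ℚ Qb) :
    IntermediateField ℚ_[(ℓ : ℕ)] (PadicAlgCl (ℓ : ℕ)) :=
  IntermediateField.adjoin ℚ_[(ℓ : ℕ)] (ι '' (K : Set Qb))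

lemma apply_mem_localField {ι : Emb ℓ} {K : IntermediateField ℚ Qb} {x : Qb} (hx : x ∈ K) :
    ι x ∈ localField ι K :=
  IntermediateField.subset_adjoin _ _ ⟨x, hx, rfl⟩

lemma localField_mono (ι : Emb ℓ) {k L : IntermediateField ℚ Qb} (h : k ≤ L) :
    localField ι k ≤ localField ι L :=
  IntermediateField.adjoin.mono _ _ _ (Set.image_mono h)

lemma localField_eq_of_eqOn {K : IntermediateField ℚ Qb} {ι ι' : Emb ℓ}
    (h : ∀ x ∈ K, ι x = ι' x) : localField ι K = localField ι' K := by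
  rw [localField, localField, Set.image_congr h]

lemma localComp_eqOn_of_fix {K : IntermediateField ℚ Qb} {ι : Emb ℓ} {τ : LocalGal ℓ}
    (hτ : τ ∈ (localField ι K).fixingSubgroup) : ∀ x ∈ K, localComp τ ι x = ι x := fun _ hx =>
  (IntermediateField.mem_fixingSubgroup_iff _ _).mp hτ _ (apply_mem_localField hx)

lemma fix_of_localComp_eqOn {K : IntermediateField ℚ Qb} {ι : Emb ℓ} {τ : LocalGal ℓ}
    (hτ : ∀ x ∈ K, τ (ι x) = ι x) : τ ∈ (localField ι K).fixingSubgroup := by
  rw [IntermediateField.mem_fixingSubgroup_iff]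
  intro y hy
  induction hy using IntermediateField.adjoin_induction with
  | mem y hy => obtain ⟨x, hx, rfl⟩ := hy; exact hτ x hx
  | algebraMap r => exact τ.commutes r
  | add a b _ _ ha hb => rw [map_add, ha, hb]
  | inv a _ ha => rw [map_inv₀, ha]
  | mul a b _ _ ha hb => rw [map_mul, ha, hb]

instance isGaloisPadicAlgCl : IsGalois ℚ_[(ℓ : ℕ)] (PadicAlgCl (ℓ : ℕ)) :=
  IsAlgClosure.isGalois ℚ_[(ℓ : ℕ)] (PadicAlgCl (ℓ : ℕ))

/-- The components of an idele of `K` lie in the local field. -/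
lemma idele_apply_mem_localField {K : IntermediateField ℚ Qb} {f : IdeleGroup}
    (hf : f ∈ idelesOf K) (ι : Emb ℓ) :
    ((f : Raw) ℓ ι : PadicAlgCl (ℓ : ℕ)) ∈ localField ι K := by
  rw [← InfiniteGalois.fixedField_fixingSubgroup (localField ι K)]
  rintro ⟨τ, hτ⟩
  show τ ((f : Raw) ℓ ι : PadicAlgCl (ℓ : ℕ)) = _
  rw [← f.2.1 ℓ τ ι, apply_eq_of_eqOn hf fun x hx => (localComp_eqOn_of_fix hτ x hx).symm]

/-- The generator of the local field given by a generator of `K`. -/
lemma localField_adjoin_simple (ι : Emb ℓ) (α : Qb) :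
    localField ι (IntermediateField.adjoin ℚ {α}) = IntermediateField.adjoin ℚ_[(ℓ : ℕ)] {ι α} := by
  refine le_antisymm (IntermediateField.adjoin_le_iff.mpr ?_)
    (IntermediateField.adjoin_simple_le_iff.mpr
      (apply_mem_localField (IntermediateField.mem_adjoin_simple_self ℚ α)))
  rintro _ ⟨x, hx, rfl⟩
  induction hx using IntermediateField.adjoin_induction with
  | mem y hy =>
    rw [Set.mem_singleton_iff.mp hy]
    exact IntermediateField.mem_adjoin_simple_self _ _
  | algebraMap r =>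
    rw [AlgHom.commutes, IsScalarTower.algebraMap_apply ℚ ℚ_[(ℓ : ℕ)] (PadicAlgCl (ℓ : ℕ))]
    exact IntermediateField.algebraMap_mem _ _
  | add a b _ _ ha hb => rw [map_add]; exact add_mem ha hb
  | inv a _ ha => rw [map_inv₀]; exact inv_mem ha
  | mul a b _ _ ha hb => rw [map_mul]; exact mul_mem ha hb

lemma exists_eq_adjoin_simple (K : IntermediateField ℚ Qb) [FiniteDimensional ℚ K] :
    ∃ α : Qb, K = IntermediateField.adjoin ℚ {α} := by
  obtain ⟨a, ha⟩ := Field.exists_primitive_element ℚ K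
  refine ⟨(a : Qb), le_antisymm (fun x hx => ?_) (IntermediateField.adjoin_simple_le_iff.mpr a.2)⟩
  suffices h : ∀ y : K, (y : Qb) ∈ IntermediateField.adjoin ℚ {(a : Qb)} from h ⟨x, hx⟩
  intro y
  have hy : y ∈ IntermediateField.adjoin ℚ {a} := by rw [ha]; trivial
  induction hy using IntermediateField.adjoin_induction with
  | mem z hz =>
    rw [Set.mem_singleton_iff.mp hz]
    exact IntermediateField.mem_adjoin_simple_self ℚ _
  | algebraMap r =>
    rw [eq_ratCast]
    simp
  | add u v _ _ hu hv => exact add_mem hu hv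
  | inv u _ hu => exact inv_mem hu
  | mul u v _ _ hu hv => exact mul_mem hu hv

instance finiteDimensional_localField (ι : Emb ℓ) (K : IntermediateField ℚ Qb)
    [FiniteDimensional ℚ K] : FiniteDimensional ℚ_[(ℓ : ℕ)] (localField ι K) := by
  obtain ⟨α, rfl⟩ := exists_eq_adjoin_simple K
  rw [localField_adjoin_simple]
  exact IntermediateField.adjoin.finiteDimensional (Algebra.IsAlgebraic.isAlgebraic _).isIntegral

/-- The image of `K` is dense in the local field. -/
theorem exists_norm_sub_lt (ι : Emb ℓ) (K : IntermediateField ℚ Qb)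
    {y : PadicAlgCl (ℓ : ℕ)} (hy : y ∈ localField ι K) {ε : ℝ} (hε : 0 < ε) :
    ∃ x : Qb, x ∈ K ∧ ‖y - ι x‖ < ε := by
  let C : Subfield (PadicAlgCl (ℓ : ℕ)) := (K.toSubfield.map ι.toRingHom).topologicalClosure
  have hC : ∀ z ∈ C, ∀ δ : ℝ, 0 < δ → ∃ x : Qb, x ∈ K ∧ ‖z - ι x‖ < δ := by
    intro z hz δ hδ
    obtain ⟨w, hw, hdist⟩ := Metric.mem_closure_iff.mp hz δ hδ
    obtain ⟨x, hx, rfl⟩ := Subfield.mem_map.mp hw
    exact ⟨x, hx, by rwa [← dist_eq_norm]⟩
  have hbase : ∀ r : ℚ_[(ℓ : ℕ)], algebraMap ℚ_[(ℓ : ℕ)] (PadicAlgCl (ℓ : ℕ)) r ∈ C := by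
    intro r
    refine Metric.mem_closure_iff.mpr fun δ hδ => ?_
    obtain ⟨a, ha⟩ := Padic.rat_dense (ℓ : ℕ) r hδ
    refine ⟨ι (algebraMap ℚ Qb a), Subfield.mem_map.mpr ⟨_, K.algebraMap_mem a, rfl⟩, ?_⟩
    rw [dist_eq_norm, AlgHom.commutes,
      IsScalarTower.algebraMap_apply ℚ ℚ_[(ℓ : ℕ)] (PadicAlgCl (ℓ : ℕ)), ← map_sub,
      norm_algebraMap', eq_ratCast]
    exact ha
  let C' : IntermediateField ℚ_[(ℓ : ℕ)] (PadicAlgCl (ℓ : ℕ)) := C.toIntermediateField hbase
  have hle : localField ι K ≤ C' := IntermediateField.adjoin_le_iff.mpr (by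
    rintro _ ⟨x, hx, rfl⟩
    exact Subfield.le_topologicalClosure _ (Subfield.mem_map.mpr ⟨x, hx, rfl⟩))
  exact hC y (hle hy) ε hε

/-- A nonzero element of the local field has the norm of an element of `K`. -/
lemma exists_norm_eq (ι : Emb ℓ) (K : IntermediateField ℚ Qb)
    {y : PadicAlgCl (ℓ : ℕ)} (hy : y ∈ localField ι K) (hy0 : y ≠ 0) :
    ∃ x : Qb, x ∈ K ∧ x ≠ 0 ∧ ‖ι x‖ = ‖y‖ := by
  obtain ⟨x, hxK, hx⟩ := exists_norm_sub_lt ι K hy (norm_pos_iff.mpr hy0)
  have h : ‖ι x‖ = ‖y‖ := by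
    have h2 := IsUltrametricDist.norm_add_eq_max_of_norm_ne_norm (x := y) (y := ι x - y)
      (by rw [norm_sub_rev]; exact hx.ne')
    rw [add_sub_cancel] at h2
    rw [h2, norm_sub_rev, max_eq_left hx.le]
  refine ⟨x, hxK, ?_, h⟩
  rintro rfl
  rw [map_zero, norm_zero] at h
  exact hy0 (norm_eq_zero.mp h.symm)

/-- Embeddings with the same absolute value on `K` are locally conjugate on `K`. -/
theorem exists_localComp_eqOn {K : IntermediateField ℚ Qb} [FiniteDimensional ℚ K]
    {ι ι' : Emb ℓ} (h : ∀ x ∈ K, ‖ι x‖ = ‖ι' x‖) :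
    ∃ τ : LocalGal ℓ, ∀ x ∈ K, τ (ι x) = ι' x := by
  obtain ⟨α, hK⟩ := exists_eq_adjoin_simple K
  have hαK : α ∈ K := hK ▸ IntermediateField.mem_adjoin_simple_self ℚ α
  set g := minpoly ℚ_[(ℓ : ℕ)] (ι α)
  have hroot : Polynomial.aeval (ι' α) g = 0 := by
    by_contra hne
    set n := g.natDegree
    set z := Polynomial.aeval (ι' α) g
    -- rational approximations of the coefficients
    set M : ℝ := 1 + ∑ i ∈ Finset.range (n + 1), (‖ι α ^ i‖ + ‖ι' α ^ i‖)
    have hMpos : 0 < M := add_pos_of_pos_of_nonneg one_pos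
      (Finset.sum_nonneg fun i _ => add_nonneg (norm_nonneg _) (norm_nonneg _))
    have hz : 0 < ‖z‖ := norm_pos_iff.mpr hne
    choose a ha using fun i : ℕ => Padic.rat_dense (ℓ : ℕ) (g.coeff i) (div_pos hz hMpos)
    set x : Qb := ∑ i ∈ Finset.range (n + 1), algebraMap ℚ Qb (a i) * α ^ i with hx_def
    have hxK : x ∈ K := sum_mem fun i _ => mul_mem (K.algebraMap_mem _) (pow_mem hαK i)
    have hlt : ‖z‖ / M * (M - 1) < ‖z‖ := by
      rw [mul_sub, mul_one, div_mul_cancel₀ _ hMpos.ne']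
      exact sub_lt_self _ (div_pos hz hMpos)
    have hnn : 0 ≤ ‖z‖ / M * (M - 1) := by
      refine mul_nonneg (div_pos hz hMpos).le ?_
      simp only [M, add_sub_cancel_left]
      exact Finset.sum_nonneg fun i _ => add_nonneg (norm_nonneg _) (norm_nonneg _)
    have hclose : ∀ j : Emb ℓ, (∀ i ∈ Finset.range (n + 1), ‖j α ^ i‖ ≤ M - 1) →
        ‖Polynomial.aeval (j α) g - j x‖ ≤ ‖z‖ / M * (M - 1) := by
      intro j hj
      have hexp : j x = ∑ i ∈ Finset.range (n + 1),
          algebraMap ℚ_[(ℓ : ℕ)] (PadicAlgCl (ℓ : ℕ)) (a i) * j α ^ i := by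
        rw [hx_def, map_sum]
        refine Finset.sum_congr rfl fun i _ => ?_
        rw [map_mul, map_pow, AlgHom.commutes,
          IsScalarTower.algebraMap_apply ℚ ℚ_[(ℓ : ℕ)] (PadicAlgCl (ℓ : ℕ)), eq_ratCast]
      rw [Polynomial.aeval_eq_sum_range, hexp, ← Finset.sum_sub_distrib]
      refine IsUltrametricDist.norm_sum_le_of_forall_le_of_nonneg hnn fun i hi => ?_
      rw [Algebra.smul_def, ← sub_mul, ← map_sub, norm_mul, norm_algebraMap']
      exact mul_le_mul (ha i).le (hj i hi) (norm_nonneg _) (div_pos hz hMpos).le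
    have hb : ∀ i ∈ Finset.range (n + 1), ‖ι α ^ i‖ ≤ M - 1 ∧ ‖ι' α ^ i‖ ≤ M - 1 := by
      intro i hi
      have hle := Finset.single_le_sum
        (f := fun i => ‖ι α ^ i‖ + ‖ι' α ^ i‖) (fun j _ => by positivity) hi
      simp only [M, add_sub_cancel_left]
      exact ⟨le_trans (le_add_of_nonneg_right (norm_nonneg _)) hle,
        le_trans (le_add_of_nonneg_left (norm_nonneg _)) hle⟩
    have h1 := hclose ι fun i hi => (hb i hi).1
    rw [minpoly.aeval, zero_sub, norm_neg, h x hxK] at h1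
    have h2 := hclose ι' fun i hi => (hb i hi).2
    have h3 : ‖z‖ ≤ max ‖z - ι' x‖ ‖ι' x‖ := by
      conv_lhs => rw [← sub_add_cancel z (ι' x)]
      exact IsUltrametricDist.norm_add_le_max _ _
    exact lt_irrefl _ (h3.trans_lt ((max_le h2 h1).trans_lt hlt))
  obtain ⟨τ, hτ⟩ := (isConjRoot_iff_aeval_eq_zero
    (Algebra.IsAlgebraic.isAlgebraic (ι α)).isIntegral).mpr hroot |>.exists_algEquiv
  refine ⟨τ⁻¹, fun x hx => ?_⟩
  rw [hK] at hx
  induction hx using IntermediateField.adjoin_induction with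
  | mem y hy =>
    rw [Set.mem_singleton_iff.mp hy, ← hτ]
    exact τ.symm_apply_apply _
  | algebraMap r =>
    rw [AlgHom.commutes, AlgHom.commutes,
      IsScalarTower.algebraMap_apply ℚ ℚ_[(ℓ : ℕ)] (PadicAlgCl (ℓ : ℕ)), AlgEquiv.commutes]
  | add a b _ _ ha hb => rw [map_add, map_add, map_add, ha, hb]
  | inv a _ ha => rw [map_inv₀, map_inv₀, map_inv₀, ha]
  | mul a b _ _ ha hb => rw [map_mul, map_mul, map_mul, ha, hb]

end Fermat.Agent.ClassField.Idele
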