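import Fermat.Agent.ClassField.Idele.Level
import Fermat.Agent.ClassField.Idele.LocalFields
import Fermat.Prelude.Def_GroupCohomology_ContinuousUnramified

/-!
# From the valuation-subring notion of unramifiedness to the embedding notion
-/

set_option autoImplicit false

noncomputable section

open scoped Pointwise NNReal

namespace Fermat.Agent.ClassField.Idele

local notation "Qb" => AlgebraicClosure ℚ
local notation "Γ" => (AlgebraicClosure ℚ ≃ₐ[ℚ] AlgebraicClosure ℚ)

variable {ℓ : Nat.Primes}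

/-- The place of the algebraic numbers cut out by an embedding. -/
def placeOfEmb (ι : Emb ℓ) : ValuationSubring Qb :=
  (padicIntegers (ℓ : ℕ)).comap ι.toRingHom

lemma mem_placeOfEmb {ι : Emb ℓ} {x : Qb} : x ∈ placeOfEmb ι ↔ ‖ι x‖ ≤ 1 := Iff.rfl

lemma mem_nonunits_placeOfEmb {ι : Emb ℓ} {x : Qb} :
    x ∈ (placeOfEmb ι).nonunits ↔ ‖ι x‖ < 1 := by
  rw [ValuationSubring.mem_nonunits_iff]
  constructor
  · intro h
    by_contra hle
    rw [not_lt] at hle
    have hx : ι x ≠ 0 := fun h0 => by rw [h0, norm_zero] at hle; exact absurd hle (by norm_num)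
    have hinv : x⁻¹ ∈ placeOfEmb ι := by
      rw [mem_placeOfEmb, map_inv₀, norm_inv]; exact inv_le_one_of_one_le₀ hle
    have := ((placeOfEmb ι).valuation_le_one_iff x⁻¹).mpr hinv
    rw [map_inv₀] at this
    have hv0 : (placeOfEmb ι).valuation x ≠ 0 :=
      (Valuation.ne_zero_iff _).mpr fun h0 => hx (by rw [h0, map_zero])
    exact absurd h (not_lt.mpr ((inv_le_one₀ (zero_lt_iff.mpr hv0)).mp this))
  · intro h
    refine lt_of_le_of_ne (((placeOfEmb ι).valuation_le_one_iff x).mpr (mem_placeOfEmb.mpr h.le))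
      fun hv => ?_
    have hinv : x⁻¹ ∈ placeOfEmb ι := by
      rw [← ValuationSubring.valuation_le_one_iff, map_inv₀, hv, inv_one]
    rw [mem_placeOfEmb, map_inv₀, norm_inv] at hinv
    rcases eq_or_ne (ι x) 0 with h0 | h0
    · rw [map_eq_zero] at h0
      rw [h0, map_zero] at hv
      exact zero_ne_one hv
    · exact absurd ((inv_le_one₀ (norm_pos_iff.mpr h0)).mp hinv) (not_le.mpr h)

lemma liesOverPrime_placeOfEmb (ι : Emb ℓ) : (placeOfEmb ι).LiesOverPrime (ℓ : ℕ) := by
  show ((ℓ : ℕ) : Qb) ∈ (placeOfEmb ι).nonunits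
  rw [mem_nonunits_placeOfEmb, map_natCast, ← map_natCast (algebraMap ℚ_[(ℓ : ℕ)] (PadicAlgCl (ℓ : ℕ))),
    norm_algebraMap', Padic.norm_p]
  exact inv_lt_one_of_one_lt₀ (Nat.one_lt_cast.2 ℓ.2.one_lt)

/-- A local inertia element restricts to an inertia element of the place of the embedding. -/
lemma exists_mem_inertiaSubgroupIn (ι : Emb ℓ) {τ : LocalGal ℓ} (hτ : τ ∈ localInertia ℓ)
    (σ : Γ) (hσ : globalComp ι σ = localComp τ ι) :
    σ ∈ (placeOfEmb ι).inertiaSubgroupIn ℚ := by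
  have hσx : ∀ x : Qb, ι (σ x) = τ (ι x) := fun x => DFunLike.congr_fun hσ x
  have hnorm : ∀ x : Qb, ‖ι (σ x)‖ = ‖ι x‖ := fun x => by
    rw [hσx]; exact (spectralNorm_eq_of_equiv τ _).symm
  have hdec : σ ∈ (placeOfEmb ι).decompositionSubgroup ℚ := by
    rw [MulAction.mem_stabilizer_iff]
    refine SetLike.ext fun x => ?_
    rw [ValuationSubring.mem_smul_pointwise_iff_exists]
    constructor
    · rintro ⟨y, hy, rfl⟩
      rw [mem_placeOfEmb, AlgEquiv.smul_def, hnorm]
      exact hy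
    · intro hx
      refine ⟨σ.symm x, ?_, σ.apply_symm_apply x⟩
      have := hnorm (σ.symm x)
      rw [AlgEquiv.apply_symm_apply] at this
      rw [mem_placeOfEmb, ← this]
      exact hx
  refine ⟨⟨σ, hdec⟩, ?_, rfl⟩
  rw [ValuationSubring.inertiaSubgroup, SetLike.mem_coe, MonoidHom.mem_ker]
  refine RingEquiv.ext fun y => ?_
  obtain ⟨⟨x, hx⟩, rfl⟩ := IsLocalRing.residue_surjective y
  show (⟨σ, hdec⟩ : (placeOfEmb ι).decompositionSubgroup ℚ) •
      IsLocalRing.residue (placeOfEmb ι : ValuationSubring Qb) ⟨x, hx⟩ =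
    IsLocalRing.residue (placeOfEmb ι : ValuationSubring Qb) ⟨x, hx⟩
  rw [← IsLocalRing.ResidueField.residue_smul]
  refine Ideal.Quotient.eq.mpr ?_
  rw [← ValuationSubring.coe_mem_nonunits_iff, mem_nonunits_placeOfEmb]
  show ‖ι (σ x - x)‖ < 1
  rw [map_sub, hσx]
  exact hτ (ι x) hx

/-- An extension unramified at `ℓ` in the valuation-subring sense is unramified in the sense of
embeddings. -/
theorem isUnramifiedAt_of_inertia_le (k L : IntermediateField ℚ Qb)
    (h : ∀ A : ValuationSubring Qb, A.LiesOverPrime (ℓ : ℕ) →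
      A.inertiaSubgroupIn ℚ ⊓ k.fixingSubgroup ≤ L.fixingSubgroup) :
    IsUnramifiedAt k L ℓ := by
  intro ι τ hτ hk x hx
  have hinj : Function.Injective ι := ι.toRingHom.injective
  obtain ⟨σ, hσ⟩ := exists_globalComp_eq ι (localComp τ ι)
  have hσk : σ ∈ k.fixingSubgroup := (IntermediateField.mem_fixingSubgroup_iff _ _).mpr
    fun y hy => hinj ((DFunLike.congr_fun hσ y).trans (hk y hy))
  have hσL := h _ (liesOverPrime_placeOfEmb ι) ⟨exists_mem_inertiaSubgroupIn ι hτ σ hσ, hσk⟩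
  calc τ (ι x) = ι (σ x) := (DFunLike.congr_fun hσ x).symm
    _ = ι x := by rw [(IntermediateField.mem_fixingSubgroup_iff _ _).mp hσL x hx]

/-- Fields unramified outside `S` are unramified at the primes outside `S`. -/
theorem isUnramifiedAt_of_isUnramifiedOutside {S : Finset Nat.Primes}
    {k L : IntermediateField ℚ Qb} (hL : L.IsUnramifiedOutside S) (hℓ : ℓ ∉ S) :
    IsUnramifiedAt k L ℓ :=
  isUnramifiedAt_of_inertia_le k L fun A hA => inf_le_left.trans (hL.2 ℓ hℓ A hA)

end Fermat.Agent.ClassField.Idele
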