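import Fermat.Agent.ClassField.Idele.Places

/-!
# Ideles with prescribed components, finiteness and generation statements
-/

set_option autoImplicit false

noncomputable section

open IntermediateField IsDedekindDomain
open scoped NumberField nonZeroDivisors

namespace Fermat.Agent.ClassField.Idele

local notation "Qb" => AlgebraicClosure ℚ
local notation "Γ" => (AlgebraicClosure ℚ ≃ₐ[ℚ] AlgebraicClosure ℚ)

variable {ℓ : Nat.Primes} (ι : Emb ℓ) (K : IntermediateField ℚ Qb)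

open Classical in
/-- The component function of the idele supported on one place with prescribed value. -/
def singleFun (y : (PadicAlgCl (ℓ : ℕ))ˣ) : Raw := fun ℓ' ι' =>
  if h : ∃ (e : ℓ = ℓ') (τ : LocalGal ℓ'), ∀ x ∈ K, τ ((e ▸ ι : Emb ℓ') x) = ι' x then
    Units.map (h.snd.choose : PadicAlgCl (ℓ' : ℕ) →* PadicAlgCl (ℓ' : ℕ))
      (h.fst ▸ y : (PadicAlgCl (ℓ' : ℕ))ˣ)
  else 1

variable {K}

lemma eq_of_eqOn_of_mem_localField {τ τ' : LocalGal ℓ}
    (h : ∀ x ∈ K, τ (ι x) = τ' (ι x)) {y : PadicAlgCl (ℓ : ℕ)} (hy : y ∈ localField ι K) :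
    τ y = τ' y := by
  have hfix : τ'⁻¹ * τ ∈ (localField ι K).fixingSubgroup := fix_of_localComp_eqOn fun x hx => by
    show τ'.symm (τ (ι x)) = ι x
    rw [h x hx, AlgEquiv.symm_apply_apply]
  have h1 : τ'.symm (τ y) = y := (IntermediateField.mem_fixingSubgroup_iff _ _).mp hfix y hy
  exact (AlgEquiv.symm_apply_eq τ').mp h1

lemma singleFun_of_eqOn {y : (PadicAlgCl (ℓ : ℕ))ˣ} (hy : (y : PadicAlgCl (ℓ : ℕ)) ∈ localField ι K)
    (ι' : Emb ℓ) (τ : LocalGal ℓ) (hτ : ∀ x ∈ K, τ (ι x) = ι' x) :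
    (singleFun ι K y ℓ ι' : PadicAlgCl (ℓ : ℕ)) = τ y := by
  classical
  have h : ∃ (e : ℓ = ℓ) (τ' : LocalGal ℓ), ∀ x ∈ K, τ' ((e ▸ ι : Emb ℓ) x) = ι' x :=
    ⟨rfl, τ, hτ⟩
  rw [singleFun, dif_pos h]
  exact eq_of_eqOn_of_mem_localField ι (fun x hx => (h.snd.choose_spec x hx).trans (hτ x hx).symm) hy

lemma singleFun_of_forall_ne {y : (PadicAlgCl (ℓ : ℕ))ˣ} (ι' : Emb ℓ)
    (h : ∀ τ : LocalGal ℓ, ∃ x ∈ K, τ (ι x) ≠ ι' x) : singleFun ι K y ℓ ι' = 1 := by
  classical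
  rw [singleFun, dif_neg]
  rintro ⟨e, τ, hτ⟩
  obtain ⟨x, hx, hne⟩ := h τ
  exact hne (hτ x hx)

lemma singleFun_of_ne {y : (PadicAlgCl (ℓ : ℕ))ˣ} {ℓ' : Nat.Primes} (h : ℓ ≠ ℓ') (ι' : Emb ℓ') :
    singleFun ι K y ℓ' ι' = 1 := by
  classical
  rw [singleFun, dif_neg]
  rintro ⟨e, -⟩
  exact h e

lemma singleFun_mem_ideles [FiniteDimensional ℚ K] {y : (PadicAlgCl (ℓ : ℕ))ˣ}
    (hy : (y : PadicAlgCl (ℓ : ℕ)) ∈ localField ι K) : singleFun ι K y ∈ ideles := by
  classical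
  refine ⟨fun ℓ' τ ι' => ?_, ⟨K, inferInstance, fun σ hσ => Raw.ext fun ℓ' ι' => ?_⟩,
    ⟨{ℓ}, fun ℓ' hℓ' ι' => by
      rw [singleFun_of_ne ι (fun h => hℓ' (Finset.mem_singleton.mpr h.symm)), Units.val_one,
        norm_one]⟩⟩
  · rcases eq_or_ne ℓ ℓ' with rfl | hne
    · by_cases h : ∃ τ' : LocalGal ℓ, ∀ x ∈ K, τ' (ι x) = ι' x
      · obtain ⟨τ', hτ'⟩ := h
        rw [singleFun_of_eqOn ι hy _ (τ * τ') (fun x hx => by
          show τ (τ' (ι x)) = τ (ι' x)
          rw [hτ' x hx]), singleFun_of_eqOn ι hy ι' τ' hτ']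
        rfl
      · push Not at h
        rw [singleFun_of_forall_ne ι ι' h, singleFun_of_forall_ne ι (localComp τ ι') fun τ' => ?_,
          Units.val_one, map_one]
        obtain ⟨x, hx, hne⟩ := h (τ⁻¹ * τ')
        refine ⟨x, hx, fun h' => hne ?_⟩
        show τ.symm (τ' (ι x)) = ι' x
        rw [h', localComp_apply, AlgEquiv.symm_apply_apply]
    · rw [singleFun_of_ne ι hne, singleFun_of_ne ι hne, Units.val_one, map_one]
  · have hσK : ∀ x ∈ K, globalComp ι' σ x = ι' x := fun x hx => by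
      rw [globalComp_apply, (IntermediateField.mem_fixingSubgroup_iff _ _).mp hσ x hx]
    rw [Raw.smul_apply]
    rcases eq_or_ne ℓ ℓ' with rfl | hne
    · by_cases h : ∃ τ' : LocalGal ℓ, ∀ x ∈ K, τ' (ι x) = ι' x
      · obtain ⟨τ', hτ'⟩ := h
        exact Units.ext ((singleFun_of_eqOn ι hy _ τ' fun x hx => (hτ' x hx).trans (hσK x hx).symm).trans
          (singleFun_of_eqOn ι hy ι' τ' hτ').symm)
      · push Not at h
        rw [singleFun_of_forall_ne ι ι' h, singleFun_of_forall_ne ι _ fun τ' => ?_]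
        obtain ⟨x, hx, hne⟩ := h τ'
        exact ⟨x, hx, by rwa [hσK x hx]⟩
    · rw [singleFun_of_ne ι hne, singleFun_of_ne ι hne]

variable (K) [FiniteDimensional ℚ K]

/-- The idele of `K` with value `y` at the place of `ι` and `1` elsewhere. -/
def single (y : (PadicAlgCl (ℓ : ℕ))ˣ) (hy : (y : PadicAlgCl (ℓ : ℕ)) ∈ localField ι K) :
    IdeleGroup :=
  ⟨singleFun ι K y, singleFun_mem_ideles ι hy⟩

lemma single_mem_idelesOf (y : (PadicAlgCl (ℓ : ℕ))ˣ)
    (hy : (y : PadicAlgCl (ℓ : ℕ)) ∈ localField ι K) : single ι K y hy ∈ idelesOf K := by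
  intro σ hσ
  refine Subtype.ext (Raw.ext fun ℓ' ι' => ?_)
  show singleFun ι K y ℓ' (globalComp ι' σ) = singleFun ι K y ℓ' ι'
  have hσK : ∀ x ∈ K, globalComp ι' σ x = ι' x := fun x hx => by
    rw [globalComp_apply, (IntermediateField.mem_fixingSubgroup_iff _ _).mp hσ x hx]
  rcases eq_or_ne ℓ ℓ' with rfl | hne
  · by_cases h : ∃ τ' : LocalGal ℓ, ∀ x ∈ K, τ' (ι x) = ι' x
    · obtain ⟨τ', hτ'⟩ := h
      exact Units.ext ((singleFun_of_eqOn ι hy _ τ' fun x hx => (hτ' x hx).trans (hσK x hx).symm).trans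
        (singleFun_of_eqOn ι hy ι' τ' hτ').symm)
    · push Not at h
      rw [singleFun_of_forall_ne ι ι' h, singleFun_of_forall_ne ι _ fun τ' => ?_]
      obtain ⟨x, hx, hne⟩ := h τ'
      exact ⟨x, hx, by rwa [hσK x hx]⟩
  · rw [singleFun_of_ne ι hne, singleFun_of_ne ι hne]

lemma single_apply_self (y : (PadicAlgCl (ℓ : ℕ))ˣ)
    (hy : (y : PadicAlgCl (ℓ : ℕ)) ∈ localField ι K) :
    ((single ι K y hy : IdeleGroup) : Raw) ℓ ι = y :=
  Units.ext (singleFun_of_eqOn ι hy ι (τ := 1) fun _ _ => rfl)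

lemma single_apply_of_ne {ℓ' : Nat.Primes} (ι' : Emb ℓ') (y : (PadicAlgCl (ℓ : ℕ))ˣ)
    (hy : (y : PadicAlgCl (ℓ : ℕ)) ∈ localField ι K) (h : ℓ ≠ ℓ') :
    ((single ι K y hy : IdeleGroup) : Raw) ℓ' ι' = 1 :=
  singleFun_of_ne ι h ι'

lemma single_apply_of_placeAt_ne (ι' : Emb ℓ) (y : (PadicAlgCl (ℓ : ℕ))ˣ)
    (hy : (y : PadicAlgCl (ℓ : ℕ)) ∈ localField ι K) (h : placeAt ι' K ≠ placeAt ι K) :
    ((single ι K y hy : IdeleGroup) : Raw) ℓ ι' = 1 := by
  refine singleFun_of_forall_ne ι ι' fun τ => ?_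
  by_contra! hcon
  refine h (HeightOneSpectrum.ext (Ideal.ext fun x => ?_))
  show ‖embInt ι' K x‖ < 1 ↔ ‖embInt ι K x‖ < 1
  rw [embInt_apply, embInt_apply, ← hcon _ (x : K).2]
  rw [show ‖τ (ι ((x : K) : Qb))‖ = ‖ι ((x : K) : Qb)‖ from spectralNorm_eq_of_equiv τ _ |>.symm]

/-- The places over the primes outside a set, and the finiteness of places over one prime. -/
theorem finite_places_over (ℓ : Nat.Primes) :
    {v : HeightOneSpectrum (𝓞 K) | ((ℓ : ℕ) : 𝓞 K) ∈ v.asIdeal}.Finite := by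
  refine (Ideal.finite_factors (I := Ideal.span {((ℓ : ℕ) : 𝓞 K)}) ?_).subset fun w hw => ?_
  · simpa using ℓ.2.ne_zero
  · exact Ideal.dvd_span_singleton.mpr hw

/-- The class of a nonzero prime. -/
def placeClass (v : HeightOneSpectrum (𝓞 K)) : ClassGroup (𝓞 K) :=
  ClassGroup.mk0 ⟨v.asIdeal, mem_nonZeroDivisors_of_ne_zero v.ne_bot⟩

variable {K}

lemma exists_ordK_eq_one {T : Set (HeightOneSpectrum (𝓞 K))}
    (hT : Subgroup.closure (placeClass K '' T) = ⊤) {w : HeightOneSpectrum (𝓞 K)} (hw : w ∉ T) :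
    ∃ x : 𝓞 K, x ≠ 0 ∧ ordK w (x : K) = 1 ∧
      ∀ v ∉ T, v ≠ w → ordK v (x : K) = 0 := by
  classical
  have hmon : (placeClass K w)⁻¹ ∈ Submonoid.closure (placeClass K '' T) := by
    have h : (placeClass K w)⁻¹ ∈ (Subgroup.closure (placeClass K '' T)).toSubmonoid := by
      rw [hT]; trivial
    rwa [Subgroup.closure_toSubmonoid_of_finite] at h
  obtain ⟨J, hJ, hJT⟩ : ∃ J : (Ideal (𝓞 K))⁰, ClassGroup.mk0 J = (placeClass K w)⁻¹ ∧
      ∀ v ∉ T, ¬ (J : Ideal (𝓞 K)) ≤ v.asIdeal := by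
    generalize (placeClass K w)⁻¹ = c₀ at hmon ⊢
    induction hmon using Submonoid.closure_induction with
    | mem c hc =>
      obtain ⟨u, hu, rfl⟩ := hc
      exact ⟨_, rfl, fun v hv h => hv (by
        rwa [HeightOneSpectrum.ext (u.isMaximal.eq_of_le v.isPrime.ne_top h)] at hu)⟩
    | one =>
      exact ⟨1, map_one _, fun v _ h => v.isPrime.ne_top (top_le_iff.mp (by simpa using h))⟩
    | mul a b _ _ iha ihb =>
      obtain ⟨Ja, ha, ha'⟩ := iha
      obtain ⟨Jb, hb, hb'⟩ := ihb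
      exact ⟨Ja * Jb, by rw [map_mul, ha, hb], fun v hv h =>
        (v.isPrime.mul_le.mp h).elim (ha' v hv) (hb' v hv)⟩
  have hprin : Submodule.IsPrincipal (w.asIdeal * (J : Ideal (𝓞 K))) := by
    have hmem : w.asIdeal * (J : Ideal (𝓞 K)) ∈ (Ideal (𝓞 K))⁰ :=
      mul_mem (mem_nonZeroDivisors_of_ne_zero w.ne_bot) J.2
    refine (ClassGroup.mk0_eq_one_iff hmem).mp ?_
    have h : ClassGroup.mk0 ((⟨w.asIdeal, mem_nonZeroDivisors_of_ne_zero w.ne_bot⟩ : (Ideal (𝓞 K))⁰) * J) =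
        placeClass K w * ClassGroup.mk0 J := map_mul _ _ _
    rw [hJ, mul_inv_cancel] at h
    exact h
  obtain ⟨x, hx⟩ := hprin.principal
  rw [Ideal.submodule_span_eq] at hx
  have hx0 : x ≠ 0 := by
    rintro rfl
    rw [Ideal.span_singleton_eq_bot.mpr rfl, Ideal.mul_eq_bot] at hx
    exact hx.elim w.ne_bot (nonZeroDivisors.ne_zero J.2)
  refine ⟨x, hx0, ?_, fun v hv hvw => ?_⟩
  · have hxmem : x ∈ w.asIdeal * (J : Ideal (𝓞 K)) := by
      rw [hx]; exact Ideal.mem_span_singleton_self x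
    have h1 : x ∈ w.asIdeal ^ 1 := by
      rw [pow_one]
      exact Ideal.mul_le_right (I := (J : Ideal (𝓞 K))) (J := w.asIdeal) (mul_comm w.asIdeal (J : Ideal (𝓞 K)) ▸ hxmem)
    have h2 : x ∉ w.asIdeal ^ 2 := by
      intro h
      have hdvd : w.asIdeal * w.asIdeal ∣ w.asIdeal * (J : Ideal (𝓞 K)) := by
        rw [hx, ← pow_two]; exact Ideal.dvd_span_singleton.mpr h
      have h3 : w.asIdeal ∣ (J : Ideal (𝓞 K)) := (mul_dvd_mul_iff_left w.ne_bot).mp hdvd
      exact hJT w hw (Ideal.le_of_dvd h3)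
    rw [← w.intValuation_le_pow_iff_mem] at h1 h2
    rw [ordK, show ((x : K)) = algebraMap (𝓞 K) K x from rfl,
      HeightOneSpectrum.valuation_of_algebraMap]
    obtain ⟨m, hm⟩ : ∃ m : ℕ, w.intValuation x = WithZero.exp (-(m : ℤ)) :=
      ⟨_, w.intValuation_if_neg hx0⟩
    rw [hm, WithZero.exp_le_exp] at h1 h2
    rw [hm, WithZero.log_exp]
    omega
  · have hxv : x ∉ v.asIdeal := by
      intro h
      have hle : w.asIdeal * (J : Ideal (𝓞 K)) ≤ v.asIdeal := by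
        rw [hx]; exact (Ideal.span_singleton_le_iff_mem _).mpr h
      rcases v.isPrime.mul_le.mp hle with h' | h'
      · exact hvw (HeightOneSpectrum.ext (w.isMaximal.eq_of_le v.isPrime.ne_top h')).symm
      · exact hJT v hv h'
    rw [ordK, show ((x : K)) = algebraMap (𝓞 K) K x from rfl,
      HeightOneSpectrum.valuation_of_algebraMap, HeightOneSpectrum.intValuation_eq_one_iff.mpr hxv,
      WithZero.log_one, neg_zero]

/-- Ideles of `K` are principal up to the places of a generating set and local units. -/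
theorem exists_principal_norm_eq_one {T : Set (HeightOneSpectrum (𝓞 K))}
    (hT : Subgroup.closure (placeClass K '' T) = ⊤) {f : IdeleGroup} (hf : f ∈ idelesOf K) :
    ∃ x : K, x ≠ 0 ∧ ∀ (ℓ : Nat.Primes) (ι : Emb ℓ), placeAt ι K ∉ T →
      ‖ι (x : Qb) * ((f : Raw) ℓ ι : PadicAlgCl (ℓ : ℕ))‖ = 1 := by
  classical
  obtain ⟨A, hA⟩ := f.2.2.2
  set W : Finset (HeightOneSpectrum (𝓞 K)) :=
    (A.biUnion fun ℓ => (finite_places_over K ℓ).toFinset).filter (· ∉ T) with hW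
  have hWT : ∀ w ∈ W, w ∉ T := fun w hw => (Finset.mem_filter.mp hw).2
  -- the order of `f` at a place
  have hord : ∀ v : HeightOneSpectrum (𝓞 K), ∃ n : ℤ, ∀ (ℓ : Nat.Primes) (ι : Emb ℓ),
      placeAt ι K = v → ‖((f : Raw) ℓ ι : PadicAlgCl (ℓ : ℕ))‖ =
        ‖embInt ι K (unifK (placeAt ι K))‖ ^ n := by
    intro v
    by_cases h : ∃ (ℓ : Nat.Primes) (ι : Emb ℓ), placeAt ι K = v
    · obtain ⟨ℓ₀, ι₀, h₀⟩ := h
      obtain ⟨n, hn⟩ := exists_norm_apply_eq_zpow ι₀ hf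
      refine ⟨n, fun ℓ ι hι => ?_⟩
      have hℓ : ℓ = ℓ₀ := by
        by_contra hne
        have h1 : ((ℓ : ℕ) : 𝓞 K) ∈ v.asIdeal := hι ▸ natCast_mem_primeIdeal ι K
        have h2 : ((ℓ₀ : ℕ) : 𝓞 K) ∈ v.asIdeal := h₀ ▸ natCast_mem_primeIdeal ι₀ K
        obtain ⟨a, b, hab⟩ := Nat.isCoprime_iff_coprime.mpr
          ((Nat.coprime_primes ℓ.2 ℓ₀.2).mpr fun h => hne (Subtype.ext h))
        apply v.isPrime.ne_top
        rw [Ideal.eq_top_iff_one]
        have := congrArg (fun z : ℤ => (z : 𝓞 K)) hab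
        simp only [Int.cast_add, Int.cast_mul, Int.cast_natCast, Int.cast_one] at this
        rw [← this]
        exact v.asIdeal.add_mem (v.asIdeal.mul_mem_left _ h1) (v.asIdeal.mul_mem_left _ h2)
      subst hℓ
      obtain ⟨τ, hτ⟩ := exists_localComp_eqOn_of_placeAt_eq ι₀ (h₀.trans hι.symm)
      have hπ : ∀ x : 𝓞 K, ‖embInt ι K x‖ = ‖embInt ι₀ K x‖ := fun x => by
        rw [embInt_apply, embInt_apply]
        exact (norm_eq_of_placeAt_eq ι₀ (h₀.trans hι.symm) (x : K).2).symm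
      rw [hπ, hι, ← h₀, ← hn, apply_eq_of_eqOn hf (ι := localComp τ ι₀) (ι' := ι) hτ, f.2.1 ℓ τ ι₀]
      exact (spectralNorm_eq_of_equiv τ _).symm
    · exact ⟨0, fun ℓ ι hι => absurd ⟨ℓ, ι, hι⟩ h⟩
  choose n hn using hord
  have hgen : ∀ w : {w // w ∈ W}, ∃ x : 𝓞 K, x ≠ 0 ∧ ordK (w : HeightOneSpectrum (𝓞 K)) (x : K) = 1 ∧
      ∀ v ∉ T, v ≠ w → ordK v (x : K) = 0 := fun w => exists_ordK_eq_one hT (hWT _ w.2)
  choose g hg0 hgw hgv using hgen
  refine ⟨∏ w : {w // w ∈ W}, ((g w : 𝓞 K) : K) ^ (-n w),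
    Finset.prod_ne_zero_iff.mpr fun w _ =>
      zpow_ne_zero _ (by exact_mod_cast hg0 w), fun ℓ ι hι => ?_⟩
  set v := placeAt ι K with hv
  have hordsum : ∀ s : Finset {w // w ∈ W},
      ‖ι ((∏ w ∈ s, ((g w : 𝓞 K) : K) ^ (-n w) : K) : Qb)‖ =
        ‖embInt ι K (unifK v)‖ ^ (∑ w ∈ s, -n w * ordK v ((g w : 𝓞 K) : K)) := by
    intro s
    induction s using Finset.induction_on with
    | empty => simp
    | @insert w s hws ih =>
      rw [Finset.prod_insert hws, Finset.sum_insert hws, IntermediateField.coe_mul, map_mul,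
        norm_mul, ih, zpow_add₀ (norm_unifK_pos ι).ne']
      congr 1
      rw [show ((((g w : 𝓞 K) : K) ^ (-n w) : K) : Qb) = (((g w : 𝓞 K) : K) : Qb) ^ (-n w) from
        map_zpow₀ K.val _ _, map_zpow₀, norm_zpow, norm_emb_eq_zpow ι (by exact_mod_cast hg0 w),
        ← zpow_mul, mul_comm]
  rw [norm_mul, hordsum, hn v ℓ ι rfl, ← zpow_add₀ (norm_unifK_pos ι).ne']
  have hzero : (∑ w : {w // w ∈ W}, -n w * ordK v ((g w : 𝓞 K) : K)) + n v = 0 := by
    by_cases hvW : v ∈ W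
    · rw [Finset.sum_eq_single ⟨v, hvW⟩ (fun w _ hw => by
        rw [hgv w v hι fun h => hw (Subtype.ext h.symm), mul_zero])
        (fun h => absurd (Finset.mem_univ _) h)]
      rw [hgw ⟨v, hvW⟩]
      ring
    · rw [Finset.sum_eq_zero fun w _ => by
        rw [hgv w v hι fun h => hvW (h ▸ w.2), mul_zero], zero_add]
      have hℓA : ℓ ∉ A := fun h => hvW (Finset.mem_filter.mpr ⟨Finset.mem_biUnion.mpr
        ⟨ℓ, h, (finite_places_over K ℓ).mem_toFinset.mpr (natCast_mem_primeIdeal ι K)⟩, hι⟩)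
      have h1 := hn v ℓ ι rfl
      rw [hA ℓ hℓA ι] at h1
      exact (zpow_right_injective₀ (norm_unifK_pos ι) (norm_unifK_lt_one ι).ne
        (h1.symm.trans (zpow_zero _).symm))
  rw [hzero, zpow_zero]

variable (K) in
/-- A finite set of places generating the class group. -/
theorem exists_finite_generating :
    ∃ T : Set (HeightOneSpectrum (𝓞 K)), T.Finite ∧ Subgroup.closure (placeClass K '' T) = ⊤ := by
  classical
  have hall : Subgroup.closure (Set.range (placeClass K)) = ⊤ := by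
    rw [eq_top_iff]
    rintro c -
    obtain ⟨I, rfl⟩ := ClassGroup.mk0_surjective c
    obtain ⟨I, hI⟩ := I
    induction I using UniqueFactorizationMonoid.induction_on_prime with
    | h₁ => exact absurd rfl (nonZeroDivisors.ne_zero hI)
    | h₂ J hJ =>
      rw [show (⟨J, hI⟩ : (Ideal (𝓞 K))⁰) = 1 from Subtype.ext (isUnit_iff_eq_one.mp hJ), map_one]
      exact one_mem _
    | h₃ J P hJ0 hP ih =>
      have hP0 : P ≠ 0 := hP.ne_zero
      rw [show (⟨P * J, hI⟩ : (Ideal (𝓞 K))⁰) = ⟨P, mem_nonZeroDivisors_of_ne_zero hP0⟩ *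
        ⟨J, mem_nonZeroDivisors_of_ne_zero hJ0⟩ from rfl, map_mul]
      exact mul_mem (Subgroup.subset_closure ⟨⟨P, Ideal.isPrime_of_prime hP, hP0⟩, rfl⟩) (ih _)
  have hchoose : ∀ c : Set.range (placeClass K), ∃ v, placeClass K v = c := fun c => c.2
  choose pick hpick using hchoose
  refine ⟨Set.range pick, Set.finite_range pick, ?_⟩
  rw [← hall]
  congr 1
  ext c
  constructor
  · rintro ⟨v, -, rfl⟩; exact ⟨v, rfl⟩
  · intro hc; exact ⟨pick ⟨c, hc⟩, ⟨_, rfl⟩, hpick ⟨c, hc⟩⟩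

/-- Almost all primes are unramified in a finite extension. -/
theorem exists_finset_isUnramifiedAt (k L : IntermediateField ℚ Qb) [FiniteDimensional ℚ L] :
    ∃ A : Finset Nat.Primes, ∀ ℓ ∉ A, IsUnramifiedAt k L ℓ := by
  classical
  obtain ⟨α, hL⟩ := exists_eq_adjoin_simple L
  -- an integral generator
  obtain ⟨a, ha, hint⟩ := ((IsFractionRing.isAlgebraic_iff ℤ ℚ Qb).mpr
    (Algebra.IsAlgebraic.isAlgebraic α)).exists_integral_multiple
  set β : Qb := a • α with hβ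
  set g := minpoly ℤ β
  have hsep : Polynomial.aeval β g.derivative ≠ 0 := by
    have h := (Algebra.IsSeparable.isSeparable ℚ β).aeval_derivative_ne_zero (minpoly.aeval ℚ β)
    rw [minpoly.isIntegrallyClosed_eq_field_fractions' ℚ hint, Polynomial.derivative_map,
      Polynomial.aeval_map_algebraMap] at h
    exact h
  obtain ⟨A, hA⟩ := exists_primes_norm_eq_one (Units.mk0 _ hsep)
  refine ⟨A, fun ℓ hℓ ι τ hτ _ => ?_⟩
  have hg : Polynomial.aeval (ι β) g = 0 := by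
    change Polynomial.aeval ((ι.restrictScalars ℤ) β) g = 0
    rw [Polynomial.aeval_algHom_apply, minpoly.aeval, map_zero]
  have hg' : ‖Polynomial.aeval (ι β) g.derivative‖ = 1 := by
    have h := hA ℓ hℓ ι
    rw [Units.val_mk0] at h
    change ‖(ι.restrictScalars ℤ) (Polynomial.aeval β g.derivative)‖ = 1 at h
    rwa [← Polynomial.aeval_algHom_apply] at h
  have hle : ‖ι β‖ ≤ 1 := norm_le_one_of_isIntegral (hint.map (ι.restrictScalars ℤ))
  have hfix : τ (ι β) = ι β := by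
    by_contra hne
    set y := τ (ι β)
    have hy : Polynomial.aeval y g = 0 := by
      change Polynomial.aeval (((τ.restrictScalars ℤ).toAlgHom) (ι β)) g = 0
      rw [Polynomial.aeval_algHom_apply, hg, map_zero]
    obtain ⟨c, hc⟩ := Polynomial.binomExpansion
      (g.map (algebraMap ℤ (PadicAlgCl (ℓ : ℕ)))) (ι β) (y - ι β)
    rw [add_sub_cancel, Polynomial.derivative_map, Polynomial.eval_map_algebraMap,
      Polynomial.eval_map_algebraMap, Polynomial.eval_map_algebraMap, hg, hy, zero_add,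
      pow_two, ← mul_assoc, ← add_mul] at hc
    have hzero := (mul_eq_zero.mp hc.symm).resolve_right (sub_ne_zero.mpr hne)
    -- integrality of the second order term
    have hcn : ‖c * (y - ι β)‖ < 1 := by
      have hd : ‖y - ι β‖ < 1 := hτ (ι β) hle
      have hcint : ‖c‖ ≤ 1 := by
        obtain ⟨c', hc'⟩ := Polynomial.binomExpansion
          (g.map (algebraMap ℤ ((PadicAlgCl.valued (ℓ : ℕ)).v.integer)))
          (⟨ι β, by rw [Valuation.mem_integer_iff, PadicAlgCl.valuation_def]; exact_mod_cast hle⟩)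
          (⟨y - ι β, by rw [Valuation.mem_integer_iff, PadicAlgCl.valuation_def]; exact_mod_cast hd.le⟩)
        have hmap := congrArg (algebraMap ((PadicAlgCl.valued (ℓ : ℕ)).v.integer)
          (PadicAlgCl (ℓ : ℕ))) hc'
        simp only [map_add, map_mul, map_pow, Polynomial.derivative_map,
          Polynomial.eval_map_algebraMap, ← Polynomial.aeval_algebraMap_apply] at hmap
        have hval : ∀ z : (PadicAlgCl.valued (ℓ : ℕ)).v.integer,
            algebraMap _ (PadicAlgCl (ℓ : ℕ)) z = (z : PadicAlgCl (ℓ : ℕ)) := fun z => rfl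
        simp only [hval, add_sub_cancel, hy, hg, zero_add, pow_two, ← mul_assoc, ← add_mul] at hmap
        have h2 := (mul_eq_zero.mp hmap.symm).resolve_right (sub_ne_zero.mpr hne)
        have hcc : (c' : PadicAlgCl (ℓ : ℕ)) = c :=
          mul_right_cancel₀ (sub_ne_zero.mpr hne) (add_left_cancel (h2.trans hzero.symm))
        rw [← hcc]
        have := c'.2
        rw [Valuation.mem_integer_iff, PadicAlgCl.valuation_def] at this
        exact_mod_cast this
      rw [norm_mul]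
      exact lt_of_le_of_lt (mul_le_of_le_one_left (norm_nonneg _) hcint) hd
    rw [eq_neg_of_add_eq_zero_left hzero, norm_neg] at hg'
    exact absurd hg' hcn.ne
  intro x hx
  rw [hL] at hx
  induction hx using IntermediateField.adjoin_induction with
  | mem z hz =>
    rw [Set.mem_singleton_iff.mp hz]
    have hα : α = (algebraMap ℚ Qb (a : ℚ))⁻¹ * β := by
      rw [hβ, zsmul_eq_mul, map_intCast, ← mul_assoc, inv_mul_cancel₀ (Int.cast_ne_zero.mpr ha),
        one_mul]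
    rw [hα, map_mul, map_mul, hfix, map_inv₀, map_inv₀, AlgHom.commutes,
      IsScalarTower.algebraMap_apply ℚ ℚ_[(ℓ : ℕ)] (PadicAlgCl (ℓ : ℕ)), AlgEquiv.commutes]
  | algebraMap r =>
    rw [AlgHom.commutes, IsScalarTower.algebraMap_apply ℚ ℚ_[(ℓ : ℕ)] (PadicAlgCl (ℓ : ℕ)),
      AlgEquiv.commutes]
  | add u v _ _ hu hv => rw [map_add, map_add, hu, hv]
  | inv u _ hu => rw [map_inv₀, map_inv₀, hu]
  | mul u v _ _ hu hv => rw [map_mul, map_mul, hu, hv]

end Fermat.Agent.ClassField.Idele
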