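import Fermat.Agent.ClassField.Idele.Level

/-!
# Properties of the relative norm `cosetProd`

On invariants of the smaller group the product over the cosets does not depend on representatives,
is multiplicative, lands in the invariants of the bigger group and is transitive in towers.
-/

set_option autoImplicit false

noncomputable section

open IntermediateField

namespace Fermat.Agent.ClassField.Idele

local notation "Qb" => AlgebraicClosure ℚ
local notation "Γ" => (AlgebraicClosure ℚ ≃ₐ[ℚ] AlgebraicClosure ℚ)

/-- The fixing subgroup of a finite extension has finite index. -/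
instance finiteIndex_fixingSubgroup (L : IntermediateField ℚ Qb) [FiniteDimensional ℚ L] :
    L.fixingSubgroup.FiniteIndex := by
  have : Finite (Γ ⧸ L.fixingSubgroup) :=
    Subgroup.quotient_finite_of_isOpen _ (IntermediateField.fixingSubgroup_isOpen L)
  exact Subgroup.finiteIndex_of_finite_quotient

/-- The cosets of a level in a bigger one are finite in number. -/
instance finite_quotient_subgroupOf (H U : Subgroup Γ) [U.FiniteIndex] :
    Finite (H ⧸ U.subgroupOf H) := by
  exact Subgroup.finite_quotient_of_finiteIndex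

variable {M : Type*} [CommGroup M] [MulDistribMulAction Γ M] {H U V : Subgroup Γ}

lemma smul_eq_of_quotient_eq {m : M} (hm : m ∈ invariants M U) {a b : H}
    (h : (QuotientGroup.mk a : H ⧸ U.subgroupOf H) = QuotientGroup.mk b) :
    (a : Γ) • m = (b : Γ) • m := by
  have h' := QuotientGroup.eq.mp h
  rw [Subgroup.mem_subgroupOf] at h'
  conv_rhs => rw [← mul_inv_cancel_left (a : Γ) (b : Γ), mul_smul]
  congr 1
  exact (hm _ h').symm

/-- The relative norm as a product over any choice of representatives. -/
lemma cosetProd_eq_finprod {m : M} (hm : m ∈ invariants M U) {ι : Type*}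
    (e : ι ≃ H ⧸ U.subgroupOf H) (s : ι → H) (hs : ∀ i, QuotientGroup.mk (s i) = e i) :
    cosetProd H U m = ∏ᶠ i, (s i : Γ) • m := by
  rw [cosetProd, ← finprod_comp_equiv e]
  exact finprod_congr fun i => smul_eq_of_quotient_eq hm (by rw [hs i]; exact QuotientGroup.out_eq' _)

lemma cosetProd_mul [Finite (H ⧸ U.subgroupOf H)] (a b : M) :
    cosetProd H U (a * b) = cosetProd H U a * cosetProd H U b := by
  simp only [cosetProd, smul_mul']
  exact finprod_mul_distrib (Set.toFinite _) (Set.toFinite _)

@[simp] lemma cosetProd_one : cosetProd H U (1 : M) = 1 := by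
  simp [cosetProd]

/-- The relative norm as a homomorphism. -/
def cosetProdHom (H U : Subgroup Γ) [Finite (H ⧸ U.subgroupOf H)] : M →* M where
  toFun := cosetProd H U
  map_one' := cosetProd_one
  map_mul' := cosetProd_mul

@[simp] lemma cosetProdHom_apply (H U : Subgroup Γ) [Finite (H ⧸ U.subgroupOf H)] (m : M) :
    cosetProdHom H U m = cosetProd H U m := rfl

lemma smul_cosetProd [Finite (H ⧸ U.subgroupOf H)] (σ : Γ) (m : M) :
    σ • cosetProd H U m = ∏ᶠ q : H ⧸ U.subgroupOf H, (σ * ((q.out : H) : Γ)) • m := by
  rw [cosetProd, ← MulDistribMulAction.toMonoidHom_apply M σ,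
    MonoidHom.map_finprod _ (Set.toFinite _)]
  exact finprod_congr fun q => (mul_smul σ _ m).symm

lemma cosetProd_mem_invariants [Finite (H ⧸ U.subgroupOf H)] {m : M} (hm : m ∈ invariants M U) :
    cosetProd H U m ∈ invariants M H := by
  intro σ hσ
  rw [smul_cosetProd]
  refine Eq.symm (cosetProd_eq_finprod hm (MulAction.toPerm (⟨σ, hσ⟩ : H))
    (fun q => ⟨σ, hσ⟩ * q.out) fun q => ?_)
  rw [MulAction.toPerm_apply]
  conv_rhs => rw [← QuotientGroup.out_eq' q]
  rfl

/-- Equivariant maps commute with the relative norm. -/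
lemma map_cosetProd [Finite (H ⧸ U.subgroupOf H)] {N : Type*} [CommGroup N]
    [MulDistribMulAction Γ N] (φ : M →* N) (hφ : ∀ (σ : Γ) (m : M), φ (σ • m) = σ • φ m) (m : M) :
    φ (cosetProd H U m) = cosetProd H U (φ m) := by
  rw [cosetProd, MonoidHom.map_finprod _ (Set.toFinite _)]
  exact finprod_congr fun q => hφ _ _

/-- The relative norm of an invariant element is a power. -/
lemma cosetProd_eq_pow [Finite (H ⧸ U.subgroupOf H)] {m : M} (hm : m ∈ invariants M H) :
    cosetProd H U m = m ^ U.relIndex H := by
  classical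
  have := Fintype.ofFinite (H ⧸ U.subgroupOf H)
  rw [cosetProd, finprod_eq_prod_of_fintype, Finset.prod_congr rfl (fun q _ => hm _ q.out.2),
    Finset.prod_const, Finset.card_univ, ← Nat.card_eq_fintype_card]
  rfl

/-- Transitivity of the relative norm. -/
lemma cosetProd_cosetProd [Finite (H ⧸ V.subgroupOf H)] [Finite (V ⧸ U.subgroupOf V)]
    [Finite (H ⧸ U.subgroupOf H)] (hUV : U ≤ V) (hVH : V ≤ H) {m : M}
    (hm : m ∈ invariants M U) :
    cosetProd H V (cosetProd V U m) = cosetProd H U m := by
  classical
  have := Fintype.ofFinite (H ⧸ V.subgroupOf H)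
  have := Fintype.ofFinite (V ⧸ U.subgroupOf V)
  let s : (H ⧸ V.subgroupOf H) × (V ⧸ U.subgroupOf V) → H := fun x =>
    x.1.out * ⟨(x.2.out : Γ), hVH x.2.out.2⟩
  have hbij : Function.Bijective fun x => (QuotientGroup.mk (s x) : H ⧸ U.subgroupOf H) := by
    constructor
    · rintro ⟨a, b⟩ ⟨a', b'⟩ h
      have h' := QuotientGroup.eq.mp h
      rw [Subgroup.mem_subgroupOf] at h'
      have ha : a = a' := by
        rw [← QuotientGroup.out_eq' a, ← QuotientGroup.out_eq' a', QuotientGroup.eq,
          Subgroup.mem_subgroupOf]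
        have := V.mul_mem (V.mul_mem b.out.2 (hUV h')) (V.inv_mem b'.out.2)
        convert this using 1
        simp only [s, mul_inv_rev, Subgroup.coe_mul, InvMemClass.coe_inv]
        group
      subst ha
      have hb : b = b' := by
        rw [← QuotientGroup.out_eq' b, ← QuotientGroup.out_eq' b', QuotientGroup.eq,
          Subgroup.mem_subgroupOf]
        convert h' using 1
        simp only [s, mul_inv_rev, Subgroup.coe_mul, InvMemClass.coe_inv]
        group
      rw [hb]
    · intro x
      obtain ⟨y, rfl⟩ := QuotientGroup.mk_surjective x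
      have hy : ((QuotientGroup.mk y : H ⧸ V.subgroupOf H).out⁻¹ * y : H) ∈ V.subgroupOf H :=
        QuotientGroup.eq.mp (QuotientGroup.out_eq' _)
      rw [Subgroup.mem_subgroupOf] at hy
      refine ⟨⟨QuotientGroup.mk y, QuotientGroup.mk ⟨_, hy⟩⟩, QuotientGroup.eq.mpr ?_⟩
      have hw : ((QuotientGroup.mk (⟨_, hy⟩ : V) : V ⧸ U.subgroupOf V).out⁻¹ * ⟨_, hy⟩ : V) ∈
          U.subgroupOf V := QuotientGroup.eq.mp (QuotientGroup.out_eq' _)
      rw [Subgroup.mem_subgroupOf] at hw ⊢
      convert hw using 1
      simp only [s, mul_inv_rev, Subgroup.coe_mul, InvMemClass.coe_inv]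
      group
  rw [cosetProd_eq_finprod hm (Equiv.ofBijective _ hbij) s fun _ => rfl, finprod_eq_prod_of_fintype,
    Fintype.prod_prod_type, cosetProd, finprod_eq_prod_of_fintype]
  refine Finset.prod_congr rfl fun a _ => ?_
  rw [smul_cosetProd, finprod_eq_prod_of_fintype]
  rfl

/-- Transitivity of the norm between levels. -/
lemma relNorm_relNorm {k F L : IntermediateField ℚ Qb} [FiniteDimensional ℚ F]
    [FiniteDimensional ℚ L] (hkF : k ≤ F) (hFL : F ≤ L) {m : M}
    (hm : m ∈ invariants M L.fixingSubgroup) :
    relNorm k F (relNorm F L m) = relNorm k L m :=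
  cosetProd_cosetProd (fixingSubgroup_antitone hFL) (fixingSubgroup_antitone hkF) hm

lemma relNorm_mem_idelesOf {k L : IntermediateField ℚ Qb} [FiniteDimensional ℚ L] {f : IdeleGroup}
    (hf : f ∈ idelesOf L) : relNorm k L f ∈ idelesOf k :=
  cosetProd_mem_invariants hf

lemma classMap_relNorm {S : Set Nat.Primes} {k L : IntermediateField ℚ Qb} [FiniteDimensional ℚ L]
    (f : IdeleGroup) : classMap S (relNorm k L f) = relNorm k L (classMap S f) :=
  map_cosetProd (classMap S) (fun σ m => (smul_classMap S σ m).symm) f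

lemma relNorm_principal {k L : IntermediateField ℚ Qb} [FiniteDimensional ℚ L] (x : Qbˣ) :
    relNorm k L (principal x) = principal (relNorm k L x) :=
  (map_cosetProd principal (fun σ x => (smul_principal σ x).symm) x).symm

end Fermat.Agent.ClassField.Idele
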