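import Fermat.Agent.ClassField.Idele.Level
import Fermat.Agent.ClassField.Idele.Herbrand.Global

/-! Herbrand quotient of the idele classes in a cyclic extension of prime degree.
 -/

set_option autoImplicit false

noncomputable section

open IntermediateField

namespace Fermat.Agent.ClassField.Idele

local notation "Qb" => AlgebraicClosure ℚ
local notation "Γ" => (AlgebraicClosure ℚ ≃ₐ[ℚ] AlgebraicClosure ℚ)

variable {p : ℕ} [Fact p.Prime] {S : Set Nat.Primes} {k L : IntermediateField ℚ Qb}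
  (hkL : IsPrimeCyclic p k L) {ζ : Qb} (hζ : IsPrimitiveRoot ζ p) (hζk : ζ ∈ k)

open Herbrand in
include hkL in
/-- The class indices as quotient indices of the ideles. -/
theorem relIndex_normClasses_eq_qidx (σ : Γ) (hσk : σ ∈ k.fixingSubgroup)
    (hσL : σ ∉ L.fixingSubgroup) (hS : ∀ ℓ, ℓ ∉ S → IsUnramifiedAt k L ℓ) (hSne : S.Nonempty) :
    (normClasses S k L).relIndex (classesOf S k) =
        qidx (delta IdeleGroup σ) (normPow IdeleGroup σ p) (idelesOf L)
          (idelesOf L ⊓ trivialClasses S) ∧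
      (Subgroup.closure ((fun c : IdeleClass S => σ • c * c⁻¹) ''
          (classesOf S L : Set (IdeleClass S)))).relIndex
          (Subgroup.closure (normOneClasses S k L)) =
        qidx (normPow IdeleGroup σ p) (delta IdeleGroup σ) (idelesOf L)
          (idelesOf L ⊓ trivialClasses S) := by
  have h : Gen p k L σ := ⟨hkL, hσk, hσL⟩
  have := h.finiteDimensional
  set f := delta IdeleGroup σ
  set g := normPow IdeleGroup σ p
  set B := idelesOf L ⊓ trivialClasses S with hB
  have hJst := stable_ideles h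
  have hker : (classMap S).ker = trivialClasses S := QuotientGroup.ker_mk' _
  have hrel : ∀ a ∈ idelesOf L, relNorm k L (classMap S a) = classMap S (g a) := fun a ha => by
    rw [← classMap_relNorm, h.relNorm_eq ha]
  have hnorm : normClasses S k L = ((idelesOf L).map g).map (classMap S) := by
    rw [normClasses]
    refine le_antisymm ((Subgroup.closure_le _).2 ?_) ?_
    · rintro _ ⟨_, ⟨a, ha, rfl⟩, rfl⟩
      exact ⟨g a, ⟨a, ha, rfl⟩, (hrel a ha).symm⟩
    · rintro _ ⟨_, ⟨a, ha, rfl⟩, rfl⟩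
      exact Subgroup.subset_closure ⟨_, ⟨a, ha, rfl⟩, hrel a ha⟩
  have hdelta : Subgroup.closure ((fun c : IdeleClass S => σ • c * c⁻¹) ''
      (classesOf S L : Set (IdeleClass S))) = ((idelesOf L).map f).map (classMap S) := by
    have e : ∀ a : IdeleGroup, σ • classMap S a * (classMap S a)⁻¹ = classMap S (f a) := fun a => by
      rw [smul_classMap, ← div_eq_mul_inv, ← map_div]; rfl
    refine le_antisymm ((Subgroup.closure_le _).2 ?_) ?_
    · rintro _ ⟨_, ⟨a, ha, rfl⟩, rfl⟩
      exact ⟨f a, ⟨a, ha, rfl⟩, (e a).symm⟩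
    · rintro _ ⟨_, ⟨a, ha, rfl⟩, rfl⟩
      exact Subgroup.subset_closure ⟨_, ⟨a, ha, rfl⟩, e a⟩
  have hone : Subgroup.closure (normOneClasses S k L) =
      (idelesOf L ⊓ B.comap g).map (classMap S) := by
    refine le_antisymm ((Subgroup.closure_le _).2 ?_) ?_
    · rintro _ ⟨⟨a, ha, rfl⟩, h1⟩
      refine ⟨a, ⟨ha, ?_, ?_⟩, rfl⟩
      · exact hJst.map_right ⟨a, ha, rfl⟩
      · rw [hrel a ha] at h1
        exact (QuotientGroup.eq_one_iff _).1 h1
    · rintro _ ⟨a, ⟨ha, hga⟩, rfl⟩
      refine Subgroup.subset_closure ⟨⟨a, ha, rfl⟩, ?_⟩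
      rw [hrel a ha]
      exact (QuotientGroup.eq_one_iff _).2 hga.2
  have key : ∀ (f' g' : IdeleGroup →* IdeleGroup) (X : Subgroup IdeleGroup),
      X ≤ idelesOf L → (idelesOf L).map g' ≤ X →
      (((idelesOf L).map g').map (classMap S)).relIndex (X.map (classMap S)) =
        ((idelesOf L).map g' ⊔ B).relIndex X := by
    intro f' g' X hX hgX
    rw [Subgroup.relIndex_map_map, hker,
      show X ⊔ trivialClasses S = X ⊔ ((idelesOf L).map g' ⊔ trivialClasses S) by
        rw [← sup_assoc, sup_eq_left.2 hgX],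
      Subgroup.relIndex_sup_right, ← Subgroup.inf_relIndex_right, sup_inf_eq hgX]
    conv_rhs => rw [← Subgroup.inf_relIndex_right, sup_inf_eq hgX]
    congr 2
    exact le_antisymm (fun a ha => ⟨⟨hX ha.2, ha.1⟩, ha.2⟩) fun a ha => ⟨ha.1.2, ha.2⟩
  -- `H¹` of the kernel vanishes
  have hB1 : idx g f B = 1 := by
    rw [hB, idelesOf_inf_trivialClasses hSne L,
      idx_sup (stable_principalOf h).symm (stable_unitsPart h S).symm
        (le_bot_iff.1 ((inf_le_inf inf_le_left inf_le_right).trans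
          (principal_inf_unitsAway hSne).le)),
      idx_principalOf h, (idx_unitsPart h (R := S) hS).2, mul_one]
  have hJk : classesOf S k = (idelesOf L ⊓ f.ker).map (classMap S) := by
    rw [classesOf, h.invariants_inf_ker_delta]
  have hBst : Stable f g B := by
    rw [hB, idelesOf_inf_trivialClasses hSne L]
    exact (stable_principalOf h).sup (stable_unitsPart h S)
  have hX0 : idelesOf L ⊓ B.comap f = idelesOf L ⊓ f.ker ⊔ B := by
    refine le_antisymm (fun a ha => ?_) (sup_le (fun a ha => ⟨ha.1, ?_⟩)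
      fun b hb => ⟨hb.1, hBst.map_left ⟨b, hb, rfl⟩⟩)
    · obtain ⟨b, hb, hfb⟩ := Subgroup.relIndex_eq_one.1 hB1
        (show f a ∈ B ⊓ g.ker from ⟨ha.2, hJst.comp_right a ha.1⟩)
      refine Subgroup.mem_sup.2 ⟨a / b, ⟨(idelesOf L).div_mem ha.1 hb.1, ?_⟩, b, hb,
        div_mul_cancel _ _⟩
      show f (a / b) = 1
      rw [map_div, hfb, div_self']
    · show f a ∈ B
      rw [show f a = 1 from ha.2]; exact one_mem B
  refine ⟨?_, ?_⟩
  · rw [hnorm, hJk, key f g _ inf_le_left hJst.map_le, qidx, hX0]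
    have e : idelesOf L ⊓ f.ker ⊔ B = idelesOf L ⊓ f.ker ⊔ ((idelesOf L).map g ⊔ B) := by
      rw [← sup_assoc, sup_eq_left.2 hJst.map_le]
    rw [e, Subgroup.relIndex_sup_right]
  · rw [hdelta, hone, key g f _ inf_le_left, qidx]
    rintro _ ⟨a, ha, rfl⟩
    refine ⟨hJst.map_left ⟨a, ha, rfl⟩, ?_⟩
    show g (f a) ∈ B
    rw [hJst.comp_right a ha]
    exact one_mem B

open Herbrand in
include hkL hζ hζk in
/-- Herbrand quotient of the idele classes in a cyclic extension of prime degree.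
 -/
theorem relIndex_normClasses (hp : p ≠ 2) (hS : ∀ ℓ, ℓ ∉ S → IsUnramifiedAt k L ℓ) (σ : Γ) (hσk : σ ∈ k.fixingSubgroup) (hσL : σ ∉ L.fixingSubgroup)
    (hSne : S.Nonempty := by exact Set.univ_nonempty) :
    (normClasses S k L).relIndex (classesOf S k) =
      p * (Subgroup.closure ((fun c : IdeleClass S => σ • c * c⁻¹) '' (classesOf S L : Set (IdeleClass S)))).relIndex
        (Subgroup.closure (normOneClasses S k L)) := by
  obtain ⟨e0, e1⟩ := relIndex_normClasses_eq_qidx hkL σ hσk hσL hS hSne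
  rw [e0, e1]
  exact (qidx_classes (σ := σ) ⟨hkL, hσk, hσL⟩ hp hζ hζk hS hSne).2

open Herbrand in
include hkL hζ hζk in
/-- The norm index of the idele classes is finite. -/
theorem relIndex_normClasses_ne_zero (hp : p ≠ 2) (hS : ∀ ℓ, ℓ ∉ S → IsUnramifiedAt k L ℓ) (σ : Γ)
    (hσk : σ ∈ k.fixingSubgroup) (hσL : σ ∉ L.fixingSubgroup)
    (hSne : S.Nonempty := by exact Set.univ_nonempty) :
    (normClasses S k L).relIndex (classesOf S k) ≠ 0 := by
  obtain ⟨e0, -⟩ := relIndex_normClasses_eq_qidx hkL σ hσk hσL hS hSne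
  rw [e0]
  exact (qidx_classes (σ := σ) ⟨hkL, hσk, hσL⟩ hp hζ hζk hS hSne).1

end Fermat.Agent.ClassField.Idele
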