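import Fermat.Agent.ClassField.Idele.CosetProd
import Fermat.Agent.ClassField.Idele.PlaceIdeles
import Fermat.Agent.ClassField.LocalUnitNorms
import Fermat.Agent.ClassField.PadicRoots

/-!
# Local components of the ideles in a cyclic extension of prime degree
-/

set_option autoImplicit false

noncomputable section

open IntermediateField IsDedekindDomain
open scoped NumberField

namespace Fermat.Agent.ClassField.Idele

local notation "Qb" => AlgebraicClosure ℚ
local notation "Γ" => (AlgebraicClosure ℚ ≃ₐ[ℚ] AlgebraicClosure ℚ)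

variable {p : ℕ} {k L : IntermediateField ℚ Qb} {ℓ : Nat.Primes}

/-- The Galois group of `L/k` preserves `L`. -/
lemma apply_mem_of_isPrimeCyclic (hkL : IsPrimeCyclic p k L) {σ : Γ} (hσ : σ ∈ k.fixingSubgroup)
    {x : Qb} (hx : x ∈ L) : σ x ∈ L := by
  refine mem_of_forall_fixingSubgroup L fun u hu => ?_
  have hmem : σ⁻¹ * u * σ ∈ L.fixingSubgroup := by
    have h := hkL.normal.conj_mem (n := ⟨u, IntermediateField.fixingSubgroup_antitone hkL.le hu⟩)
      (by rwa [Subgroup.mem_subgroupOf]) ⟨σ, hσ⟩⁻¹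
    rwa [Subgroup.mem_subgroupOf, inv_inv] at h
  have h := (IntermediateField.mem_fixingSubgroup_iff _ _).mp hmem x hx
  rw [show (σ⁻¹ * u * σ) x = σ.symm (u (σ x)) from rfl, AlgEquiv.symm_apply_eq] at h
  exact h

/-- The local extension cut out by an embedding. -/
abbrev localExt (ι : Emb ℓ) (h : k ≤ L) :
    IntermediateField (localField ι k) (PadicAlgCl (ℓ : ℕ)) :=
  IntermediateField.extendScalars (localField_mono ι h)

lemma exists_globalComp_of_fix {ι : Emb ℓ} {τ : LocalGal ℓ}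
    (hτ : ∀ x ∈ k, τ (ι x) = ι x) :
    ∃ σ : k.fixingSubgroup, ∀ x : Qb, ι ((σ : Γ) x) = τ (ι x) := by
  obtain ⟨σ, hσ, h⟩ := exists_globalComp_eq_of_eqOn (K := k) (ι := ι) (ι' := localComp τ ι)
    fun x hx => (hτ x hx).symm
  exact ⟨⟨σ, hσ⟩, fun x => DFunLike.congr_fun h x⟩

lemma isGalois_localExt (ι : Emb ℓ) (hkL : IsPrimeCyclic p k L) :
    IsGalois (localField ι k) (localExt ι hkL.le) := by
  have : IsGalois (localField ι k) (PadicAlgCl (ℓ : ℕ)) :=
    IsGalois.tower_top_of_isGalois ℚ_[(ℓ : ℕ)] (localField ι k) (PadicAlgCl (ℓ : ℕ))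
  have : Normal (localField ι k) (localExt ι hkL.le) :=
    IntermediateField.normal_iff_forall_map_le'.2 fun g => by
      rintro _ ⟨y, hy, rfl⟩
      rw [SetLike.mem_coe] at hy
      change y ∈ localField ι L at hy
      change g y ∈ localField ι L
      induction hy using IntermediateField.adjoin_induction with
      | mem y hy =>
        obtain ⟨x, hx, rfl⟩ := hy
        obtain ⟨σ, hσ⟩ := exists_globalComp_of_fix (k := k) (ι := ι)
          (τ := g.restrictScalars ℚ_[(ℓ : ℕ)]) fun x hx => g.commutes ⟨_, apply_mem_localField hx⟩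
        rw [show g (ι x) = ι ((σ : Γ) x) from (hσ x).symm]
        exact apply_mem_localField (apply_mem_of_isPrimeCyclic hkL σ.2 hx)
      | algebraMap r =>
        rw [show g (algebraMap ℚ_[(ℓ : ℕ)] _ r) = algebraMap ℚ_[(ℓ : ℕ)] _ r from
          (g.restrictScalars ℚ_[(ℓ : ℕ)]).commutes r]
        exact IntermediateField.algebraMap_mem _ r
      | add a b _ _ ha hb => rw [map_add]; exact add_mem ha hb
      | inv a _ ha => rw [map_inv₀]; exact inv_mem ha
      | mul a b _ _ ha hb => rw [map_mul]; exact mul_mem ha hb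
  exact ⟨⟩

/-- The local Galois group of the extension maps injectively to the global one, compatibly with
the embedding, and its image is the set of cosets locally conjugate to the identity. -/
lemma exists_decompositionHom (ι : Emb ℓ) (hkL : IsPrimeCyclic p k L) :
    haveI := hkL.normal
    ∃ Ψ : Gal(localExt ι hkL.le/localField ι k) →*
        (k.fixingSubgroup ⧸ L.fixingSubgroup.subgroupOf k.fixingSubgroup),
      Function.Injective Ψ ∧
      (∀ g, ∃ τ : LocalGal ℓ, (∀ x ∈ L, τ (ι x) = ι (((Ψ g).out : Γ) x)) ∧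
        ∀ y : localExt ι hkL.le, τ (y : PadicAlgCl (ℓ : ℕ)) = (g y : PadicAlgCl (ℓ : ℕ))) ∧
      ∀ q : k.fixingSubgroup ⧸ L.fixingSubgroup.subgroupOf k.fixingSubgroup,
        (∃ τ : LocalGal ℓ, ∀ x ∈ L, τ (ι x) = ι ((q.out : Γ) x)) → q ∈ Ψ.range := by
  classical
  have := hkL.normal
  have hG := isGalois_localExt ι hkL
  have hN : Normal (localField ι k) (PadicAlgCl (ℓ : ℕ)) :=
    (IsGalois.tower_top_of_isGalois ℚ_[(ℓ : ℕ)] (localField ι k) (PadicAlgCl (ℓ : ℕ))).to_normal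
  have hinj : Function.Injective ι := ι.toRingHom.injective
  have hmk : ∀ σ σ' : k.fixingSubgroup, (∀ x ∈ L, (σ : Γ) x = (σ' : Γ) x) →
      (QuotientGroup.mk σ : k.fixingSubgroup ⧸ L.fixingSubgroup.subgroupOf k.fixingSubgroup) =
        QuotientGroup.mk σ' := fun σ σ' h => by
    rw [QuotientGroup.eq, Subgroup.mem_subgroupOf, IntermediateField.mem_fixingSubgroup_iff]
    intro x hx
    show (σ : Γ).symm ((σ' : Γ) x) = x
    rw [← h x hx, AlgEquiv.symm_apply_apply]
  have hmk' : ∀ σ σ' : k.fixingSubgroup,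
      (QuotientGroup.mk σ : k.fixingSubgroup ⧸ L.fixingSubgroup.subgroupOf k.fixingSubgroup) =
        QuotientGroup.mk σ' → ∀ x ∈ L, (σ : Γ) x = (σ' : Γ) x := fun σ σ' h x hx => by
    rw [QuotientGroup.eq, Subgroup.mem_subgroupOf, IntermediateField.mem_fixingSubgroup_iff] at h
    have h' : (σ : Γ).symm ((σ' : Γ) x) = x := h x hx
    rw [AlgEquiv.symm_apply_eq] at h'
    exact h'.symm
  let lift : Gal(localExt ι hkL.le/localField ι k) → LocalGal ℓ := fun g =>
    (AlgEquiv.liftNormal g (PadicAlgCl (ℓ : ℕ))).restrictScalars ℚ_[(ℓ : ℕ)]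
  have hlift : ∀ g (y : localExt ι hkL.le),
      lift g (y : PadicAlgCl (ℓ : ℕ)) = (g y : PadicAlgCl (ℓ : ℕ)) := fun g y =>
    AlgEquiv.liftNormal_commutes g _ y
  have hσ : ∀ g, ∃ σ : k.fixingSubgroup, ∀ x : Qb, ι ((σ : Γ) x) = lift g (ι x) := fun g =>
    exists_globalComp_of_fix fun x hx =>
      (AlgEquiv.liftNormal g (PadicAlgCl (ℓ : ℕ))).commutes ⟨_, apply_mem_localField hx⟩
  choose s hs using hσ
  have hsL : ∀ g (x : Qb) (hx : x ∈ L),
      ι ((s g : Γ) x) = (g ⟨ι x, apply_mem_localField hx⟩ : PadicAlgCl (ℓ : ℕ)) := fun g x hx =>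
    (hs g x).trans (hlift g ⟨ι x, apply_mem_localField hx⟩)
  let Ψ : Gal(localExt ι hkL.le/localField ι k) →*
      (k.fixingSubgroup ⧸ L.fixingSubgroup.subgroupOf k.fixingSubgroup) :=
    MonoidHom.mk' (fun g => QuotientGroup.mk (s g)) fun g g' => by
      rw [← QuotientGroup.mk_mul]
      refine hmk _ _ fun x hx => hinj ?_
      have hx' := apply_mem_of_isPrimeCyclic hkL (s g').2 hx
      rw [hsL _ x hx, Subgroup.coe_mul, AlgEquiv.mul_apply]
      show _ = ι ((s g : Γ) ((s g' : Γ) x))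
      rw [hsL g _ hx']
      congr 2
      exact Subtype.ext (hsL g' x hx).symm
  have hext : ∀ g g' : Gal(localExt ι hkL.le/localField ι k),
      (∀ x ∈ L, lift g (ι x) = lift g' (ι x)) → g = g' := fun g g' h => AlgEquiv.ext fun y => by
    refine Subtype.ext ?_
    rw [← hlift, ← hlift]
    exact eq_of_eqOn_of_mem_localField ι h y.2
  refine ⟨Ψ, fun g g' h => hext g g' fun x hx => ?_, fun g => ⟨lift g, fun x hx => ?_, hlift g⟩, ?_⟩
  · rw [← hs, ← hs, hmk' _ _ h x hx]
  · rw [← hs, hmk' _ _ (QuotientGroup.out_eq' (Ψ g)) x hx]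
  · rintro q ⟨τ, hτ⟩
    have hτk : ∀ y ∈ localField ι k, τ y = y := fun y hy =>
      (IntermediateField.mem_fixingSubgroup_iff _ _).mp (fix_of_localComp_eqOn fun x hx => by
        rw [hτ x (hkL.le hx), (IntermediateField.mem_fixingSubgroup_iff _ _).mp q.out.2 x hx]) y hy
    let τ' : PadicAlgCl (ℓ : ℕ) ≃ₐ[localField ι k] PadicAlgCl (ℓ : ℕ) :=
      AlgEquiv.ofRingEquiv (f := τ.toRingEquiv) fun y => hτk y y.2
    have := hG.to_normal
    refine ⟨AlgEquiv.restrictNormal τ' (localExt ι hkL.le), ?_⟩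
    rw [← QuotientGroup.out_eq' q]
    refine hmk _ _ fun x hx => hinj ?_
    rw [hsL _ x hx]
    exact (AlgEquiv.restrictNormal_commutes τ' (localExt ι hkL.le)
      (⟨ι x, apply_mem_localField hx⟩ : localExt ι hkL.le)).trans (hτ x hx)

lemma finite_gal_localExt (ι : Emb ℓ) (hkL : IsPrimeCyclic p k L) [FiniteDimensional ℚ k] :
    FiniteDimensional (localField ι k) (localExt ι hkL.le) := by
  have := hkL.finite
  exact PadicFields.finiteDimensional_extendScalars (localField_mono ι hkL.le)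

lemma isCyclic_localExt [hp : Fact p.Prime] (ι : Emb ℓ) (hkL : IsPrimeCyclic p k L) :
    IsCyclic Gal(localExt ι hkL.le/localField ι k) := by
  have := hkL.normal
  obtain ⟨Ψ, hΨ, -, -⟩ := exists_decompositionHom ι hkL
  have : IsCyclic (k.fixingSubgroup ⧸ L.fixingSubgroup.subgroupOf k.fixingSubgroup) :=
    isCyclic_of_prime_card (p := p) hkL.index_eq
  exact isCyclic_of_injective Ψ hΨ

/-- The norm of an idele supported at one place is the local norm. -/
theorem relNorm_single_apply [FiniteDimensional ℚ k] [FiniteDimensional ℚ L]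
    (hkL : IsPrimeCyclic p k L) (ι : Emb ℓ) (y : (PadicAlgCl (ℓ : ℕ))ˣ)
    (hy : (y : PadicAlgCl (ℓ : ℕ)) ∈ localField ι L) :
    ((((relNorm k L (single ι L y hy) : IdeleGroup) : Raw) ℓ ι : (PadicAlgCl (ℓ : ℕ))ˣ) :
        PadicAlgCl (ℓ : ℕ)) =
      ((Algebra.norm (localField ι k) (⟨(y : PadicAlgCl (ℓ : ℕ)), hy⟩ : localExt ι hkL.le) :
        localField ι k) : PadicAlgCl (ℓ : ℕ)) := by
  classical
  have := hkL.normal
  have hG := isGalois_localExt ι hkL
  have := finite_gal_localExt ι hkL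
  obtain ⟨Ψ, hΨ, hΨτ, hΨsurj⟩ := exists_decompositionHom ι hkL
  let _ : Fintype (k.fixingSubgroup ⧸ L.fixingSubgroup.subgroupOf k.fixingSubgroup) :=
    Fintype.ofFinite _
  set g := single ι L y hy
  let ev : IdeleGroup →* PadicAlgCl (ℓ : ℕ) :=
    { toFun := fun f => ((f : Raw) ℓ ι : PadicAlgCl (ℓ : ℕ)), map_one' := rfl,
      map_mul' := fun _ _ => rfl }
  have h1 : ((((relNorm k L g : IdeleGroup) : Raw) ℓ ι : (PadicAlgCl (ℓ : ℕ))ˣ) :
      PadicAlgCl (ℓ : ℕ)) = ∏ q : k.fixingSubgroup ⧸ L.fixingSubgroup.subgroupOf k.fixingSubgroup,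
        (((g : Raw) ℓ (globalComp ι ((q.out : k.fixingSubgroup) : Γ))) : PadicAlgCl (ℓ : ℕ)) := by
    show ev (relNorm k L g) = _
    rw [relNorm, cosetProd, finprod_eq_prod_of_fintype, map_prod]
    rfl
  rw [h1]
  have h2 := congrArg (fun z : localExt ι hkL.le => (z : PadicAlgCl (ℓ : ℕ)))
    (Algebra.norm_eq_prod_automorphisms (localField ι k)
      (⟨(y : PadicAlgCl (ℓ : ℕ)), hy⟩ : localExt ι hkL.le))
  rw [show (((Algebra.norm (localField ι k) (⟨(y : PadicAlgCl (ℓ : ℕ)), hy⟩ : localExt ι hkL.le) :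
    localField ι k)) : PadicAlgCl (ℓ : ℕ)) = _ from h2, IntermediateField.coe_prod]
  rw [← Finset.prod_image (s := (Finset.univ : Finset Gal(localExt ι hkL.le/localField ι k)))
    (g := Ψ) (fun a _ b _ h => hΨ h) |>.trans (Finset.prod_congr rfl fun a _ => ?_)]
  · refine (Finset.prod_subset (Finset.subset_univ _) fun q _ hq => ?_).symm
    rw [show (g : Raw) ℓ (globalComp ι ((q.out : k.fixingSubgroup) : Γ)) = 1 from
      singleFun_of_forall_ne ι _ fun τ => ?_, Units.val_one]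
    by_contra! hτ
    obtain ⟨a, ha⟩ := hΨsurj q ⟨τ, fun x hx => hτ x hx⟩
    exact hq (Finset.mem_image.mpr ⟨a, Finset.mem_univ _, ha⟩)
  · obtain ⟨τ, hτ, hτy⟩ := hΨτ a
    exact (singleFun_of_eqOn ι hy _ τ fun x hx => hτ x hx).trans (hτy ⟨_, hy⟩)

/-- At an unramified prime the local extensions are unramified. -/
lemma ramIdx_localField_eq [FiniteDimensional ℚ k] [FiniteDimensional ℚ L] (hle : k ≤ L)
    (hl : IsUnramifiedAt k L ℓ) (ι : Emb ℓ) :
    PadicFields.ramIdx (localField ι L) = PadicFields.ramIdx (localField ι k) := by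
  refine PadicFields.ramIdx_eq_of_fix _ _ (localField_mono ι hle) fun τ hτ => ?_
  refine fix_of_localComp_eqOn fun x hx =>
    hl ι τ (fun z hz => PadicFields.norm_apply_sub_lt_of_fix hτ.2 hz)
      (localComp_eqOn_of_fix hτ.1) x hx

variable [Fact p.Prime]

/-- At an unramified prime every unit component is a norm of unit components. -/
theorem exists_relNorm_eq_of_unit (hkL : IsPrimeCyclic p k L) (hl : IsUnramifiedAt k L ℓ)
    {f : IdeleGroup} (hf : f ∈ idelesOf k)
    (hunit : ∀ ι : Emb ℓ, ‖((f : Raw) ℓ ι : PadicAlgCl (ℓ : ℕ))‖ = 1) :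
    ∃ g ∈ idelesOf L, (∀ ℓ' : Nat.Primes, ℓ' ≠ ℓ → ∀ ι, (g : Raw) ℓ' ι = 1) ∧
      (∀ ι : Emb ℓ, ‖((g : Raw) ℓ ι : PadicAlgCl (ℓ : ℕ))‖ = 1) ∧
      ∀ ι : Emb ℓ, ((relNorm k L g : IdeleGroup) : Raw) ℓ ι = (f : Raw) ℓ ι := by
  classical
  have := hkL.finite
  have : FiniteDimensional ℚ k := Module.Finite.of_injective
    (IntermediateField.inclusion hkL.le).toLinearMap (IntermediateField.inclusion_injective hkL.le)
  have hiso : ∀ (τ : LocalGal ℓ) (z : PadicAlgCl (ℓ : ℕ)), ‖τ z‖ = ‖z‖ := fun τ z =>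
    (spectralNorm_eq_of_equiv τ z).symm
  -- the places of `k` over `ℓ`
  set V : Set (HeightOneSpectrum (𝓞 k)) := Set.range fun ι : Emb ℓ => placeAt ι k
  have hV : V.Finite := (finite_places_over k ℓ).subset (by
    rintro _ ⟨ι, rfl⟩
    exact natCast_mem_primeIdeal ι k)
  let _ : Fintype V := hV.fintype
  have hrep : ∀ v : V, ∃ ι : Emb ℓ, placeAt ι k = v := fun v => v.2
  choose rep hrep using hrep
  -- local solutions
  have hloc : ∀ v : V, ∃ y : (PadicAlgCl (ℓ : ℕ))ˣ, ∃ hy : (y : PadicAlgCl (ℓ : ℕ)) ∈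
      localField (rep v) L, ‖(y : PadicAlgCl (ℓ : ℕ))‖ = 1 ∧
      ((relNorm k L (single (rep v) L y hy) : IdeleGroup) : Raw) ℓ (rep v) =
        (f : Raw) ℓ (rep v) := by
    intro v
    have := isGalois_localExt (rep v) hkL
    have := isCyclic_localExt (rep v) hkL
    obtain ⟨y, hy1, hy2⟩ := PadicFields.exists_norm_eq_of_norm_one (localField_mono (rep v) hkL.le)
      (ramIdx_localField_eq hkL.le hl (rep v))
      (u := ⟨_, idele_apply_mem_localField hf (rep v)⟩) (hunit (rep v))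
    have hy0 : (y : PadicAlgCl (ℓ : ℕ)) ≠ 0 := norm_ne_zero_iff.mp (hy1.trans_ne one_ne_zero)
    refine ⟨Units.mk0 _ hy0, y.2, hy1, Units.ext ?_⟩
    exact (relNorm_single_apply hkL (rep v) (Units.mk0 _ hy0) y.2).trans (congrArg Subtype.val hy2)
  choose y hy hy1 hy2 using hloc
  set g := ∏ v : V, single (rep v) L (y v) (hy v) with hg
  let evk : ∀ (ℓ' : Nat.Primes) (_ : Emb ℓ'), IdeleGroup →* (PadicAlgCl (ℓ' : ℕ))ˣ := fun ℓ' ι =>
    { toFun := fun f => (f : Raw) ℓ' ι, map_one' := rfl, map_mul' := fun _ _ => rfl }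
  have heval : ∀ (ℓ' : Nat.Primes) (ι : Emb ℓ') (F : V → IdeleGroup),
      ((∏ v : V, F v : IdeleGroup) : Raw) ℓ' ι = ∏ v : V, (F v : Raw) ℓ' ι := fun ℓ' ι F =>
    map_prod (evk ℓ' ι) F Finset.univ
  have hgL : g ∈ idelesOf L := Subgroup.prod_mem _ fun v _ => single_mem_idelesOf _ _ _ (hy v)
  refine ⟨g, hgL, fun ℓ' hℓ' ι => ?_, fun ι => ?_, fun ι => ?_⟩
  · rw [hg, heval]
    exact Finset.prod_eq_one fun v _ => single_apply_of_ne _ _ ι _ (hy v) (Ne.symm hℓ')
  · rw [hg, heval, Units.coe_prod, norm_prod]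
    refine Finset.prod_eq_one fun v _ => ?_
    show ‖(singleFun (rep v) L (y v) ℓ ι : PadicAlgCl (ℓ : ℕ))‖ = 1
    by_cases h : ∃ τ : LocalGal ℓ, ∀ x ∈ L, τ (rep v x) = ι x
    · obtain ⟨τ, hτ⟩ := h
      rw [singleFun_of_eqOn (rep v) (hy v) ι τ hτ, hiso]
      exact hy1 v
    · push Not at h
      rw [singleFun_of_forall_ne _ ι h, Units.val_one, norm_one]
  · set v : V := ⟨placeAt ι k, ι, rfl⟩
    have hprod : relNorm k L g = ∏ w : V, relNorm k L (single (rep w) L (y w) (hy w)) := by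
      show cosetProdHom k.fixingSubgroup L.fixingSubgroup g = _
      rw [hg, map_prod]
      rfl
    rw [hprod, heval, Finset.prod_eq_single v]
    · -- transport from the chosen embedding
      obtain ⟨τ, hτ⟩ := exists_localComp_eqOn_of_placeAt_eq (rep v) (hrep v)
      have hmem := relNorm_mem_idelesOf (k := k) (single_mem_idelesOf (rep v) L (y v) (hy v))
      apply Units.ext
      rw [apply_eq_of_eqOn hmem (ι := localComp τ (rep v)) (ι' := ι) hτ,
        apply_eq_of_eqOn hf (ι := localComp τ (rep v)) (ι' := ι) hτ]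
      rw [(relNorm k L (single (rep v) L (y v) (hy v))).2.1 ℓ τ (rep v), f.2.1 ℓ τ (rep v), hy2 v]
    · intro w _ hw
      have hne : placeAt ι k ≠ placeAt (rep w) k := fun h => hw (Subtype.ext ((hrep w).symm.trans h.symm))
      let _ : Fintype (k.fixingSubgroup ⧸ L.fixingSubgroup.subgroupOf k.fixingSubgroup) :=
        Fintype.ofFinite _
      show evk ℓ ι (relNorm k L _) = 1
      rw [relNorm, cosetProd, finprod_eq_prod_of_fintype, map_prod]
      refine Finset.prod_eq_one fun q _ => singleFun_of_forall_ne _ _ fun τ => ?_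
      by_contra! hτ
      refine hne (HeightOneSpectrum.ext (Ideal.ext fun x => ?_))
      show ‖embInt ι k x‖ < 1 ↔ ‖embInt (rep w) k x‖ < 1
      rw [embInt_apply, embInt_apply, ← hiso τ (rep w _), hτ _ (hkL.le (x : k).2),
        globalComp_apply, (IntermediateField.mem_fixingSubgroup_iff _ _).mp q.out.2 _ (x : k).2]
    · exact fun h => absurd (Finset.mem_univ v) h

end Fermat.Agent.ClassField.Idele
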