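import Fermat.Agent.ClassField.Idele.SecondIneq.Bound
import Fermat.Agent.ClassField.Idele.SecondIneq.UnitNorm

/-! The second inequality.
 -/

set_option autoImplicit false

noncomputable section

open IntermediateField Filter Topology

namespace Fermat.Agent.ClassField.Idele

local notation "Qb" => AlgebraicClosure ℚ
local notation "Γ" => (AlgebraicClosure ℚ ≃ₐ[ℚ] AlgebraicClosure ℚ)

variable {p : ℕ} [Fact p.Prime] {S : Set Nat.Primes} {k L : IntermediateField ℚ Qb}
  (hkL : IsPrimeCyclic p k L) {ζ : Qb} (hζ : IsPrimitiveRoot ζ p) (hζk : ζ ∈ k)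

/-- A group of exponent `p` with more than `p` elements maps onto `(ZMod p)²`. -/
private lemma exists_surjective_pair {V : Type*} [AddCommGroup V] [Module (ZMod p) V]
    (h : ¬(Nat.card V ≠ 0 ∧ Nat.card V ≤ p)) :
    ∃ π : V →ₗ[ZMod p] (Fin 2 → ZMod p), Function.Surjective π := by
  obtain ⟨v₁, hv₁⟩ : ∃ v : V, v ≠ 0 := by
    by_contra! hc
    haveI : Subsingleton V := ⟨fun a b => by rw [hc a, hc b]⟩
    exact h ⟨by simp, by simpa using (Fact.out : p.Prime).one_le⟩
  obtain ⟨v₂, hv₂⟩ : ∃ v : V, ∀ a : ZMod p, a • v₁ ≠ v := by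
    by_contra! hc
    have hsurj : Function.Surjective fun a : ZMod p => a • v₁ := hc
    haveI := Finite.of_surjective _ hsurj
    exact h ⟨Nat.card_pos.ne', (Nat.card_le_card_of_surjective _ hsurj).trans_eq (Nat.card_zmod p)⟩
  have hli : LinearIndependent (ZMod p) ![v₁, v₂] := (LinearIndependent.pair_iff' hv₁).mpr hv₂
  obtain ⟨π, hπ⟩ := LinearMap.exists_leftInverse_of_injective
    (Fintype.linearCombination (ZMod p) ![v₁, v₂])
    (LinearMap.ker_eq_bot.mpr (LinearIndependent.fintypeLinearCombination_injective hli))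
  exact ⟨π, fun c => ⟨_, LinearMap.congr_fun hπ c⟩⟩

include hkL hζ hζk in
/-- The second inequality.
 -/
theorem relIndex_normClasses_le (hp : p ≠ 2) :
    (normClasses Set.univ k L).relIndex (classesOf Set.univ k) ≠ 0 ∧
      (normClasses Set.univ k L).relIndex (classesOf Set.univ k) ≤ p := by
  classical
  haveI := hkL.finite
  haveI : FiniteDimensional ℚ k := FiniteDimensional.of_injective
    (IntermediateField.inclusion hkL.le).toLinearMap (IntermediateField.inclusion hkL.le).injective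
  obtain ⟨A₀, hA₀⟩ := exists_finset_isUnramifiedAt k L
  let T : Finset Nat.Primes := insert ⟨p, Fact.out⟩ A₀
  have hTne : T.Nonempty := ⟨_, Finset.mem_insert_self _ _⟩
  let N : Subgroup IdeleGroup := (normClasses Set.univ k L).comap (classMap Set.univ)
  rw [classesOf, ← Subgroup.relIndex_comap]
  have hnormN : ∀ g ∈ idelesOf L, relNorm k L g ∈ N := fun g hg => by
    rw [Subgroup.mem_comap, classMap_relNorm]
    exact Subgroup.subset_closure ⟨_, Subgroup.mem_map_of_mem _ hg, rfl⟩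
  have hpow : ∀ f ∈ idelesOf k, f ^ p ∈ N := fun f hf => by
    have h := cosetProd_eq_pow (U := L.fixingSubgroup) (H := k.fixingSubgroup) hf
    rw [show L.fixingSubgroup.relIndex k.fixingSubgroup = p from hkL.index_eq] at h
    rw [← h]
    exact hnormN f (invariants_mono _ (fixingSubgroup_antitone hkL.le) hf)
  set M := N.subgroupOf (idelesOf k) with hM
  show M.index ≠ 0 ∧ M.index ≤ p
  by_contra hcon
  have hexp : ∀ x : Additive (↥(idelesOf k) ⧸ M), p • x = 0 := fun x => by
    obtain ⟨⟨f, hf⟩, rfl⟩ := QuotientGroup.mk'_surjective M x.toMul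
    show Additive.ofMul ((QuotientGroup.mk' M ⟨f, hf⟩) ^ p) = 0
    rw [← map_pow]
    exact congrArg Additive.ofMul ((QuotientGroup.eq_one_iff _).mpr (hpow f hf))
  letI : Module (ZMod p) (Additive (↥(idelesOf k) ⧸ M)) := AddCommGroup.zmodModule hexp
  obtain ⟨π, hπ⟩ := exists_surjective_pair (p := p) (V := Additive (↥(idelesOf k) ⧸ M)) hcon
  let φ : Fin 2 → IdeleGroup → ZMod p := fun i f =>
    if h : f ∈ idelesOf k then π.toAddMonoidHom (Additive.ofMul (QuotientGroup.mk' M ⟨f, h⟩)) i else 0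
  have hφN : ∀ i, ∀ f ∈ idelesOf k, f ∈ N → φ i f = 0 := fun i f hf hN => by
    simp only [φ, dif_pos hf]
    rw [show QuotientGroup.mk' M ⟨f, hf⟩ = 1 from (QuotientGroup.eq_one_iff _).mpr hN, ofMul_one,
      map_zero, Pi.zero_apply]
  have hφ : ∀ i, SecondIneq.IsIdeleChar p k T (φ i) := fun i => by
    refine ⟨fun f hf g hg => ?_, fun x hx => hφN i _ (SecondIneq.principal_mem_idelesOf hx) ?_,
      fun f hf hu => hφN i f hf ?_⟩
    · simp only [φ, dif_pos hf, dif_pos hg, dif_pos (mul_mem hf hg)]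
      rw [← Pi.add_apply, ← map_add, ← ofMul_mul, ← map_mul]
      rfl
    · rw [Subgroup.mem_comap, classMap_principal]
      exact one_mem _
    · obtain ⟨g, hg, rfl⟩ := SecondIneq.exists_relNorm_eq_of_mem_unitsAway hkL (T : Set Nat.Primes)
        (fun ℓ hℓ => hA₀ ℓ fun h => hℓ (Finset.mem_coe.mpr (Finset.mem_insert_of_mem h))) hf hu
      exact hnormN g hg
  have hsurj : ∀ c : Fin 2 → ZMod p, ∃ f ∈ idelesOf k, ∀ i, φ i f = c i := fun c => by
    obtain ⟨x, hx⟩ := hπ c
    obtain ⟨⟨f, hf⟩, hfx⟩ := QuotientGroup.mk'_surjective M x.toMul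
    refine ⟨f, hf, fun i => ?_⟩
    simp only [φ, dif_pos hf]
    rw [hfx, ofMul_toMul]
    exact congrFun hx i
  obtain ⟨C, hC⟩ := SecondIneq.mul_tsum_le_log hp hζ hζk hTne φ hφ hsurj
  obtain ⟨C', hC'⟩ := SecondIneq.exists_lower_bound (T := T) hkL φ hφ
    fun g hg i => hφN i _ (relNorm_mem_idelesOf hg) (hnormN g hg)
  have hlim : Tendsto (fun s : ℝ => Real.log (1 / (s - 1))) (𝓝[>] 1) atTop := by
    refine Real.tendsto_log_atTop.comp ?_
    simp only [one_div]
    refine tendsto_inv_nhdsGT_zero.comp (tendsto_nhdsWithin_iff.mpr ⟨?_, ?_⟩)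
    · have : Tendsto (fun s : ℝ => s - 1) (𝓝 1) (𝓝 (1 - 1)) := tendsto_id.sub tendsto_const_nhds
      rw [sub_self] at this
      exact this.mono_left nhdsWithin_le_nhds
    · filter_upwards [self_mem_nhdsWithin] with s hs
      exact Set.mem_Ioi.mpr (sub_pos.mpr (Set.mem_Ioi.mp hs))
  obtain ⟨s, ⟨hlow, hs⟩, hbig⟩ := ((hC'.and (Ioc_mem_nhdsGT (by norm_num : (1 : ℝ) < 2))).and
    (hlim.eventually_gt_atTop (|C| + (p : ℝ) * |C'|))).exists
  have hup := hC s hs
  have hp2 : (2 : ℝ) ≤ p := by exact_mod_cast (Fact.out : p.Prime).two_le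
  have hB : 0 ≤ |C| + (p : ℝ) * |C'| := by positivity
  nlinarith [mul_le_mul_of_nonneg_left hlow (zero_le_two.trans hp2), le_abs_self C,
    mul_le_mul_of_nonneg_left (le_abs_self C') (zero_le_two.trans hp2)]

end Fermat.Agent.ClassField.Idele
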