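import Mathlib

/-!
# Finite ideles of the field of algebraic numbers, via embeddings

For a rational prime `ℓ`, `Emb ℓ` is the set of embeddings of the algebraic numbers into
`PadicAlgCl ℓ`.  A (finite) idele is a family of functions `Emb ℓ → (PadicAlgCl ℓ)ˣ` which is
equivariant for the local Galois groups, invariant under some level of finite degree and of norm
one at almost all `ℓ`.  The ideles of a number field `K` are the invariants of `K.fixingSubgroup`.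
-/

set_option autoImplicit false

noncomputable section

open IntermediateField

namespace Fermat.Agent.ClassField.Idele

/-- The algebraic numbers. -/
local notation "Qb" => AlgebraicClosure ℚ
/-- The absolute Galois group of the rationals. -/
local notation "Γ" => (AlgebraicClosure ℚ ≃ₐ[ℚ] AlgebraicClosure ℚ)

instance primesFact (ℓ : Nat.Primes) : Fact (ℓ : ℕ).Prime := ⟨ℓ.2⟩

instance isAlgebraicQbar : Algebra.IsAlgebraic ℚ (AlgebraicClosure ℚ) :=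
  AlgebraicClosure.isAlgebraic ℚ

instance isAlgClosureQbar : IsAlgClosure ℚ (AlgebraicClosure ℚ) := ⟨inferInstance, inferInstance⟩

instance isGaloisQbar : IsGalois ℚ (AlgebraicClosure ℚ) :=
  IsAlgClosure.isGalois ℚ (AlgebraicClosure ℚ)

/-- Embeddings of the algebraic numbers in the algebraic closure of `ℚ_ℓ`. -/
abbrev Emb (ℓ : Nat.Primes) : Type := Qb →ₐ[ℚ] PadicAlgCl (ℓ : ℕ)

/-- The local Galois group at `ℓ`. -/
abbrev LocalGal (ℓ : Nat.Primes) : Type :=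
  PadicAlgCl (ℓ : ℕ) ≃ₐ[ℚ_[(ℓ : ℕ)]] PadicAlgCl (ℓ : ℕ)

/-- Composition of an embedding with a local automorphism. -/
def localComp {ℓ : Nat.Primes} (τ : LocalGal ℓ) (ι : Emb ℓ) : Emb ℓ :=
  (τ.restrictScalars ℚ).toAlgHom.comp ι

@[simp] lemma localComp_apply {ℓ : Nat.Primes} (τ : LocalGal ℓ) (ι : Emb ℓ) (x : Qb) :
    localComp τ ι x = τ (ι x) := rfl

/-- Composition of an embedding with a global automorphism. -/
def globalComp {ℓ : Nat.Primes} (ι : Emb ℓ) (σ : Γ) : Emb ℓ := ι.comp σ.toAlgHom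

@[simp] lemma globalComp_apply {ℓ : Nat.Primes} (ι : Emb ℓ) (σ : Γ) (x : Qb) :
    globalComp ι σ x = ι (σ x) := rfl

lemma globalComp_one {ℓ : Nat.Primes} (ι : Emb ℓ) : globalComp ι 1 = ι := AlgHom.ext fun _ => rfl

lemma globalComp_mul {ℓ : Nat.Primes} (ι : Emb ℓ) (σ τ : Γ) :
    globalComp ι (σ * τ) = globalComp (globalComp ι σ) τ := AlgHom.ext fun _ => rfl

lemma localComp_globalComp {ℓ : Nat.Primes} (τ : LocalGal ℓ) (ι : Emb ℓ) (σ : Γ) :
    globalComp (localComp τ ι) σ = localComp τ (globalComp ι σ) := AlgHom.ext fun _ => rfl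

lemma localComp_mul {ℓ : Nat.Primes} (τ τ' : LocalGal ℓ) (ι : Emb ℓ) :
    localComp (τ * τ') ι = localComp τ (localComp τ' ι) := AlgHom.ext fun _ => rfl

lemma localComp_one {ℓ : Nat.Primes} (ι : Emb ℓ) : localComp (1 : LocalGal ℓ) ι = ι :=
  AlgHom.ext fun _ => rfl

/-- Families of functions on embeddings, with values in the local units. -/
def Raw : Type := ∀ ℓ : Nat.Primes, Emb ℓ → (PadicAlgCl (ℓ : ℕ))ˣ

instance : CommGroup Raw :=
  inferInstanceAs (CommGroup (∀ ℓ : Nat.Primes, Emb ℓ → (PadicAlgCl (ℓ : ℕ))ˣ))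

@[ext] lemma Raw.ext {f g : Raw} (h : ∀ ℓ ι, f ℓ ι = g ℓ ι) : f = g :=
  funext fun ℓ => funext (h ℓ)

@[simp] lemma Raw.mul_apply (f g : Raw) (ℓ : Nat.Primes) (ι : Emb ℓ) :
    (f * g) ℓ ι = f ℓ ι * g ℓ ι := rfl

@[simp] lemma Raw.one_apply (ℓ : Nat.Primes) (ι : Emb ℓ) : (1 : Raw) ℓ ι = 1 := rfl

@[simp] lemma Raw.inv_apply (f : Raw) (ℓ : Nat.Primes) (ι : Emb ℓ) : f⁻¹ ℓ ι = (f ℓ ι)⁻¹ := rfl

instance : MulDistribMulAction Γ Raw where
  smul σ f := fun ℓ ι => f ℓ (globalComp ι σ)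
  one_smul f := Raw.ext fun ℓ ι => congrArg (f ℓ) (globalComp_one ι)
  mul_smul σ τ f := Raw.ext fun ℓ ι => congrArg (f ℓ) (globalComp_mul ι σ τ)
  smul_mul _ _ _ := rfl
  smul_one _ := rfl

@[simp] lemma Raw.smul_apply (σ : Γ) (f : Raw) (ℓ : Nat.Primes) (ι : Emb ℓ) :
    (σ • f) ℓ ι = f ℓ (globalComp ι σ) := rfl

/-- Equivariance under the local Galois groups. -/
def IsEquivariant (f : Raw) : Prop :=
  ∀ (ℓ : Nat.Primes) (τ : LocalGal ℓ) (ι : Emb ℓ),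
    (f ℓ (localComp τ ι) : PadicAlgCl (ℓ : ℕ)) = τ (f ℓ ι)

/-- Invariance under some level of finite degree. -/
def IsSmooth (f : Raw) : Prop :=
  ∃ K : IntermediateField ℚ Qb, FiniteDimensional ℚ K ∧ ∀ σ ∈ K.fixingSubgroup, σ • f = f

/-- Norm one at almost all rational primes. -/
def HasFiniteSupport (f : Raw) : Prop :=
  ∃ T : Finset Nat.Primes, ∀ ℓ ∉ T, ∀ ι : Emb ℓ, ‖(f ℓ ι : PadicAlgCl (ℓ : ℕ))‖ = 1

/-- The group of finite ideles of the algebraic numbers. -/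
def ideles : Subgroup Raw where
  carrier := {f | IsEquivariant f ∧ IsSmooth f ∧ HasFiniteSupport f}
  one_mem' := ⟨fun ℓ τ ι => by simp, ⟨⊥, inferInstance, fun σ _ => smul_one σ⟩,
    ⟨∅, fun ℓ _ ι => by simp⟩⟩
  mul_mem' := by
    rintro f g ⟨hf, ⟨K, hK, hfK⟩, T, hT⟩ ⟨hg, ⟨K', hK', hgK⟩, T', hT'⟩
    refine ⟨fun ℓ τ ι => by simp [hf ℓ τ ι, hg ℓ τ ι],
      ⟨K ⊔ K', IntermediateField.finiteDimensional_sup K K', fun σ hσ => ?_⟩, ⟨T ∪ T', ?_⟩⟩
    · rw [smul_mul', hfK σ (fixingSubgroup_antitone le_sup_left hσ),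
        hgK σ (fixingSubgroup_antitone le_sup_right hσ)]
    · intro ℓ hℓ ι
      simp only [Finset.notMem_union] at hℓ
      simp [hT ℓ hℓ.1 ι, hT' ℓ hℓ.2 ι]
  inv_mem' := by
    rintro f ⟨hf, ⟨K, hK, hfK⟩, T, hT⟩
    refine ⟨fun ℓ τ ι => by simp [hf ℓ τ ι], ⟨K, hK, fun σ hσ => by rw [smul_inv', hfK σ hσ]⟩,
      ⟨T, fun ℓ hℓ ι => by simp [hT ℓ hℓ ι]⟩⟩

lemma smul_mem_ideles (σ : Γ) {f : Raw} (hf : f ∈ ideles) : σ • f ∈ ideles := by
  obtain ⟨he, ⟨K, hK, hfK⟩, T, hT⟩ := hf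
  refine ⟨fun ℓ τ ι => ?_, ⟨K.map (σ : Qb →ₐ[ℚ] Qb), ?_, fun τ hτ => ?_⟩,
    ⟨T, fun ℓ hℓ ι => hT ℓ hℓ _⟩⟩
  · rw [Raw.smul_apply, Raw.smul_apply, localComp_globalComp, he]
  · exact Module.Finite.equiv (IntermediateField.equivMap K (σ : Qb →ₐ[ℚ] Qb)).toLinearEquiv
  · have h : σ⁻¹ * τ * σ ∈ K.fixingSubgroup := by
      rw [IntermediateField.mem_fixingSubgroup_iff] at hτ ⊢
      intro x hx
      have := hτ (σ x) ⟨x, hx, rfl⟩
      show σ.symm (τ (σ x)) = x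
      rw [this, AlgEquiv.symm_apply_apply]
    calc τ • σ • f = (σ * (σ⁻¹ * τ * σ)) • f := by rw [← mul_smul]; congr 1; group
      _ = σ • f := by rw [mul_smul, hfK _ h]

/-- Finite ideles of the algebraic numbers. -/
abbrev IdeleGroup : Type := ↥ideles

instance : MulDistribMulAction Γ IdeleGroup where
  smul σ f := ⟨σ • (f : Raw), smul_mem_ideles σ f.2⟩
  one_smul f := Subtype.ext (one_smul Γ (f : Raw))
  mul_smul σ τ f := Subtype.ext (mul_smul σ τ (f : Raw))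
  smul_mul σ f g := Subtype.ext (smul_mul' σ (f : Raw) (g : Raw))
  smul_one σ := Subtype.ext (smul_one σ)

@[simp] lemma coe_smul (σ : Γ) (f : IdeleGroup) : ((σ • f : IdeleGroup) : Raw) = σ • (f : Raw) :=
  rfl

lemma norm_le_one_of_isIntegral {ℓ : Nat.Primes} {x : PadicAlgCl (ℓ : ℕ)} (hx : IsIntegral ℤ x) :
    ‖x‖ ≤ 1 := by
  have h := Valuation.Integers.mem_of_integral
    (Valuation.integer.integers (PadicAlgCl.valued (ℓ : ℕ)).v)
    (hx.tower_top (A := (PadicAlgCl.valued (ℓ : ℕ)).v.integer))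
  rw [Valuation.mem_integer_iff, PadicAlgCl.valuation_def] at h
  exact_mod_cast h

lemma exists_primes_norm_eq_one (x : Qbˣ) :
    ∃ T : Finset Nat.Primes, ∀ ℓ ∉ T, ∀ ι : Emb ℓ, ‖ι (x : Qb)‖ = 1 := by
  classical
  have halg : ∀ y : Qb, IsAlgebraic ℤ y := fun y =>
    (IsFractionRing.isAlgebraic_iff ℤ ℚ Qb).mpr (Algebra.IsAlgebraic.isAlgebraic y)
  obtain ⟨a, ha, hax⟩ := (halg (x : Qb)).exists_integral_multiple
  obtain ⟨b, hb, hbx⟩ := (halg ((x⁻¹ : Qbˣ) : Qb)).exists_integral_multiple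
  refine ⟨(a * b).natAbs.primeFactors.subtype Nat.Prime, fun ℓ hℓ ι => ?_⟩
  have hndvd : ¬ ((ℓ : ℕ) : ℤ) ∣ a * b := by
    intro hd
    exact hℓ (Finset.mem_subtype.mpr (Nat.mem_primeFactors.mpr
      ⟨ℓ.2, Int.natCast_dvd.mp hd, by simp [ha, hb]⟩))
  have key : ∀ (c : ℤ) (y : Qb), ¬ ((ℓ : ℕ) : ℤ) ∣ c → IsIntegral ℤ (c • y) → ‖ι y‖ ≤ 1 := by
    intro c y hc hy
    have h1 := norm_le_one_of_isIntegral (ℓ := ℓ) (hy.map (ι.restrictScalars ℤ))
    have h2 : ‖(c : PadicAlgCl (ℓ : ℕ))‖ = 1 := by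
      rw [← map_intCast (algebraMap ℚ_[(ℓ : ℕ)] (PadicAlgCl (ℓ : ℕ))), norm_algebraMap']
      refine le_antisymm (Padic.norm_int_le_one c) (not_lt.mp fun h => hc ?_)
      exact Padic.norm_intCast_lt_one_iff.mp h
    simpa [zsmul_eq_mul, h2] using h1
  have h1 := key a _ (fun h => hndvd (h.mul_right b)) hax
  have h2 := key b _ (fun h => hndvd (h.mul_left a)) hbx
  rw [Units.val_inv_eq_inv_val, map_inv₀, norm_inv] at h2
  have hpos : 0 < ‖ι (x : Qb)‖ := norm_pos_iff.mpr (by simp)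
  refine le_antisymm h1 ?_
  exact (inv_le_one₀ hpos).mp h2

lemma mem_adjoin_fixingSubgroup {x : Qb} {σ : Γ}
    (hσ : σ ∈ (IntermediateField.adjoin ℚ ({x} : Set Qb)).fixingSubgroup) : σ x = x :=
  (IntermediateField.mem_fixingSubgroup_iff _ _).mp hσ x
    (IntermediateField.mem_adjoin_simple_self ℚ x)

/-- The diagonal embedding of the algebraic numbers. -/
def principal : Qbˣ →* IdeleGroup where
  toFun x := ⟨fun ℓ ι => Units.map (ι : Qb →* PadicAlgCl (ℓ : ℕ)) x,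
    fun ℓ τ ι => rfl,
    ⟨IntermediateField.adjoin ℚ ({(x : Qb)} : Set Qb),
      IntermediateField.adjoin.finiteDimensional (Algebra.IsIntegral.isIntegral _),
      fun σ hσ => Raw.ext fun ℓ ι => Units.ext (congrArg ι (mem_adjoin_fixingSubgroup hσ))⟩,
    exists_primes_norm_eq_one x⟩
  map_one' := Subtype.ext (Raw.ext fun ℓ ι => Units.ext (map_one ι))
  map_mul' x y := Subtype.ext (Raw.ext fun ℓ ι => Units.ext (map_mul ι _ _))

@[simp] lemma principal_apply (x : Qbˣ) (ℓ : Nat.Primes) (ι : Emb ℓ) :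
    (((principal x : IdeleGroup) : Raw) ℓ ι : PadicAlgCl (ℓ : ℕ)) = ι (x : Qb) := rfl

lemma nonempty_emb (ℓ : Nat.Primes) : Nonempty (Emb ℓ) := ⟨IsAlgClosed.lift⟩

lemma principal_injective : Function.Injective principal := by
  intro x y h
  let ℓ : Nat.Primes := ⟨2, Nat.prime_two⟩
  obtain ⟨ι⟩ := nonempty_emb ℓ
  have h1 := congrArg (fun f : IdeleGroup => ((f : Raw) ℓ ι : PadicAlgCl (ℓ : ℕ))) h
  simp only [principal_apply] at h1
  exact Units.ext (ι.toRingHom.injective h1)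

lemma smul_principal (σ : Γ) (x : Qbˣ) : σ • principal x = principal (σ • x) :=
  Subtype.ext (Raw.ext fun _ _ => Units.ext rfl)

/-- Ideles trivial on `S` and of norm one outside `S`. -/
def unitsAway (S : Set Nat.Primes) : Subgroup IdeleGroup where
  carrier := {f | (∀ ℓ ∈ S, ∀ ι, (f : Raw) ℓ ι = 1) ∧
    ∀ ℓ ∉ S, ∀ ι, ‖((f : Raw) ℓ ι : PadicAlgCl (ℓ : ℕ))‖ = 1}
  one_mem' := ⟨fun _ _ _ => rfl, fun ℓ _ ι => by simp⟩
  mul_mem' := by
    rintro f g ⟨hf, hf'⟩ ⟨hg, hg'⟩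
    exact ⟨fun ℓ h ι => by simp [hf ℓ h ι, hg ℓ h ι], fun ℓ h ι => by simp [hf' ℓ h ι, hg' ℓ h ι]⟩
  inv_mem' := by
    rintro f ⟨hf, hf'⟩
    exact ⟨fun ℓ h ι => by simp [hf ℓ h ι], fun ℓ h ι => by simp [hf' ℓ h ι]⟩

lemma smul_mem_unitsAway {S : Set Nat.Primes} (σ : Γ) {f : IdeleGroup} (hf : f ∈ unitsAway S) :
    σ • f ∈ unitsAway S :=
  ⟨fun ℓ h _ => hf.1 ℓ h _, fun ℓ h _ => hf.2 ℓ h _⟩

/-- The invariants of a subgroup in a module. -/
def invariants (M : Type*) [CommGroup M] [MulDistribMulAction Γ M] (H : Subgroup Γ) :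
    Subgroup M where
  carrier := {m | ∀ σ ∈ H, σ • m = m}
  one_mem' σ _ := smul_one σ
  mul_mem' ha hb σ hσ := by rw [smul_mul', ha σ hσ, hb σ hσ]
  inv_mem' ha σ hσ := by rw [smul_inv', ha σ hσ]

lemma mem_invariants {M : Type*} [CommGroup M] [MulDistribMulAction Γ M] {H : Subgroup Γ} {m : M} :
    m ∈ invariants M H ↔ ∀ σ ∈ H, σ • m = m := Iff.rfl

lemma invariants_mono (M : Type*) [CommGroup M] [MulDistribMulAction Γ M] {H H' : Subgroup Γ}
    (h : H ≤ H') : invariants M H' ≤ invariants M H := fun _ hm σ hσ => hm σ (h hσ)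

lemma smul_mem_invariants_of_normal {M : Type*} [CommGroup M] [MulDistribMulAction Γ M]
    (K : IntermediateField ℚ Qb) [Normal ℚ K] (σ : Γ) {m : M}
    (hm : m ∈ invariants M K.fixingSubgroup) : σ • m ∈ invariants M K.fixingSubgroup := by
  intro τ hτ
  have h : σ⁻¹ * τ * σ ∈ K.fixingSubgroup := by
    rw [IntermediateField.mem_fixingSubgroup_iff] at hτ ⊢
    intro x hx
    show σ.symm (τ (σ x)) = x
    have hσx : σ x ∈ K :=
      (IntermediateField.normal_iff_forall_map_le'.mp ‹Normal ℚ K› σ) ⟨x, hx, rfl⟩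
    rw [hτ _ hσx, AlgEquiv.symm_apply_apply]
  calc τ • σ • m = (σ * (σ⁻¹ * τ * σ)) • m := by rw [← mul_smul]; congr 1; group
    _ = σ • m := by rw [mul_smul, hm _ h]

/-- The ideles of a number field. -/
abbrev idelesOf (K : IntermediateField ℚ Qb) : Subgroup IdeleGroup :=
  invariants IdeleGroup K.fixingSubgroup

end Fermat.Agent.ClassField.Idele
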