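import Fermat.Agent.ClassField.Idele.Basic

/-!
# Idele classes, Galois descent

`IdeleClass S` is the idele class group of the algebraic numbers modulo the local units outside `S`;
for `S = univ` it is the idele class group itself.
-/

set_option autoImplicit false

noncomputable section

open IntermediateField

namespace Fermat.Agent.ClassField.Idele

local notation "Qb" => AlgebraicClosure ℚ
local notation "Γ" => (AlgebraicClosure ℚ ≃ₐ[ℚ] AlgebraicClosure ℚ)

/-- The subgroup of principal ideles times units away from `S`. -/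
def trivialClasses (S : Set Nat.Primes) : Subgroup IdeleGroup := principal.range ⊔ unitsAway S

lemma smul_mem_trivialClasses {S : Set Nat.Primes} (σ : Γ) {f : IdeleGroup}
    (hf : f ∈ trivialClasses S) : σ • f ∈ trivialClasses S := by
  rw [trivialClasses, Subgroup.mem_sup] at hf ⊢
  obtain ⟨y, ⟨x, rfl⟩, z, hz, rfl⟩ := hf
  exact ⟨_, ⟨σ • x, rfl⟩, σ • z, smul_mem_unitsAway σ hz, by rw [smul_mul', smul_principal]⟩

/-- Idele classes of the algebraic numbers modulo units away from `S`. -/
abbrev IdeleClass (S : Set Nat.Primes) : Type := IdeleGroup ⧸ trivialClasses S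

/-- The class map. -/
abbrev classMap (S : Set Nat.Primes) : IdeleGroup →* IdeleClass S :=
  QuotientGroup.mk' (trivialClasses S)

/-- The Galois action on classes as a homomorphism. -/
def classSMul (S : Set Nat.Primes) (σ : Γ) : IdeleClass S →* IdeleClass S :=
  QuotientGroup.map _ _ (MulDistribMulAction.toMonoidHom IdeleGroup σ)
    fun _ hf => smul_mem_trivialClasses σ hf

lemma classSMul_classMap (S : Set Nat.Primes) (σ : Γ) (f : IdeleGroup) :
    classSMul S σ (classMap S f) = classMap S (σ • f) := rfl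

instance (S : Set Nat.Primes) : MulDistribMulAction Γ (IdeleClass S) where
  smul σ c := classSMul S σ c
  one_smul c := by
    obtain ⟨f, rfl⟩ := QuotientGroup.mk'_surjective _ c
    exact congrArg (classMap S) (one_smul Γ f)
  mul_smul σ τ c := by
    obtain ⟨f, rfl⟩ := QuotientGroup.mk'_surjective _ c
    exact congrArg (classMap S) (mul_smul σ τ f)
  smul_mul σ c d := map_mul (classSMul S σ) c d
  smul_one σ := map_one (classSMul S σ)

@[simp] lemma smul_classMap (S : Set Nat.Primes) (σ : Γ) (f : IdeleGroup) :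
    σ • classMap S f = classMap S (σ • f) := rfl

lemma classMap_principal (S : Set Nat.Primes) (x : Qbˣ) : classMap S (principal x) = 1 :=
  (QuotientGroup.eq_one_iff _).mpr (Subgroup.mem_sup_left ⟨x, rfl⟩)

lemma unitsAway_univ : unitsAway Set.univ = ⊥ := by
  ext f
  refine ⟨fun h => Subtype.ext (Raw.ext fun ℓ ι => h.1 ℓ (Set.mem_univ ℓ) ι), ?_⟩
  rintro rfl
  exact one_mem _

lemma classMap_univ_eq_one_iff {f : IdeleGroup} :
    classMap Set.univ f = 1 ↔ ∃ x : Qbˣ, principal x = f := by
  rw [QuotientGroup.mk'_apply, QuotientGroup.eq_one_iff, trivialClasses, unitsAway_univ,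
    sup_bot_eq]
  rfl

/-- Every idele is invariant under some Galois level containing a given finite field. -/
lemma exists_normal_level (f : IdeleGroup) (K : IntermediateField ℚ Qb) [FiniteDimensional ℚ K] :
    ∃ L : IntermediateField ℚ Qb, K ≤ L ∧ FiniteDimensional ℚ L ∧ Normal ℚ L ∧
      f ∈ idelesOf L := by
  obtain ⟨F, hF, hfix⟩ := f.2.2.1
  have : FiniteDimensional ℚ F := hF
  have : FiniteDimensional ℚ (K ⊔ F : IntermediateField ℚ Qb) :=
    IntermediateField.finiteDimensional_sup K F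
  refine ⟨IntermediateField.normalClosure ℚ (K ⊔ F : IntermediateField ℚ Qb) Qb,
    le_sup_left.trans (IntermediateField.le_normalClosure _),
    normalClosure.is_finiteDimensional ℚ _ Qb, normalClosure.normal ℚ _ Qb, fun σ hσ => ?_⟩
  exact Subtype.ext (hfix σ (fixingSubgroup_antitone
    (le_sup_right.trans (IntermediateField.le_normalClosure _)) hσ))

/-- Elements fixed by the fixing subgroup belong to the field. -/
lemma mem_of_forall_fixingSubgroup (K : IntermediateField ℚ Qb) {x : Qb}
    (hx : ∀ σ ∈ K.fixingSubgroup, σ x = x) : x ∈ K := by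
  rw [← InfiniteGalois.fixedField_fixingSubgroup K]
  exact fun σ => hx σ σ.2

/-- Hilbert 90 for a multiplicative crossed homomorphism which factors through a normal level. -/
theorem exists_smul_eq_mul {L : IntermediateField ℚ Qb} [FiniteDimensional ℚ L] [Normal ℚ L]
    (H : Subgroup Γ) (a : Γ → Qbˣ) (hcoc : ∀ σ ∈ H, ∀ τ ∈ H, a (σ * τ) = σ • a τ * a σ)
    (hmem : ∀ σ ∈ H, (a σ : Qb) ∈ L)
    (hlev : ∀ σ ∈ H, ∀ τ ∈ H, (∀ x ∈ L, σ x = τ x) → a σ = a τ) :
    ∃ y : Qbˣ, (y : Qb) ∈ L ∧ ∀ σ ∈ H, σ • y = (a σ)⁻¹ * y := by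
  classical
  let res : Γ →* (L ≃ₐ[ℚ] L) := AlgEquiv.restrictNormalHom L
  let G : Subgroup (L ≃ₐ[ℚ] L) := H.map res
  have hlift : ∀ g : G, ∃ σ, σ ∈ H ∧ res σ = g := fun g => g.2
  choose lift hliftH hlift using hlift
  have key : ∀ σ ∈ H, ∀ τ ∈ H, res σ = res τ → a σ = a τ := fun σ hσ τ hτ h =>
    hlev σ hσ τ hτ fun x hx => by
      have h1 := AlgEquiv.restrictNormal_commutes σ L ⟨x, hx⟩
      have h2 := AlgEquiv.restrictNormal_commutes τ L ⟨x, hx⟩
      change (res σ ⟨x, hx⟩ : Qb) = σ x at h1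
      change (res τ ⟨x, hx⟩ : Qb) = τ x at h2
      rw [← h1, ← h2, h]
  -- Artin independence of the characters `lift g`
  let χ : G → (L →* Qb) := fun g => (L.val : L →* Qb).comp ((g : L ≃ₐ[ℚ] L) : L →* L)
  have hinj : Function.Injective χ := fun g g' h =>
    Subtype.ext (AlgEquiv.ext fun x => Subtype.ext (DFunLike.congr_fun h x))
  have hli := (linearIndependent_monoidHom L Qb).comp χ hinj
  obtain ⟨z, hz⟩ : ∃ z : L, ∑ g : G, (a (lift g) : Qb) * ((g : L ≃ₐ[ℚ] L) z : L) ≠ 0 := by
    by_contra! hcon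
    have := Fintype.linearIndependent_iff.mp hli (fun g => (a (lift g) : Qb))
      (funext fun z => by
        simpa [Finset.sum_apply, χ] using hcon z) 1
    exact (a (lift 1)).ne_zero this
  refine ⟨Units.mk0 _ hz, ?_, fun σ hσ => ?_⟩
  · exact L.sum_mem fun g _ => L.mul_mem (hmem _ (hliftH g)) (SetLike.coe_mem _)
  · let gσ : G := ⟨res σ, σ, hσ, rfl⟩
    refine Units.ext ?_
    show σ (∑ g : G, (a (lift g) : Qb) * ((g : L ≃ₐ[ℚ] L) z : L)) =
      ((a σ)⁻¹ : Qbˣ) * ∑ g : G, (a (lift g) : Qb) * ((g : L ≃ₐ[ℚ] L) z : L)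
    rw [map_sum, Finset.mul_sum]
    refine Fintype.sum_equiv (Equiv.mulLeft gσ) _ _ fun g => ?_
    rw [map_mul, Equiv.coe_mulLeft]
    have h1 : a (lift (gσ * g)) = σ • a (lift g) * a σ := by
      rw [← hcoc σ hσ _ (hliftH g)]
      exact key _ (hliftH _) _ (H.mul_mem hσ (hliftH g)) (by rw [map_mul, hlift, hlift]; rfl)
    have h2 : (((gσ * g : G) : L ≃ₐ[ℚ] L) z : Qb) = σ ((g : L ≃ₐ[ℚ] L) z : L) :=
      AlgEquiv.restrictNormal_commutes σ L _
    rw [h1, h2]
    simp only [Units.val_mul, AlgEquiv.smul_units_def, Units.coe_map, MonoidHom.coe_coe,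
]
    field_simp
    rw [Units.val_inv_eq_inv_val, mul_assoc, inv_mul_cancel₀ (a σ).ne_zero, mul_one]

/-- Galois descent for idele classes. -/
theorem exists_principal_mul_mem_idelesOf (K : IntermediateField ℚ Qb) [FiniteDimensional ℚ K]
    (f : IdeleGroup)
    (hf : ∀ σ ∈ K.fixingSubgroup, classMap Set.univ (σ • f) = classMap Set.univ f) :
    ∃ y : Qbˣ, principal y * f ∈ idelesOf K := by
  obtain ⟨L, hKL, hLfin, hLnor, hfL⟩ := exists_normal_level f K
  have h : ∀ σ ∈ K.fixingSubgroup, ∃ a : Qbˣ, principal a = σ • f * f⁻¹ := fun σ hσ =>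
    classMap_univ_eq_one_iff.mp (by rw [map_mul, map_inv, hf σ hσ, mul_inv_cancel])
  classical
  let a : Γ → Qbˣ := fun σ =>
    if hσ : σ ∈ K.fixingSubgroup then (h σ hσ).choose else 1
  have ha : ∀ σ ∈ K.fixingSubgroup, principal (a σ) = σ • f * f⁻¹ := fun σ hσ => by
    simp only [a, dif_pos hσ]
    exact (h σ hσ).choose_spec
  obtain ⟨y, -, hy⟩ := exists_smul_eq_mul (L := L) K.fixingSubgroup a
    (fun σ hσ τ hτ => principal_injective (by
      rw [map_mul, ← smul_principal, ha _ (mul_mem hσ hτ), ha σ hσ, ha τ hτ, smul_mul', smul_inv',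
        ← mul_smul]
      rw [mul_assoc, inv_mul_cancel_left]))
    (fun σ hσ => mem_of_forall_fixingSubgroup L fun τ hτ => by
      have hfix : τ • principal (a σ) = principal (a σ) := by
        rw [ha σ hσ, smul_mul', smul_inv', hfL τ hτ, smul_mem_invariants_of_normal L σ hfL τ hτ]
      rw [smul_principal] at hfix
      exact congrArg Units.val (principal_injective hfix))
    (fun σ hσ τ hτ hστ => principal_injective (by
      rw [ha σ hσ, ha τ hτ]
      have : (τ⁻¹ * σ) • f = f := hfL _ ((IntermediateField.mem_fixingSubgroup_iff _ _).mpr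
        fun x hx => by
          show τ.symm (σ x) = x
          rw [hστ x hx, AlgEquiv.symm_apply_apply])
      conv_lhs => rw [← mul_inv_cancel_left τ σ, mul_smul, this]))
  refine ⟨y, fun σ hσ => ?_⟩
  rw [smul_mul', smul_principal, hy σ hσ, map_mul, map_inv, ha σ hσ, mul_inv_rev, inv_inv]
  calc f * (σ • f)⁻¹ * principal y * σ • f
      = principal y * f * ((σ • f)⁻¹ * σ • f) := by ac_rfl
    _ = principal y * f := by rw [inv_mul_cancel, mul_one]

end Fermat.Agent.ClassField.Idele
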