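import Fermat.Agent.ClassField.Idele.CosetProd
import Fermat.Agent.ClassField.Idele.Existence.Avoid
import Fermat.Agent.ClassField.Idele.Existence.Upper
import Fermat.Agent.ClassField.S55.Bridge.Levels
import Fermat.Prelude.Def_GroupCohomology_ContinuousUnramified

/-!
# Existence: norms from a level unramified outside `S` land in the trivial part of the classes

For a number field `K₀` containing the `p`-th roots of unity and unramified outside `S`, there is a
Galois level `K ⊇ K₀`, unramified outside `S`, whose norms into the classes modulo units away from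
`S` lie in the product of the `p`-th powers and the classes of ideles supported in `S`.
-/

set_option autoImplicit false

noncomputable section

open IntermediateField

namespace Fermat.Agent.ClassField.Idele

local notation "Qb" => AlgebraicClosure ℚ
local notation "Γ" => (AlgebraicClosure ℚ ≃ₐ[ℚ] AlgebraicClosure ℚ)

namespace Existence

open SecondIneq

variable {p : ℕ} [Fact p.Prime] {K₀ : IntermediateField ℚ Qb} [FiniteDimensional ℚ K₀]
  {S : Finset Nat.Primes}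

/-- Over a generating set, every character kills the norms of a Kummer extension. -/
theorem exists_kummer_norm_killed (hp : p ≠ 2) {ζ : Qb} (hζ : IsPrimitiveRoot ζ p) (hζK : ζ ∈ K₀)
    (hpS : (⟨p, Fact.out⟩ : Nat.Primes) ∈ S) (hK : K₀.IsUnramifiedOutside S)
    (hgen : Generates p K₀ S) (ψ : Module.Dual (ZMod p) (CharSpace p K₀ S)) (hψ : ψ ≠ 0) :
    ∃ L : IntermediateField ℚ Qb, IsPrimeCyclic p K₀ L ∧ L.IsUnramifiedOutside S ∧
      ∀ g ∈ idelesOf L, dualChar ψ (relNorm K₀ L g) = 0 := by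
  classical
  obtain ⟨hfin, hUfin, hcard⟩ := card_charSpace_le hp hζ hζK hpS hK hgen
  let U := sUnits (S : Set Nat.Primes) K₀
  let A := Additive (U ⧸ (powMonoidHom p : U →* U).range)
  letI : Module (ZMod p) A := AddCommGroup.zmodModule (n := p) fun x : A => by
    obtain ⟨u, hu⟩ := QuotientGroup.mk_surjective x.toMul
    apply Additive.toMul.injective
    rw [toMul_nsmul, ← hu, toMul_zero, ← QuotientGroup.mk_pow, QuotientGroup.eq_one_iff]
    exact ⟨u, rfl⟩
  let rep : A → U := fun a => a.toMul.out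
  have hrep : ∀ a : A, Additive.ofMul (QuotientGroup.mk (rep a)) = a := fun a => by
    rw [QuotientGroup.out_eq', ofMul_toMul]
  have hnp : ∀ a : A, a ≠ 0 → ¬ IsPow p K₀ ((rep a : Qbˣ) : Qb) := by
    rintro a ha ⟨γ, hγK, hγ⟩
    have hγ0 : γ ≠ 0 := fun h0 => Units.ne_zero (rep a : Qbˣ)
      (by rw [← hγ, h0, zero_pow (Fact.out : p.Prime).ne_zero])
    refine ha ((hrep a).symm.trans ?_)
    rw [ofMul_eq_zero, QuotientGroup.eq_one_iff]
    refine ⟨⟨Units.mk0 γ hγ0, hγK, fun ℓ hℓ ι => ?_⟩, Subtype.ext (Units.ext hγ)⟩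
    refine (pow_eq_one_iff_of_nonneg (norm_nonneg _) (Fact.out : p.Prime).ne_zero).mp ?_
    rw [← norm_pow, ← map_pow, Units.val_mk0, hγ]
    exact (rep a).2.2 ℓ hℓ ι
  let Lf : A → IntermediateField ℚ Qb := fun a => kummerField p K₀ ((rep a : Qbˣ) : Qb)
  have hcyc : ∀ a : A, a ≠ 0 → IsPrimeCyclic p K₀ (Lf a) := fun a ha =>
    isPrimeCyclic_kummerField hζ hζK (rep a).2.1 (Units.ne_zero _) (hnp a ha)
  have hur : ∀ a : A, (Lf a).IsUnramifiedOutside S := fun a =>
    isUnramifiedOutside_kummerField hpS hK (Units.ne_zero _) (rep a).2.1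
      fun ℓ hℓ ι => (rep a).2.2 ℓ (fun h => hℓ (Finset.mem_coe.mp h)) ι
  choose χ hχ0 hχN using fun (a : A) (ha : a ≠ 0) =>
    exists_dual_norm_eq_zero (hcyc a ha) hp hζ hζK
      fun ℓ hℓ => isUnramifiedAt_of_isUnramifiedOutside (hur a) hℓ
  let N : A → Submodule (ZMod p) (CharSpace p K₀ S) := fun a =>
    if ha : a = 0 then ⊥ else LinearMap.ker (χ a ha)
  have hNdef : ∀ (a : A) (ha : a ≠ 0), N a = LinearMap.ker (χ a ha) := fun a ha => dif_neg ha
  have hker : ∀ (a : A) (ha : a ≠ 0) (θ : Module.Dual (ZMod p) (CharSpace p K₀ S)),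
      LinearMap.ker (χ a ha) = LinearMap.ker θ →
      ∀ g ∈ idelesOf (Lf a), dualChar θ (relNorm K₀ (Lf a) g) = 0 := by
    intro a ha θ h g hg
    have hmem := relNorm_mem_idelesOf (k := K₀) hg
    have h0 := hχN a ha g hg
    rw [dualChar, dif_pos hmem] at h0 ⊢
    rwa [← LinearMap.mem_ker, ← h, LinearMap.mem_ker]
  have hinj : ∀ a a' : A, a ≠ 0 → a' ≠ 0 → N a = N a' → ∃ c : ZMod p, a' = c • a := by
    intro a a' ha ha' h
    rw [hNdef a ha, hNdef a' ha'] at h
    obtain ⟨x, hx⟩ : ∃ x, χ a ha x ≠ 0 := by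
      by_contra! hc
      exact hχ0 a ha (LinearMap.ext hc)
    obtain ⟨f, rfl⟩ := toCharSpace_surjective x
    have heq : Lf a = Lf a' :=
      eq_of_char_norm_eq_zero hp hζ hζK ⟨_, hpS⟩ (hcyc a ha) (hcyc a' ha')
        (isIdeleChar_dualChar (χ a ha)) ⟨f, f.2, by rwa [dualChar_apply]⟩ (hχN a ha)
        (hker a' ha' (χ a ha) h.symm)
    obtain ⟨j, γ, hγK, hγ0, hγ⟩ := exists_eq_pow_mul hζ hζK (rep a).2.1 (Units.ne_zero _)
      (rep a').2.1 (Units.ne_zero _) (hnp a ha) heq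
    refine ⟨(j : ZMod p), ?_⟩
    rw [← hrep a', ← hrep a, Nat.cast_smul_eq_nsmul, ← ofMul_pow, ← QuotientGroup.mk_pow]
    have hmem : Units.mk0 γ hγ0 ∈ U := ⟨hγK, fun ℓ hℓ ι => by
      refine (pow_eq_one_iff_of_nonneg (norm_nonneg _) (Fact.out : p.Prime).ne_zero).mp ?_
      have h1 := (rep a').2.2 ℓ hℓ ι
      rw [hγ, map_mul, norm_mul, map_pow, norm_pow, (rep a).2.2 ℓ hℓ ι, one_pow, one_mul,
        map_pow, norm_pow] at h1
      exact h1⟩
    obtain ⟨g, hg⟩ : ∃ g : U, rep a' = rep a ^ j * g ^ p :=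
      ⟨⟨_, hmem⟩, Subtype.ext (Units.ext hγ)⟩
    refine congrArg Additive.ofMul (QuotientGroup.eq.mpr ⟨g⁻¹, ?_⟩)
    rw [powMonoidHom_apply, hg, inv_pow, mul_inv_rev, inv_mul_cancel_right]
  haveI : Finite A := Finite.of_equiv _ Additive.ofMul
  obtain ⟨a, ha, hNa⟩ := exists_eq_of_injective_on_lines
    (show Nat.card (CharSpace p K₀ S) ≤ Nat.card A from
      hcard.trans_eq (Nat.card_congr Additive.ofMul)) N
    (fun a ha => ⟨χ a ha, hχ0 a ha, (hNdef a ha).symm⟩) hinj ψ hψ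
  exact ⟨Lf a, hcyc a ha, hur a, hker a ha ψ ((hNdef a ha).symm.trans hNa)⟩

/-- The characters of `S` are finite in number. -/
lemma finite_charSpace_of_subset {S' : Finset Nat.Primes} (h : S ⊆ S')
    [Finite (CharSpace p K₀ S')] : Finite (CharSpace p K₀ S) := by
  let f : CharSpace p K₀ S' → CharSpace p K₀ S := fun x =>
    Additive.ofMul (QuotientGroup.map _ _ (MonoidHom.id (idelesOf K₀))
      (fun _ hy => trivPart_antitone h hy) x.toMul)
  refine Finite.of_surjective f fun y => ?_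
  obtain ⟨z, rfl⟩ := toCharSpace_surjective y
  exact ⟨toCharSpace z, rfl⟩

/-- For every `S` there is a level unramified outside `S` whose norms lie in the trivial part. -/
theorem exists_level_trivPart (hp : p ≠ 2) (hpS : (⟨p, Fact.out⟩ : Nat.Primes) ∈ S) {ζ : Qb}
    (hζ : IsPrimitiveRoot ζ p) (hζK : ζ ∈ K₀) (hK₀ : K₀.IsUnramifiedOutside S) :
    ∃ K : IntermediateField ℚ Qb, Normal ℚ K ∧ K₀ ≤ K ∧ K.IsUnramifiedOutside S ∧
      ∀ g ∈ idelesOf K, relNorm K₀ K g ∈ trivPart p K₀ S := by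
  classical
  obtain ⟨T₁, hT₁, hg₁⟩ := exists_generates_disjoint hp hζ hζK S
  obtain ⟨T₂, hT₂, hg₂⟩ := exists_generates_disjoint hp hζ hζK (S ∪ T₁)
  have hS₁ : S ⊆ S ∪ T₁ := Finset.subset_union_left
  have hS₂ : S ⊆ S ∪ T₂ := Finset.subset_union_left
  have hK₁ := hK₀.mono hS₁
  have hK₂ := hK₀.mono hS₂
  have hgen₁ := hg₁.mono (Finset.subset_union_right : T₁ ⊆ S ∪ T₁)
  have hgen₂ := hg₂.mono (Finset.subset_union_right : T₂ ⊆ S ∪ T₂)
  haveI := (card_charSpace_le hp hζ hζK (hS₁ hpS) hK₁ hgen₁).1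
  haveI : Finite (CharSpace p K₀ S) := finite_charSpace_of_subset hS₁
  haveI : Finite (Module.Dual (ZMod p) (CharSpace p K₀ S)) :=
    Finite.of_injective (fun ψ => (ψ : CharSpace p K₀ S → ZMod p)) DFunLike.coe_injective
  -- one extension for each character
  have hL : ∀ ψ : Module.Dual (ZMod p) (CharSpace p K₀ S), ψ ≠ 0 →
      ∃ L : IntermediateField ℚ Qb, K₀ ≤ L ∧ L.IsUnramifiedOutside S ∧
        ∀ g ∈ idelesOf L, dualChar ψ (relNorm K₀ L g) = 0 := by
    intro ψ hψ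
    obtain ⟨x, hx⟩ : ∃ x, ψ x ≠ 0 := by
      by_contra! hc
      exact hψ (LinearMap.ext hc)
    obtain ⟨f, rfl⟩ := toCharSpace_surjective x
    rw [← dualChar_apply] at hx
    have hφ := isIdeleChar_dualChar ψ
    have key : ∀ S' : Finset Nat.Primes, S ⊆ S' → Generates p K₀ S' →
        ∃ L : IntermediateField ℚ Qb, IsPrimeCyclic p K₀ L ∧ L.IsUnramifiedOutside S' ∧
          ∀ g ∈ idelesOf L, dualChar ψ (relNorm K₀ L g) = 0 := by
      intro S' hS' hgen
      obtain ⟨θ, hθ⟩ := exists_dual_eq (isIdeleChar_mono hS' hφ)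
      have hθ0 : θ ≠ 0 := by
        intro h0
        apply hx
        rw [← hθ _ f.2, h0, dualChar_apply, LinearMap.zero_apply]
      obtain ⟨L, hL1, hL2, hL3⟩ :=
        exists_kummer_norm_killed hp hζ hζK (hS' hpS) (hK₀.mono hS') hgen θ hθ0
      refine ⟨L, hL1, hL2, fun g hg => ?_⟩
      have := hL1.finite
      rw [← hθ _ (relNorm_mem_idelesOf hg)]
      exact hL3 g hg
    obtain ⟨L₁, hc₁, hu₁, hn₁⟩ := key _ hS₁ hgen₁
    obtain ⟨L₂, hc₂, hu₂, hn₂⟩ := key _ hS₂ hgen₂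
    obtain rfl := eq_of_char_norm_eq_zero hp hζ hζK ⟨_, hpS⟩ hc₁ hc₂ hφ ⟨f, f.2, hx⟩ hn₁ hn₂
    refine ⟨L₁, hc₁.le, ⟨hc₁.finite, fun q hq => ?_⟩, hn₁⟩
    by_cases h1 : q ∈ T₁
    · refine hu₂.2 q fun h => ?_
      rcases Finset.mem_union.mp h with h | h
      · exact hq h
      · exact Finset.disjoint_left.mp hT₂ h (Finset.mem_union_right _ h1)
    · exact hu₁.2 q fun h => (Finset.mem_union.mp h).elim hq h1
  -- all of them in one level
  haveI := Fintype.ofFinite (Module.Dual (ZMod p) (CharSpace p K₀ S))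
  have hsup : ∀ s : Finset (Module.Dual (ZMod p) (CharSpace p K₀ S)),
      ∃ F : IntermediateField ℚ Qb, K₀ ≤ F ∧ F.IsUnramifiedOutside S ∧ ∀ ψ ∈ s, ψ ≠ 0 →
        ∃ L : IntermediateField ℚ Qb, K₀ ≤ L ∧ L ≤ F ∧ L.IsUnramifiedOutside S ∧
          ∀ g ∈ idelesOf L, dualChar ψ (relNorm K₀ L g) = 0 := by
    intro s
    induction s using Finset.induction_on with
    | empty => exact ⟨K₀, le_refl _, hK₀, fun ψ hψ => absurd hψ (Finset.notMem_empty ψ)⟩
    | @insert ψ s _ ih =>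
      obtain ⟨F, hKF, hF, hFs⟩ := ih
      by_cases hψ : ψ = 0
      · refine ⟨F, hKF, hF, fun θ hθ hθ0 => hFs θ ?_ hθ0⟩
        exact (Finset.mem_insert.mp hθ).resolve_left fun h => hθ0 (h.trans hψ)
      · obtain ⟨L, hKL, hLu, hLn⟩ := hL ψ hψ
        refine ⟨F ⊔ L, hKF.trans le_sup_left, hF.sup hLu, fun θ hθ hθ0 => ?_⟩
        rcases Finset.mem_insert.mp hθ with rfl | hθs
        · exact ⟨L, hKL, le_sup_right, hLu, hLn⟩
        · obtain ⟨L', h1, h2, h3, h4⟩ := hFs θ hθs hθ0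
          exact ⟨L', h1, h2.trans le_sup_left, h3, h4⟩
  obtain ⟨F, hKF, hF, hFall⟩ := hsup Finset.univ
  obtain ⟨N, hFN, hN, hNn⟩ := S55.exists_normal_isUnramifiedOutside hF
  have := hN.1
  refine ⟨N, hNn, hKF.trans hFN, hN, fun g hg => ?_⟩
  refine mem_trivPart_of_forall_dual (relNorm_mem_idelesOf hg) fun ψ => ?_
  by_cases hψ : ψ = 0
  · rw [dualChar, dif_pos (relNorm_mem_idelesOf hg), hψ, LinearMap.zero_apply]
  · obtain ⟨L, hKL, hLF, hLu, hLn⟩ := hFall ψ (Finset.mem_univ _) hψ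
    have := hLu.1
    rw [← relNorm_relNorm hKL (hLF.trans hFN) hg]
    exact hLn _ (relNorm_mem_idelesOf hg)

omit [FiniteDimensional ℚ K₀] in
/-- The trivial part maps to the `p`-th powers of the classes. -/
lemma map_trivPart_le :
    (trivPart p K₀ S).map (classMap (S : Set Nat.Primes)) ≤
      (classesOf (S : Set Nat.Primes) K₀).map (powMonoidHom p) := by
  rw [trivPart, Subgroup.map_sup, Subgroup.map_sup, sup_le_iff, sup_le_iff]
  refine ⟨⟨?_, ?_⟩, ?_⟩
  · rintro _ ⟨_, ⟨x, -, rfl⟩, rfl⟩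
    rw [classMap_principal]
    exact one_mem _
  · rintro _ ⟨f, hf, rfl⟩
    rw [show classMap (S : Set Nat.Primes) f = 1 from
      (QuotientGroup.eq_one_iff f).mpr (Subgroup.mem_sup_right hf.2)]
    exact one_mem _
  · rintro _ ⟨_, ⟨f, hf, rfl⟩, rfl⟩
    exact ⟨classMap (S : Set Nat.Primes) f, ⟨f, hf, rfl⟩, by
      rw [powMonoidHom_apply, powMonoidHom_apply, map_pow]⟩

/-- A level unramified outside `S` with norms in the `p`-th powers of the classes. -/
theorem exists_level_normClasses_le_pow (hp : p ≠ 2) (hpS : (⟨p, Fact.out⟩ : Nat.Primes) ∈ S)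
    {ζ : Qb} (hζ : IsPrimitiveRoot ζ p) (hζK : ζ ∈ K₀) (hK₀ : K₀.IsUnramifiedOutside S) :
    ∃ K : IntermediateField ℚ Qb, Normal ℚ K ∧ K₀ ≤ K ∧ K.IsUnramifiedOutside S ∧
      normClasses (S : Set Nat.Primes) K₀ K ≤
        (classesOf (S : Set Nat.Primes) K₀).map (powMonoidHom p) := by
  obtain ⟨K, hn, hle, hu, hN⟩ := exists_level_trivPart hp hpS hζ hζK hK₀
  have := hu.1
  refine ⟨K, hn, hle, hu, (Subgroup.closure_le _).mpr ?_⟩
  rintro _ ⟨_, ⟨g, hg, rfl⟩, rfl⟩
  rw [← classMap_relNorm]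
  exact map_trivPart_le ⟨_, hN g hg, rfl⟩

end Existence

/-- Existence of a level unramified outside `S` with small norm group. -/
theorem exists_level_normClasses_le {p : ℕ} [Fact p.Prime] (hp : p ≠ 2) (S : Finset Nat.Primes)
    (hpS : (⟨p, Fact.out⟩ : Nat.Primes) ∈ S) (K₀ : IntermediateField ℚ Qb)
    [FiniteDimensional ℚ K₀] [Normal ℚ K₀] {ζ : Qb} (hζ : IsPrimitiveRoot ζ p) (hζK : ζ ∈ K₀)
    (hK₀ : K₀.IsUnramifiedOutside S) :
    ∃ K : IntermediateField ℚ Qb, Normal ℚ K ∧ K₀ ≤ K ∧ K.IsUnramifiedOutside S ∧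
      normClasses (S : Set Nat.Primes) K₀ K ≤
        (classesOf (S : Set Nat.Primes) K₀).map (powMonoidHom p) ⊔
          (idelesOf K₀ ⊓ supportedIn (S : Set Nat.Primes)).map (classMap (S : Set Nat.Primes)) := by
  obtain ⟨K, hn, hle, hu, hN⟩ := Existence.exists_level_normClasses_le_pow hp hpS hζ hζK hK₀
  exact ⟨K, hn, hle, hu, hN.trans le_sup_left⟩

end Fermat.Agent.ClassField.Idele
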