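import Fermat.Agent.ClassField.Idele.LocalFields
import Fermat.Agent.ClassField.Idele.Level
import Fermat.Agent.Density.Analytic

/-!
# Places of a number field and embeddings

A place of `K` over `ℓ` is a class of embeddings; ideles with prescribed components; almost all
places are unramified; ideles are principal up to the places of a generating set of the class
group and local units.
-/

set_option autoImplicit false

noncomputable section

open IntermediateField IsDedekindDomain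
open scoped NumberField nonZeroDivisors

namespace Fermat.Agent.ClassField.Idele

local notation "Qb" => AlgebraicClosure ℚ
local notation "Γ" => (AlgebraicClosure ℚ ≃ₐ[ℚ] AlgebraicClosure ℚ)

variable {ℓ : Nat.Primes} (ι : Emb ℓ) (K : IntermediateField ℚ Qb)

/-- The restriction of an embedding to the integers of `K`. -/
def embInt : 𝓞 K →+* PadicAlgCl (ℓ : ℕ) :=
  (ι.toRingHom.comp K.val.toRingHom).comp (algebraMap (𝓞 K) K)

lemma embInt_apply (x : 𝓞 K) : embInt ι K x = ι ((x : K) : Qb) := rfl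

lemma norm_embInt_le_one (x : 𝓞 K) : ‖embInt ι K x‖ ≤ 1 :=
  norm_le_one_of_isIntegral ((NumberField.RingOfIntegers.isIntegral x).map (embInt ι K).toIntAlgHom)

/-- The prime ideal cut out by an embedding. -/
def primeIdeal : Ideal (𝓞 K) where
  carrier := {x | ‖embInt ι K x‖ < 1}
  zero_mem' := by simp
  add_mem' := fun {a b} ha hb => by
    show ‖embInt ι K (a + b)‖ < 1
    rw [map_add]
    exact (IsUltrametricDist.norm_add_le_max _ _).trans_lt (max_lt ha hb)
  smul_mem' := fun c {x} hx => by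
    show ‖embInt ι K (c * x)‖ < 1
    rw [map_mul, norm_mul]
    exact mul_lt_one_of_nonneg_of_lt_one_right (norm_embInt_le_one ι K c) (norm_nonneg _) hx

lemma mem_primeIdeal {x : 𝓞 K} : x ∈ primeIdeal ι K ↔ ‖embInt ι K x‖ < 1 := Iff.rfl

lemma norm_natCast_prime : ‖((ℓ : ℕ) : PadicAlgCl (ℓ : ℕ))‖ = ((ℓ : ℕ) : ℝ)⁻¹ := by
  rw [← map_natCast (algebraMap ℚ_[(ℓ : ℕ)] (PadicAlgCl (ℓ : ℕ))), norm_algebraMap', Padic.norm_p]

lemma natCast_mem_primeIdeal : ((ℓ : ℕ) : 𝓞 K) ∈ primeIdeal ι K := by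
  rw [mem_primeIdeal, map_natCast, norm_natCast_prime]
  exact inv_lt_one_of_one_lt₀ (Nat.one_lt_cast.2 ℓ.2.one_lt)

lemma isPrime_primeIdeal : (primeIdeal ι K).IsPrime := by
  refine ⟨fun h => ?_, fun {a b} hab => ?_⟩
  · have h1 : (1 : 𝓞 K) ∈ primeIdeal ι K := h ▸ Submodule.mem_top
    rw [mem_primeIdeal, map_one, norm_one] at h1
    exact lt_irrefl _ h1
  · rw [mem_primeIdeal, map_mul, norm_mul] at hab
    by_contra! h
    simp only [mem_primeIdeal, not_lt] at h
    exact absurd hab (not_lt.mpr (one_le_mul_of_one_le_of_one_le h.1 h.2))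

/-- The place of `K` cut out by an embedding. -/
def placeAt : HeightOneSpectrum (𝓞 K) where
  asIdeal := primeIdeal ι K
  isPrime := isPrime_primeIdeal ι K
  ne_bot h := by
    have h1 := natCast_mem_primeIdeal ι K
    rw [h, Ideal.mem_bot, Nat.cast_eq_zero] at h1
    exact ℓ.2.ne_zero h1

variable {K} [FiniteDimensional ℚ K]

/-- The order at a place. -/
def ordK (v : HeightOneSpectrum (𝓞 K)) (x : K) : ℤ := -WithZero.log (v.valuation K x)

lemma ordK_one (v : HeightOneSpectrum (𝓞 K)) : ordK v (1 : K) = 0 := by simp [ordK]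

lemma ordK_mul (v : HeightOneSpectrum (𝓞 K)) {x y : K} (hx : x ≠ 0) (hy : y ≠ 0) :
    ordK v (x * y) = ordK v x + ordK v y := by
  rw [ordK, ordK, ordK, map_mul, WithZero.log_mul ((Valuation.ne_zero_iff _).mpr hx)
    ((Valuation.ne_zero_iff _).mpr hy)]
  ring

/-- A uniformizer at a place. -/
def unifK (v : HeightOneSpectrum (𝓞 K)) : 𝓞 K := (v.intValuation_exists_uniformizer).choose

lemma intValuation_unifK (v : HeightOneSpectrum (𝓞 K)) :
    v.intValuation (unifK v) = WithZero.exp (-1 : ℤ) :=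
  (v.intValuation_exists_uniformizer).choose_spec

lemma unifK_ne_zero (v : HeightOneSpectrum (𝓞 K)) : unifK v ≠ 0 := fun h => by
  have h1 := intValuation_unifK v
  rw [h, map_zero] at h1
  exact WithZero.coe_ne_zero h1.symm

lemma unifK_mem (v : HeightOneSpectrum (𝓞 K)) : unifK v ∈ v.asIdeal := by
  rw [← v.intValuation_lt_one_iff_mem, intValuation_unifK]
  exact WithZero.exp_lt_exp.mpr (by norm_num : (-1 : ℤ) < 0)

omit [FiniteDimensional ℚ K] in
lemma embInt_eq_zero_iff (x : 𝓞 K) : embInt ι K x = 0 ↔ x = 0 := by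
  refine ⟨fun h => ?_, fun h => by rw [h, map_zero]⟩
  rw [embInt_apply, map_eq_zero] at h
  exact NumberField.RingOfIntegers.coe_eq_zero_iff.mp (Subtype.ext h)

lemma norm_embInt_eq_pow {r : 𝓞 K} {m : ℕ}
    (hm : (placeAt ι K).intValuation r = WithZero.exp (-(m : ℤ))) :
    ‖embInt ι K r‖ = ‖embInt ι K (unifK (placeAt ι K))‖ ^ m := by
  set v := placeAt ι K
  set ϖ := unifK v
  have hrm : r ∈ v.asIdeal ^ m := (v.intValuation_le_pow_iff_mem r m).mp hm.le
  obtain ⟨E, hE⟩ := Ideal.dvd_span_singleton.mpr (unifK_mem v)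
  have hEv : ¬ E ≤ v.asIdeal := by
    intro h
    have h2 : ϖ ∈ v.asIdeal ^ 2 := by
      have : Ideal.span {ϖ} ≤ v.asIdeal ^ 2 := by
        rw [hE, pow_two]; exact Ideal.mul_mono_right h
      exact this (Ideal.mem_span_singleton_self ϖ)
    rw [← v.intValuation_le_pow_iff_mem, intValuation_unifK] at h2
    exact absurd (WithZero.exp_le_exp.mp h2) (by norm_num)
  obtain ⟨c, hcE, hcv⟩ := SetLike.not_le_iff_exists.mp hEv
  have hmem : r * c ^ m ∈ Ideal.span {ϖ ^ m} := by
    rw [← Ideal.span_singleton_pow, hE, mul_pow]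
    exact Ideal.mul_mem_mul hrm (Ideal.pow_mem_pow hcE m)
  obtain ⟨a, ha⟩ := Ideal.mem_span_singleton'.mp hmem
  have hc1 : ‖embInt ι K c‖ = 1 :=
    le_antisymm (norm_embInt_le_one ι K c) (not_lt.mp fun h => hcv h)
  have hav : v.intValuation a = 1 := by
    have h := congrArg v.intValuation ha
    rw [map_mul, map_mul, map_pow, map_pow, intValuation_unifK, hm,
      HeightOneSpectrum.intValuation_eq_one_iff.mpr hcv, one_pow, mul_one, ← WithZero.exp_nsmul,
      nsmul_eq_mul, mul_neg, mul_one] at h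
    exact mul_right_cancel₀ WithZero.coe_ne_zero (h.trans (one_mul _).symm)
  have ha1 : ‖embInt ι K a‖ = 1 := le_antisymm (norm_embInt_le_one ι K a)
    (not_lt.mp fun h => HeightOneSpectrum.intValuation_eq_one_iff.mp hav h)
  have h := congrArg (fun z => ‖embInt ι K z‖) ha
  simp only [map_mul, map_pow, norm_mul, norm_pow, ha1, hc1, one_mul, one_pow, mul_one] at h
  exact h.symm

/-- The absolute value of an embedding is a power of that of a uniformizer. -/
theorem norm_emb_eq_zpow {x : K} (hx : x ≠ 0) :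
    ‖ι (x : Qb)‖ = ‖embInt ι K (unifK (placeAt ι K))‖ ^ ordK (placeAt ι K) x := by
  have hint : ∀ r : 𝓞 K, r ≠ 0 →
      ‖embInt ι K r‖ = ‖embInt ι K (unifK (placeAt ι K))‖ ^ ordK (placeAt ι K) (r : K) := by
    intro r hr
    obtain ⟨m, hm⟩ : ∃ m : ℕ, (placeAt ι K).intValuation r = WithZero.exp (-(m : ℤ)) :=
      ⟨_, (placeAt ι K).intValuation_if_neg hr⟩
    rw [norm_embInt_eq_pow ι hm, ← zpow_natCast]
    congr 1
    rw [ordK, show ((r : K)) = algebraMap (𝓞 K) K r from rfl,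
      HeightOneSpectrum.valuation_of_algebraMap, hm, WithZero.log_exp, neg_neg]
  obtain ⟨a, b, hb, rfl⟩ := IsFractionRing.div_surjective (A := 𝓞 K) x
  have hb0 : b ≠ 0 := nonZeroDivisors.ne_zero hb
  have ha0 : a ≠ 0 := by rintro rfl; exact hx (by simp)
  have hbK : algebraMap (𝓞 K) K b ≠ 0 := (map_ne_zero_iff _ (IsFractionRing.injective _ _)).mpr hb0
  have h := ordK_mul (placeAt ι K) hx hbK
  rw [div_mul_cancel₀ _ hbK] at h
  have hπ : ‖embInt ι K (unifK (placeAt ι K))‖ ≠ 0 :=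
    norm_ne_zero_iff.mpr fun h0 => unifK_ne_zero _ ((embInt_eq_zero_iff ι _).mp h0)
  have hcast : ι (((algebraMap (𝓞 K) K a / algebraMap (𝓞 K) K b : K)) : Qb) =
      embInt ι K a / embInt ι K b := by
    rw [IntermediateField.coe_div, map_div₀]; rfl
  rw [hcast, norm_div, hint a ha0, hint b hb0, ← zpow_sub₀ hπ]
  congr 1
  change ordK (placeAt ι K) (algebraMap (𝓞 K) K a) -
    ordK (placeAt ι K) (algebraMap (𝓞 K) K b) = _
  rw [h, add_sub_cancel_right]

lemma norm_unifK_pos : 0 < ‖embInt ι K (unifK (placeAt ι K))‖ :=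
  norm_pos_iff.mpr fun h0 => unifK_ne_zero _ ((embInt_eq_zero_iff ι _).mp h0)

lemma norm_unifK_lt_one : ‖embInt ι K (unifK (placeAt ι K))‖ < 1 := unifK_mem (placeAt ι K)

/-- Embeddings with the same place have the same absolute value on `K`. -/
theorem norm_eq_of_placeAt_eq {ι' : Emb ℓ} (h : placeAt ι K = placeAt ι' K) {x : Qb} (hx : x ∈ K) :
    ‖ι x‖ = ‖ι' x‖ := by
  rcases eq_or_ne x 0 with rfl | hx0
  · simp
  have hℓ : ((ℓ : ℕ) : K) ≠ 0 := Nat.cast_ne_zero.mpr ℓ.2.ne_zero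
  have hπ : ‖embInt ι K (unifK (placeAt ι K))‖ = ‖embInt ι' K (unifK (placeAt ι' K))‖ := by
    have h1 := norm_emb_eq_zpow ι hℓ
    have h2 := norm_emb_eq_zpow ι' hℓ
    rw [← h] at h2
    have hord : 0 < ordK (placeAt ι K) ((ℓ : ℕ) : K) := by
      by_contra hle
      have h3 : (1 : ℝ) ≤ ‖ι (((ℓ : ℕ) : K) : Qb)‖ := by
        rw [h1]
        exact one_le_zpow_of_nonpos₀ (norm_unifK_pos ι) (norm_unifK_lt_one ι).le (not_lt.mp hle)
      rw [show (((ℓ : ℕ) : K) : Qb) = ((ℓ : ℕ) : Qb) from map_natCast K.val _, map_natCast,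
        norm_natCast_prime] at h3
      exact absurd h3 (not_le.mpr (inv_lt_one_of_one_lt₀ (Nat.one_lt_cast.2 ℓ.2.one_lt)))
    have h4 : ‖ι (((ℓ : ℕ) : K) : Qb)‖ = ‖ι' (((ℓ : ℕ) : K) : Qb)‖ := by
      rw [show (((ℓ : ℕ) : K) : Qb) = ((ℓ : ℕ) : Qb) from map_natCast K.val _, map_natCast,
        map_natCast]
    rw [h1, h2] at h4
    rw [← h]
    obtain ⟨m, hm⟩ := Int.eq_ofNat_of_zero_le hord.le
    rw [hm, zpow_natCast, zpow_natCast] at h4
    exact (pow_left_inj₀ (norm_nonneg _) (norm_nonneg _) (by omega)).mp h4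
  have hxK : (⟨x, hx⟩ : K) ≠ 0 := fun h0 => hx0 (congrArg Subtype.val h0)
  rw [norm_emb_eq_zpow ι hxK, norm_emb_eq_zpow ι' hxK, hπ, h]

/-- Embeddings with the same place are locally conjugate on `K`. -/
theorem exists_localComp_eqOn_of_placeAt_eq {ι' : Emb ℓ} (h : placeAt ι K = placeAt ι' K) :
    ∃ τ : LocalGal ℓ, ∀ x ∈ K, τ (ι x) = ι' x :=
  exists_localComp_eqOn fun _ hx => norm_eq_of_placeAt_eq ι h hx

/-- Every component of an idele of `K` has the absolute value of a power of the uniformizer. -/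
theorem exists_norm_apply_eq_zpow {f : IdeleGroup} (hf : f ∈ idelesOf K) :
    ∃ n : ℤ, ‖((f : Raw) ℓ ι : PadicAlgCl (ℓ : ℕ))‖ =
      ‖embInt ι K (unifK (placeAt ι K))‖ ^ n := by
  obtain ⟨x, hx, hx0, hxn⟩ :=
    exists_norm_eq ι K (idele_apply_mem_localField hf ι) (Units.ne_zero _)
  exact ⟨_, hxn ▸ norm_emb_eq_zpow ι (x := (⟨x, hx⟩ : K)) fun h => hx0 (congrArg Subtype.val h)⟩

variable (K) in
/-- Every prime of `K` over `ℓ` is cut out by an embedding. -/
theorem exists_placeAt_eq (v : HeightOneSpectrum (𝓞 K)) (hv : ((ℓ : ℕ) : 𝓞 K) ∈ v.asIdeal) :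
    ∃ ι : Emb ℓ, placeAt ι K = v := by
  classical
  by_contra! hcon
  -- a set of representatives of all places cut out by embeddings
  have hfin : {w : HeightOneSpectrum (𝓞 K) | ((ℓ : ℕ) : 𝓞 K) ∈ w.asIdeal}.Finite := by
    refine (Ideal.finite_factors (I := Ideal.span {((ℓ : ℕ) : 𝓞 K)}) ?_).subset fun w hw => ?_
    · simpa using ℓ.2.ne_zero
    · exact Ideal.dvd_span_singleton.mpr hw
  set W := hfin.toFinset.erase v
  obtain ⟨x, hx⟩ := IsDedekindDomain.exists_forall_sub_mem_ideal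
    (s := insert v W) (fun w => w.asIdeal) (fun _ => 1) (fun w _ => w.prime)
    (fun w _ w' _ hne h => hne (HeightOneSpectrum.ext h))
    (fun w => if (w : HeightOneSpectrum (𝓞 K)) = v then 0 else 1)
  have hxv : x ∈ v.asIdeal := by
    have := hx v (Finset.mem_insert_self v W)
    simpa using this
  have hone : ∀ j : Emb ℓ, ‖embInt j K x‖ = 1 := by
    intro j
    have hj : placeAt j K ∈ insert v W := Finset.mem_insert_of_mem
      (Finset.mem_erase.mpr ⟨hcon j, hfin.mem_toFinset.mpr (natCast_mem_primeIdeal j K)⟩)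
    have h := hx _ hj
    rw [if_neg (hcon j), pow_one] at h
    refine le_antisymm (norm_embInt_le_one j K x) (not_lt.mp fun hlt => ?_)
    have : (1 : 𝓞 K) ∈ (placeAt j K).asIdeal := by
      simpa using sub_mem (show x ∈ (placeAt j K).asIdeal from hlt) h
    exact (placeAt j K).isPrime.ne_top ((Ideal.eq_top_iff_one _).mpr this)
  set N := Algebra.norm ℤ x
  have hN : ‖((N : ℤ) : PadicAlgCl (ℓ : ℕ))‖ = 1 := by
    have h1 : ((N : ℤ) : PadicAlgCl (ℓ : ℕ)) =
        algebraMap ℚ (PadicAlgCl (ℓ : ℕ)) (Algebra.norm ℚ (x : K)) := by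
      rw [← Algebra.coe_norm_int, map_intCast]
    rw [h1, Algebra.norm_eq_prod_embeddings, norm_prod]
    refine Finset.prod_eq_one fun σ _ => ?_
    obtain ⟨j, hj⟩ := IntermediateField.exists_algHom_of_splits_of_aeval (F := ℚ) (E := Qb)
      (K := PadicAlgCl (ℓ : ℕ)) (fun y => ⟨(Algebra.IsIntegral.isIntegral y),
        IsAlgClosed.splits _⟩) (x := ((x : K) : Qb)) (y := σ (x : K)) (by
        rw [show minpoly ℚ ((x : K) : Qb) = minpoly ℚ (x : K) from
          minpoly.algHom_eq K.val K.val.injective (x : K),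
          Polynomial.aeval_algHom_apply, minpoly.aeval, map_zero])
    rw [← hj]
    exact hone j
  have hℓN : ((ℓ : ℕ) : ℤ) ∣ N := by
    have hdvd := Ideal.absNorm_dvd_absNorm_of_le ((Ideal.span_singleton_le_iff_mem _).mpr hxv)
    rw [Ideal.absNorm_span_singleton] at hdvd
    have hℓv : (ℓ : ℕ) ∣ Ideal.absNorm v.asIdeal := by
      by_contra hnd
      have hco : IsCoprime ((Ideal.absNorm v.asIdeal : ℤ)) ((ℓ : ℕ) : ℤ) :=
        Nat.isCoprime_iff_coprime.mpr (Nat.Coprime.symm (ℓ.2.coprime_iff_not_dvd.mpr hnd))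
      obtain ⟨u, w, huw⟩ := hco
      apply v.isPrime.ne_top
      rw [Ideal.eq_top_iff_one]
      have := congrArg (fun z : ℤ => (z : 𝓞 K)) huw
      simp only [Int.cast_add, Int.cast_mul, Int.cast_natCast, Int.cast_one] at this
      rw [← this]
      exact v.asIdeal.add_mem (v.asIdeal.mul_mem_left _ (Ideal.absNorm_mem _))
        (v.asIdeal.mul_mem_left _ hv)
    exact Int.natCast_dvd.mpr (hℓv.trans hdvd)
  obtain ⟨M, hM⟩ := hℓN
  rw [hM, Int.cast_mul, norm_mul, Int.cast_natCast, norm_natCast_prime] at hN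
  have hle : ‖((M : ℤ) : PadicAlgCl (ℓ : ℕ))‖ ≤ 1 := norm_le_one_of_isIntegral (by
    rw [← eq_intCast (algebraMap ℤ (PadicAlgCl (ℓ : ℕ)))]
    exact isIntegral_algebraMap)
  have hlt : ((ℓ : ℕ) : ℝ)⁻¹ * ‖((M : ℤ) : PadicAlgCl (ℓ : ℕ))‖ < 1 :=
    mul_lt_one_of_nonneg_of_lt_one_left (by positivity)
      (inv_lt_one_of_one_lt₀ (Nat.one_lt_cast.2 ℓ.2.one_lt)) hle
  exact absurd hN hlt.ne

end Fermat.Agent.ClassField.Idele
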