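import Fermat.Agent.ClassField.Idele.Fundamental.LevelModule

/-!
# The fields of a step of index `p` inside a level
-/

set_option autoImplicit false

noncomputable section

open IntermediateField

namespace Fermat.Agent.ClassField.Idele

local notation "Qb" => AlgebraicClosure ℚ
local notation "Γ" => (AlgebraicClosure ℚ ≃ₐ[ℚ] AlgebraicClosure ℚ)

variable {p : ℕ} [Fact p.Prime] {L : IntermediateField ℚ Qb} [FiniteDimensional ℚ L] [Normal ℚ L]

/-- The data attached to a step `U ≤ V` and a generator `σ` of it. -/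
structure StepFields (P : Subgroup (Γ ⧸ L.fixingSubgroup)) (p : ℕ) (V U : Subgroup P) (σ : P) where
  /-- the lower field -/
  base : IntermediateField ℚ Qb
  /-- the upper field -/
  top : IntermediateField ℚ Qb
  /-- a lift of the generator -/
  gen : Γ
  cyclic : IsPrimeCyclic p base top
  finite_base : FiniteDimensional ℚ base
  base_le : base ≤ L
  top_le : top ≤ L
  mem_base : ∀ g : Γ, g ∈ base.fixingSubgroup ↔
    ∃ w ∈ V, (w : Γ ⧸ L.fixingSubgroup) = (g : Γ ⧸ L.fixingSubgroup)
  mem_top : ∀ g : Γ, g ∈ top.fixingSubgroup ↔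
    ∃ w ∈ U, (w : Γ ⧸ L.fixingSubgroup) = (g : Γ ⧸ L.fixingSubgroup)
  gen_eq : (gen : Γ ⧸ L.fixingSubgroup) = σ
  gen_mem : gen ∈ base.fixingSubgroup
  gen_not_mem : gen ∉ top.fixingSubgroup

omit [Fact p.Prime] in
theorem nonempty_stepFields (P : Subgroup (Γ ⧸ L.fixingSubgroup)) {V U : Subgroup P} (hUV : U ≤ V)
    (hn : (U.subgroupOf V).Normal) (hidx : U.relIndex V = p) {σ : P} (hσV : σ ∈ V) (hσU : σ ∉ U) :
    Nonempty (StepFields P p V U σ) := by
  set Λ := L.fixingSubgroup with hΛ
  let π : Γ →* Γ ⧸ Λ := QuotientGroup.mk' Λ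
  have hπ : Function.Surjective π := QuotientGroup.mk'_surjective Λ
  let lift : Subgroup P → Subgroup Γ := fun W => (W.map P.subtype).comap π
  have hlift : ∀ W, Λ ≤ lift W := fun W g hg => by
    show π g ∈ W.map P.subtype
    rw [show π g = 1 from (QuotientGroup.eq_one_iff g).2 hg]
    exact one_mem _
  have hmem : ∀ W (g : Γ), g ∈ lift W ↔ ∃ w ∈ W, (w : Γ ⧸ Λ) = (g : Γ ⧸ Λ) := fun W g =>
    Subgroup.mem_map
  set k' := IntermediateField.fixedField (lift V) with hk'
  set L' := IntermediateField.fixedField (lift U) with hL'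
  have hkfix : k'.fixingSubgroup = lift V := fixingSubgroup_fixedField_of_le (hlift V)
  have hLfix : L'.fixingSubgroup = lift U := fixingSubgroup_fixedField_of_le (hlift U)
  have := finiteDimensional_fixedField_of_le (hlift V)
  have := finiteDimensional_fixedField_of_le (hlift U)
  have hle : lift U ≤ lift V := Subgroup.comap_mono (Subgroup.map_mono hUV)
  have hnorm' : ((lift U).subgroupOf (lift V)).Normal := by
    refine ⟨fun a ha b => ?_⟩
    rw [Subgroup.mem_subgroupOf] at ha ⊢
    obtain ⟨u, hu, hu'⟩ := (hmem U _).1 ha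
    obtain ⟨v, hv, hv'⟩ := (hmem V _).1 b.2
    refine (hmem U _).2 ⟨v * u * v⁻¹, ?_, ?_⟩
    · exact Subgroup.mem_subgroupOf.1 (hn.conj_mem ⟨u, hUV hu⟩ (Subgroup.mem_subgroupOf.2 hu) ⟨v, hv⟩)
    · simp only [Subgroup.coe_mul, InvMemClass.coe_inv, QuotientGroup.mk_mul, QuotientGroup.mk_inv,
        hu', hv']
  have hindex : ((lift U).subgroupOf (lift V)).index = p := by
    show (lift U).relIndex (lift V) = p
    rw [← Subgroup.relIndex_map_map_of_injective U V P.subtype_injective] at hidx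
    rw [Subgroup.relIndex_comap, Subgroup.map_comap_eq_self_of_surjective hπ, hidx]
  obtain ⟨τ, hτ⟩ := hπ (σ : Γ ⧸ Λ)
  refine ⟨{
    base := k'
    top := L'
    gen := τ
    cyclic :=
      { finite := inferInstance
        le := fun x hx g => hx ⟨g, hle g.2⟩
        index_eq := by rw [hkfix, hLfix]; exact hindex
        normal := by rw [hkfix, hLfix]; exact hnorm' }
    finite_base := inferInstance
    base_le := fixedField_le_of_le (hlift V)
    top_le := fixedField_le_of_le (hlift U)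
    mem_base := fun g => by rw [hkfix]; exact hmem V g
    mem_top := fun g => by rw [hLfix]; exact hmem U g
    gen_eq := hτ
    gen_mem := hkfix ▸ (hmem V τ).2 ⟨σ, hσV, hτ.symm⟩
    gen_not_mem := fun h => hσU (by
      obtain ⟨u, hu, hu'⟩ := (hmem U τ).1 (hLfix ▸ h)
      rwa [Subtype.ext (hu'.trans hτ)] at hu) }⟩

section module

variable {A : Type*} [AddCommGroup A] [DistribMulAction Γ A]
  {P : Subgroup (Γ ⧸ L.fixingSubgroup)}

omit [Fact p.Prime] [FiniteDimensional ℚ L] in
/-- Being fixed by a subgroup of `P` is being fixed by its preimage. -/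
theorem mem_fixedPts_level_iff {W : Subgroup P} {F : IntermediateField ℚ Qb}
    (hF : ∀ g : Γ, g ∈ F.fixingSubgroup ↔
      ∃ w ∈ W, (w : Γ ⧸ L.fixingSubgroup) = (g : Γ ⧸ L.fixingSubgroup))
    (x : Devissage.fixedPts A L.fixingSubgroup) :
    x ∈ Devissage.fixedPts (Devissage.fixedPts A L.fixingSubgroup) W ↔
      ∀ g ∈ F.fixingSubgroup, g • (x : A) = x := by
  constructor
  · intro hx g hg
    obtain ⟨w, hw, hw'⟩ := (hF g).1 hg
    have h := congrArg Subtype.val (hx w hw)
    refine Eq.trans ?_ h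
    show g • (x : A) = (((w : Γ ⧸ L.fixingSubgroup) • x : Devissage.fixedPts A L.fixingSubgroup) : A)
    rw [hw', Devissage.coe_mk_smul]
  · intro hx w hw
    obtain ⟨g, hg⟩ := QuotientGroup.mk'_surjective L.fixingSubgroup (w : Γ ⧸ L.fixingSubgroup)
    refine Subtype.ext ?_
    show (((w : Γ ⧸ L.fixingSubgroup) • x : Devissage.fixedPts A L.fixingSubgroup) : A) = _
    rw [← hg]
    exact (Devissage.coe_mk_smul _ g x).trans (hx g ((hF g).2 ⟨w, hw, hg.symm⟩))

omit [Fact p.Prime] [FiniteDimensional ℚ L] in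
theorem coe_pow_smul {σ : P} {τ : Γ} (hτ : (τ : Γ ⧸ L.fixingSubgroup) = σ) (i : ℕ)
    (x : Devissage.fixedPts A L.fixingSubgroup) :
    ((σ ^ i • x : Devissage.fixedPts A L.fixingSubgroup) : A) = τ ^ i • (x : A) := by
  show ((((σ ^ i : P) : Γ ⧸ L.fixingSubgroup) • x : Devissage.fixedPts A L.fixingSubgroup) : A) = _
  rw [SubmonoidClass.coe_pow, ← hτ, ← QuotientGroup.mk_pow, Devissage.coe_mk_smul]

omit [Fact p.Prime] [FiniteDimensional ℚ L] in
theorem coe_powSum {σ : P} {τ : Γ} (hτ : (τ : Γ ⧸ L.fixingSubgroup) = σ)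
    (x : Devissage.fixedPts A L.fixingSubgroup) :
    ((Devissage.powSum σ p x : Devissage.fixedPts A L.fixingSubgroup) : A) =
      ∑ i ∈ Finset.range p, τ ^ i • (x : A) := by
  rw [Devissage.powSum_apply, AddSubgroup.val_finsetSum]
  exact Finset.sum_congr rfl fun i _ => coe_pow_smul hτ i x

end module

end Fermat.Agent.ClassField.Idele
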