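import Fermat.Agent.ClassField.AcyclicTransfer
import Fermat.Agent.ClassField.Idele.StepField
import Fermat.Agent.ClassField.Idele.SecondIneq.UnitNorm

/-!
# Units away from `S` of a level unramified outside `S` are cohomologically trivial
-/

set_option autoImplicit false

noncomputable section

open IntermediateField

namespace Fermat.Agent.ClassField.Idele

local notation "Qb" => AlgebraicClosure ℚ
local notation "Γ" => (AlgebraicClosure ℚ ≃ₐ[ℚ] AlgebraicClosure ℚ)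

variable (S : Set Nat.Primes)

instance unitsAwayAction : MulDistribMulAction Γ ↥(unitsAway S) where
  smul σ f := ⟨σ • (f : IdeleGroup), smul_mem_unitsAway σ f.2⟩
  one_smul f := Subtype.ext (one_smul Γ (f : IdeleGroup))
  mul_smul σ τ f := Subtype.ext (mul_smul σ τ (f : IdeleGroup))
  smul_mul σ f g := Subtype.ext (smul_mul' σ (f : IdeleGroup) (g : IdeleGroup))
  smul_one σ := Subtype.ext (smul_one σ)

/-- Units away from `S`, written additively. -/
abbrev UMod : Type := Additive ↥(unitsAway S)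

instance umodAction : DistribMulAction Γ (UMod S) where
  smul σ x := Additive.ofMul (σ • x.toMul)
  one_smul x := congrArg Additive.ofMul (one_smul Γ x.toMul)
  mul_smul σ τ x := congrArg Additive.ofMul (mul_smul σ τ x.toMul)
  smul_zero σ := congrArg Additive.ofMul (smul_one σ)
  smul_add σ x y := congrArg Additive.ofMul (smul_mul' σ x.toMul y.toMul)

variable {S}

/-- The idele of an element of `UMod`. -/
def unitIdele (x : UMod S) : IdeleGroup := ((x.toMul : ↥(unitsAway S)) : IdeleGroup)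

lemma unitIdele_smul (σ : Γ) (x : UMod S) : unitIdele (σ • x) = σ • unitIdele x := rfl

lemma unitIdele_injective : Function.Injective (unitIdele (S := S)) := fun _ _ h =>
  Additive.toMul.injective (Subtype.ext h)

lemma unitIdele_sum {κ : Type*} (s : Finset κ) (x : κ → UMod S) :
    unitIdele (∑ i ∈ s, x i) = ∏ i ∈ s, unitIdele (x i) := by
  rw [unitIdele, toMul_sum, Subgroup.val_finsetProd]
  rfl

lemma unitIdele_sub (x y : UMod S) : unitIdele (x - y) = unitIdele x * (unitIdele y)⁻¹ := by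
  rw [unitIdele, toMul_sub, div_eq_mul_inv]
  rfl

lemma isUnramifiedAt_of_le {k L k' L' : IntermediateField ℚ Qb} {ℓ : Nat.Primes}
    (h : IsUnramifiedAt k L ℓ) (hk : k ≤ k') (hL : L' ≤ L) : IsUnramifiedAt k' L' ℓ :=
  fun ι τ hτ hfix x hx => h ι τ hτ (fun y hy => hfix y (hk hy)) x (hL hx)

variable {p : ℕ} [Fact p.Prime] {L : IntermediateField ℚ Qb} [FiniteDimensional ℚ L] [Normal ℚ L]

/-- The local input in degree `-1`: unit components of norm one are quotients of units. -/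
def UnitH90 (p : ℕ) : Prop :=
  ∀ (k L : IntermediateField ℚ Qb), IsPrimeCyclic p k L → ∀ ℓ : Nat.Primes,
    IsUnramifiedAt k L ℓ → ∀ s ∈ k.fixingSubgroup, s ∉ L.fixingSubgroup → ∀ f ∈ idelesOf L,
    (∀ ι : Emb ℓ, ‖((f : Raw) ℓ ι : PadicAlgCl (ℓ : ℕ))‖ = 1) →
    (∀ ι : Emb ℓ, ((relNorm k L f : IdeleGroup) : Raw) ℓ ι = 1) →
    ∃ g ∈ idelesOf L, (∀ ι : Emb ℓ, ‖((g : Raw) ℓ ι : PadicAlgCl (ℓ : ℕ))‖ = 1) ∧
      ∀ ι : Emb ℓ, ((s • g * g⁻¹ : IdeleGroup) : Raw) ℓ ι = (f : Raw) ℓ ι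

omit [Fact p.Prime] [FiniteDimensional ℚ L] [Normal ℚ L] in
/-- Glueing unit components. -/
lemma exists_glue_units {F : IntermediateField ℚ Qb} [FiniteDimensional ℚ F] (S : Set Nat.Primes)
    (g : Nat.Primes → IdeleGroup) (hg : ∀ ℓ ∉ S, g ℓ ∈ idelesOf F)
    (hunit : ∀ ℓ ∉ S, ∀ ι : Emb ℓ, ‖((g ℓ : Raw) ℓ ι : PadicAlgCl (ℓ : ℕ))‖ = 1) :
    ∃ G ∈ idelesOf F, G ∈ unitsAway S ∧
      ∀ ℓ ∉ S, ∀ ι : Emb ℓ, (G : Raw) ℓ ι = (g ℓ : Raw) ℓ ι := by
  classical
  let G : Raw := fun ℓ ι => if ℓ ∈ S then 1 else (g ℓ : Raw) ℓ ι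
  have hGfix : ∀ σ ∈ F.fixingSubgroup, σ • G = G := fun σ hσ => Raw.ext fun ℓ ι => by
    show G ℓ (globalComp ι σ) = G ℓ ι
    by_cases h : ℓ ∈ S
    · simp [G, h]
    · simp only [G, if_neg h]
      exact congrArg (fun x : IdeleGroup => (x : Raw) ℓ ι) (hg ℓ h σ hσ)
  have hG : G ∈ ideles := ⟨fun ℓ τ ι => by
      by_cases h : ℓ ∈ S
      · simp [G, h]
      · simp only [G, if_neg h]
        exact (g ℓ).2.1 ℓ τ ι,
    ⟨F, inferInstance, hGfix⟩, ⟨∅, fun ℓ _ ι => by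
      by_cases h : ℓ ∈ S
      · simp [G, h]
      · simp only [G, if_neg h]
        exact hunit ℓ h ι⟩⟩
  refine ⟨⟨G, hG⟩, fun σ hσ => Subtype.ext (hGfix σ hσ), ⟨fun ℓ h ι => if_pos h,
    fun ℓ h ι => ?_⟩, fun ℓ h ι => if_neg h⟩
  show ‖((if ℓ ∈ S then 1 else (g ℓ : Raw) ℓ ι : (PadicAlgCl (ℓ : ℕ))ˣ) : PadicAlgCl (ℓ : ℕ))‖ = 1
  rw [if_neg h]
  exact hunit ℓ h ι

omit [Fact p.Prime] [FiniteDimensional ℚ L] [Normal ℚ L] in
lemma coe_smul_div_apply (s : Γ) (g : IdeleGroup) (ℓ : Nat.Primes) (ι : Emb ℓ) :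
    ((s • g * g⁻¹ : IdeleGroup) : Raw) ℓ ι =
      (g : Raw) ℓ (globalComp ι s) * ((g : Raw) ℓ ι)⁻¹ := rfl

/-- Units away from `S` are cohomologically trivial in the steps of index `p` inside a level
unramified outside `S`. -/
theorem unitsAway_stepAcyclic (hH : UnitH90 p) (hL : ∀ ℓ ∉ S, IsUnramifiedAt ⊥ L ℓ)
    (P : Subgroup (Γ ⧸ L.fixingSubgroup)) :
    Devissage.StepAcyclic (Devissage.fixedPts (UMod S) L.fixingSubgroup) P p := by
  classical
  intro V U hUV hn hidx σ hσV hσU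
  obtain ⟨D⟩ := nonempty_stepFields P hUV hn hidx hσV hσU
  have := D.finite_base
  have := D.cyclic.finite
  have hur : ∀ ℓ ∉ S, IsUnramifiedAt D.base D.top ℓ := fun ℓ hℓ =>
    isUnramifiedAt_of_le (hL ℓ hℓ) bot_le D.top_le
  have hfixtop : ∀ x : Devissage.fixedPts (UMod S) L.fixingSubgroup,
      x ∈ Devissage.fixedPts (Devissage.fixedPts (UMod S) L.fixingSubgroup) U ↔
        unitIdele (x : UMod S) ∈ idelesOf D.top := fun x => by
    rw [mem_fixedPts_level_iff D.mem_top]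
    exact forall₂_congr fun g _ => unitIdele_injective.eq_iff.symm
  have hfixbase : ∀ x : Devissage.fixedPts (UMod S) L.fixingSubgroup,
      x ∈ Devissage.fixedPts (Devissage.fixedPts (UMod S) L.fixingSubgroup) V ↔
        unitIdele (x : UMod S) ∈ idelesOf D.base := fun x => by
    rw [mem_fixedPts_level_iff D.mem_base]
    exact forall₂_congr fun g _ => unitIdele_injective.eq_iff.symm
  have mk : ∀ G : IdeleGroup, G ∈ idelesOf D.top → G ∈ unitsAway S →
      ∃ y : Devissage.fixedPts (UMod S) L.fixingSubgroup,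
        y ∈ Devissage.fixedPts (Devissage.fixedPts (UMod S) L.fixingSubgroup) U ∧
          unitIdele (y : UMod S) = G := fun G hG hGu => by
    refine ⟨⟨Additive.ofMul (⟨G, hGu⟩ : ↥(unitsAway S)), fun g hg => unitIdele_injective ?_⟩,
      ?_, rfl⟩
    · exact hG g (fixingSubgroup_antitone D.top_le hg)
    · rw [hfixtop]
      exact hG
  have hsum : ∀ x : Devissage.fixedPts (UMod S) L.fixingSubgroup,
      unitIdele (x : UMod S) ∈ idelesOf D.top →
        unitIdele ((Devissage.powSum σ p x : Devissage.fixedPts (UMod S) L.fixingSubgroup) :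
          UMod S) = relNorm D.base D.top (unitIdele (x : UMod S)) := fun x hx => by
    rw [coe_powSum D.gen_eq, unitIdele_sum,
      relNorm_eq_prod_pow D.cyclic D.gen_mem D.gen_not_mem hx]
    rfl
  refine ⟨fun x hx h0 => ?_, fun x hx => ?_⟩
  · have hxL := (hfixtop x).1 hx
    have hN : relNorm D.base D.top (unitIdele (x : UMod S)) = 1 := by
      rw [← hsum x hxL, h0]
      rfl
    have hloc : ∀ ℓ, ∃ g : IdeleGroup, ℓ ∉ S → g ∈ idelesOf D.top ∧
        (∀ ι : Emb ℓ, ‖((g : Raw) ℓ ι : PadicAlgCl (ℓ : ℕ))‖ = 1) ∧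
        ∀ ι : Emb ℓ, ((D.gen • g * g⁻¹ : IdeleGroup) : Raw) ℓ ι =
          (unitIdele (x : UMod S) : Raw) ℓ ι := fun ℓ => by
      by_cases h : ℓ ∈ S
      · exact ⟨1, fun h' => absurd h h'⟩
      · obtain ⟨g, hg, hu, he⟩ := hH _ _ D.cyclic ℓ (hur ℓ h) D.gen D.gen_mem D.gen_not_mem _ hxL
          (fun ι => ((x : UMod S).toMul.2).2 ℓ h ι) (fun ι => by rw [hN]; rfl)
        exact ⟨g, fun _ => ⟨hg, hu, he⟩⟩
    choose g hg using hloc
    obtain ⟨G, hG, hGu, hGe⟩ := exists_glue_units S g (fun ℓ h => (hg ℓ h).1)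
      (fun ℓ h => (hg ℓ h).2.1)
    obtain ⟨y, hy, hyG⟩ := mk G hG hGu
    refine ⟨y, hy, Subtype.ext (unitIdele_injective (Subtype.ext (Raw.ext fun ℓ ι => ?_)))⟩
    have e := coe_pow_smul (A := UMod S) D.gen_eq 1 y
    rw [pow_one, pow_one] at e
    rw [AddSubgroup.coe_sub, unitIdele_sub, e, unitIdele_smul, hyG, coe_smul_div_apply]
    by_cases h : ℓ ∈ S
    · rw [hGu.1 ℓ h, hGu.1 ℓ h, inv_one, mul_one]
      exact (((x : UMod S).toMul.2).1 ℓ h ι).symm
    · rw [hGe ℓ h, hGe ℓ h, ← coe_smul_div_apply]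
      exact (hg ℓ h).2.2 ι
  · have hxk := (hfixbase x).1 hx
    have hloc : ∀ ℓ, ∃ g : IdeleGroup, ℓ ∉ S → g ∈ idelesOf D.top ∧
        (∀ ι : Emb ℓ, ‖((g : Raw) ℓ ι : PadicAlgCl (ℓ : ℕ))‖ = 1) ∧
        ∀ ι : Emb ℓ, ((relNorm D.base D.top g : IdeleGroup) : Raw) ℓ ι =
          (unitIdele (x : UMod S) : Raw) ℓ ι := fun ℓ => by
      by_cases h : ℓ ∈ S
      · exact ⟨1, fun h' => absurd h h'⟩
      · obtain ⟨g, hg, -, hu, he⟩ := exists_relNorm_eq_of_unit D.cyclic (hur ℓ h) hxk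
          (fun ι => ((x : UMod S).toMul.2).2 ℓ h ι)
        exact ⟨g, fun _ => ⟨hg, hu, he⟩⟩
    choose g hg using hloc
    obtain ⟨G, hG, hGu, hGe⟩ := exists_glue_units S g (fun ℓ h => (hg ℓ h).1)
      (fun ℓ h => (hg ℓ h).2.1)
    obtain ⟨y, hy, hyG⟩ := mk G hG hGu
    refine ⟨y, hy, Subtype.ext (unitIdele_injective (Subtype.ext (Raw.ext fun ℓ ι => ?_)))⟩
    rw [hsum y ((hfixtop y).1 hy), hyG, SecondIneq.relNorm_component]
    by_cases h : ℓ ∈ S
    · rw [finprod_eq_one_of_forall_eq_one fun q => hGu.1 ℓ h _]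
      exact (((x : UMod S).toMul.2).1 ℓ h ι).symm
    · rw [← (hg ℓ h).2.2 ι, SecondIneq.relNorm_component]
      exact finprod_congr fun q => hGe ℓ h _

end Fermat.Agent.ClassField.Idele
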